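import Mathlib
import Fermat.Prelude.Def_EllipticCurve_FrobeniusTrace

/-!
# Pillar CHEB, module F1 (part 1): valuation subrings above a prime of a subring

General lemmas (no number fields yet):

* `F1_exists_valuationSubring`: for an injective ring hom `f : R →+* K` into a field and a proper
  ideal `P` of `R` there is a valuation subring `A` of `K` containing `f R` whose maximal ideal
  contains `f P`.
* `F1_mem_of_mem_nonunits`: if `P` is maximal, then `f x ∈ A.nonunits ↔ x ∈ P`.
* `F1_frob_sub_mem_nonunits`: a Frobenius element at `A` satisfies `σ a - a ^ q ∈ A.nonunits`.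
* `F1_inertia_sub_mem_nonunits`: an element of the inertia group at `A` satisfies
  `σ a - a ∈ A.nonunits`.
-/

set_option autoImplicit false

namespace Fermat.Agent.Cheb

section General

variable {R : Type*} [CommRing R] {K : Type*} [Field K]

/-- Chevalley: a valuation subring dominating a proper ideal of a subring. -/
theorem F1_exists_valuationSubring (f : R →+* K) (hf : Function.Injective f) (P : Ideal R)
    (hP : P ≠ ⊤) :
    ∃ A : ValuationSubring K, (∀ x, f x ∈ A) ∧ ∀ x ∈ P, f x ∈ A.nonunits := by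
  let g : R →+* f.range := f.rangeRestrict
  have hg : Function.Surjective g := f.rangeRestrict_surjective
  have hI : P.map g ≠ ⊤ := by
    intro h
    rw [Ideal.eq_top_iff_one, Ideal.mem_map_iff_of_surjective g hg] at h
    obtain ⟨x, hx, hx1⟩ := h
    have h1 : f x = 1 := congrArg Subtype.val hx1
    have h2 : x = 1 := hf (by rw [h1, map_one])
    exact hP ((Ideal.eq_top_iff_one P).mpr (h2 ▸ hx))
  obtain ⟨A, hA1, hA2⟩ := Ideal.image_subset_nonunits_valuationSubring (P.map g) hI
  refine ⟨A, fun x => hA1 ⟨x, rfl⟩, fun x hx => hA2 ⟨g x, Ideal.mem_map_of_mem g hx, rfl⟩⟩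

/-- If `P` is maximal and `A` dominates `P`, then the maximal ideal of `A` cuts out exactly `P`. -/
theorem F1_mem_of_mem_nonunits (f : R →+* K) (P : Ideal R) [hP : P.IsMaximal]
    (A : ValuationSubring K) (hA1 : ∀ x, f x ∈ A) (hA2 : ∀ x ∈ P, f x ∈ A.nonunits)
    {x : R} (hx : f x ∈ A.nonunits) : x ∈ P := by
  by_contra hxP
  obtain ⟨y, z, hz, hxyz⟩ := hP.exists_inv hxP
  have h1 : f y * f x + f z = 1 := by rw [← map_mul, ← map_add, hxyz, map_one]
  have hmem : (1 : K) ∈ A.nonunits := by
    rw [← h1]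
    have hz' := hA2 z hz
    rw [ValuationSubring.mem_nonunits_iff] at hx hz' ⊢
    refine Valuation.map_add_lt _ ?_ hz'
    rw [map_mul, mul_comm]
    exact mul_lt_one_of_nonneg_of_lt_one_left zero_le hx ((A.valuation_le_one_iff _).mpr (hA1 y))
  rw [ValuationSubring.mem_nonunits_iff, map_one] at hmem
  exact lt_irrefl _ hmem

end General

section Galois

variable {k L : Type*} [Field k] [Field L] [Algebra k L] (A : ValuationSubring L)

/-- A Frobenius element at `A` maps `A` to `A` and is `x ↦ x ^ q` modulo the maximal ideal. -/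
theorem F1_frob_sub_mem_nonunits {σ : L ≃ₐ[k] L} {q : ℕ} (hσ : A.IsFrobeniusAt σ q) {z : L}
    (hz : z ∈ A) : σ z ∈ A ∧ σ z - z ^ q ∈ A.nonunits := by
  obtain ⟨hmemσ, hfrob⟩ := hσ
  set τ : A.decompositionSubgroup k := ⟨σ, hmemσ⟩ with hτ
  have hmem : σ z ∈ A := ((τ • (⟨z, hz⟩ : A) : A)).2
  refine ⟨hmem, ?_⟩
  have h1 := hfrob (IsLocalRing.residue A ⟨z, hz⟩)
  rw [← IsLocalRing.ResidueField.residue_smul, ← map_pow, ← sub_eq_zero, ← map_sub,
    IsLocalRing.residue_eq_zero_iff] at h1
  rw [ValuationSubring.mem_nonunits_iff_exists_mem_maximalIdeal]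
  exact ⟨sub_mem hmem (pow_mem hz q), h1⟩

/-- An element of the inertia group at `A` maps `A` to `A` and is trivial modulo the maximal
ideal. -/
theorem F1_inertia_sub_mem_nonunits {σ : L ≃ₐ[k] L} (hσ : σ ∈ A.inertiaSubgroupIn k) {z : L}
    (hz : z ∈ A) : σ z ∈ A ∧ σ z - z ∈ A.nonunits := by
  obtain ⟨τ, hτ, rfl⟩ := hσ
  have hmem : (τ : L ≃ₐ[k] L) z ∈ A := ((τ • (⟨z, hz⟩ : A) : A)).2
  refine ⟨hmem, ?_⟩
  have hker : MulSemiringAction.toRingAut (A.decompositionSubgroup k)
      (IsLocalRing.ResidueField A) τ = 1 := hτ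
  have h1 : τ • IsLocalRing.residue A ⟨z, hz⟩ = IsLocalRing.residue A ⟨z, hz⟩ := by
    have := congrArg (fun e : RingAut (IsLocalRing.ResidueField A) =>
      e (IsLocalRing.residue A ⟨z, hz⟩)) hker
    simpa using this
  rw [← IsLocalRing.ResidueField.residue_smul] at h1
  have h2 : IsLocalRing.residue A (τ • (⟨z, hz⟩ : A) - ⟨z, hz⟩) = 0 := by
    rw [map_sub, h1, sub_self]
  rw [IsLocalRing.residue_eq_zero_iff] at h2
  rw [ValuationSubring.mem_nonunits_iff_exists_mem_maximalIdeal]
  exact ⟨sub_mem hmem hz, h2⟩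

end Galois

end Fermat.Agent.Cheb
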