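import Mathlib

/-!
# Pillar CHEB (weak Chebotarev): shared definitions

* `IsDegOne K 𝔭`: the nonzero prime `𝔭` of `𝓞 K` has absolute degree one.
* `HasLogAsymp f c`: `f s = c * log (1 / (s - 1)) + O(1)` for `1 < s ≤ 2`.
* `SplitsCompletely K E 𝔭`: the prime `𝔭` of `K` is unramified with residue degree one in the
  Galois extension `E / K`.
-/

set_option autoImplicit false

open NumberField IsDedekindDomain

namespace Fermat.Agent.Cheb

/-- The nonzero prime `𝔭` of `𝓞 K` has absolute degree one: its absolute norm is a prime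
number. -/
def IsDegOne (K : Type*) [Field K] [NumberField K] (𝔭 : HeightOneSpectrum (𝓞 K)) : Prop :=
  (Ideal.absNorm 𝔭.asIdeal).Prime

/-- `f s = c * log (1 / (s - 1)) + O(1)` for `1 < s ≤ 2`. -/
def HasLogAsymp (f : ℝ → ℝ) (c : ℝ) : Prop :=
  ∃ C : ℝ, ∀ s : ℝ, 1 < s → s ≤ 2 → |f s - c * Real.log (1 / (s - 1))| ≤ C

/-- The prime `𝔭` of `K` splits completely in the Galois extension `E / K`
(unramified with residue degree one). -/
def SplitsCompletely (K E : Type*) [Field K] [NumberField K] [Field E] [NumberField E]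
    [Algebra K E] (𝔭 : HeightOneSpectrum (𝓞 K)) : Prop :=
  𝔭.asIdeal.ramificationIdxIn (𝓞 E) = 1 ∧ 𝔭.asIdeal.inertiaDegIn (𝓞 E) = 1

/-- The prime `𝔭` of `K` is unramified and inert in the Galois extension `L / K`. -/
def IsInert (K L : Type*) [Field K] [NumberField K] [Field L] [NumberField L]
    [Algebra K L] (𝔭 : HeightOneSpectrum (𝓞 K)) : Prop :=
  𝔭.asIdeal.ramificationIdxIn (𝓞 L) = 1 ∧ 𝔭.asIdeal.inertiaDegIn (𝓞 L) = Module.finrank K L

end Fermat.Agent.Cheb
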