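import Mathlib
import Fermat.Agent.Cheb.Defs
import Fermat.Agent.Cheb.BridgeVal
import Fermat.Agent.S54.Frobenius

/-!
# Pillar CHEB, module F1 (part 2): from primes of a number field to `Gal(ℚ̄/ℚ)`

`exists_isFrobeniusAt_pow_of`: the weak Chebotarev statement for a finite Galois subextension
`L ⊆ ℚ̄` in the language of prime ideals of `𝓞 L` (module E1, taken here as a hypothesis for the
number field `↥L`) implies the statement in the language of valuation subrings of `ℚ̄` and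
Frobenius elements of `Gal(ℚ̄/ℚ)`.
-/

set_option autoImplicit false

open NumberField IsDedekindDomain

namespace Fermat.Agent.Cheb

section F

variable (L : IntermediateField ℚ (AlgebraicClosure ℚ))

/-- A finite subextension of `ℚ̄ / ℚ` is a number field. -/
theorem F1_numberField [FiniteDimensional ℚ L] : NumberField L := ⟨⟩

/-- For a prime `𝔓` of `𝓞 L` containing the rational prime `p`, `𝔓` lies over `(p)`. -/
theorem F1_liesOver {p : ℕ} (hp : p.Prime) (𝔓 : Ideal (𝓞 L)) [h𝔓 : 𝔓.IsPrime]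
    (hp𝔓 : (p : 𝓞 L) ∈ 𝔓) : 𝔓.LiesOver (Ideal.span {(p : ℤ)}) := by
  have : Fact p.Prime := ⟨hp⟩
  have hmax : (Ideal.span {(p : ℤ)}).IsMaximal := inferInstance
  have hle : Ideal.span {(p : ℤ)} ≤ 𝔓.under ℤ := by
    rw [Ideal.span_le, Set.singleton_subset_iff]
    show algebraMap ℤ (𝓞 L) (p : ℤ) ∈ 𝔓
    simpa using hp𝔓
  have hne : 𝔓.under ℤ ≠ ⊤ := (Ideal.IsPrime.under ℤ 𝔓).ne_top
  exact ⟨hmax.eq_of_le hne hle⟩

variable [FiniteDimensional ℚ L] [IsGalois ℚ L]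

/-- **F1, relative form.** Weak Chebotarev for the number field `↥L` (in the language of prime
ideals of `𝓞 L`) gives weak Chebotarev for `Gal(ℚ̄/ℚ)` in the language of valuation subrings. -/
theorem exists_isFrobeniusAt_pow_of
    (τ : AlgebraicClosure ℚ ≃ₐ[ℚ] AlgebraicClosure ℚ) (S : Finset ℕ)
    (hE1 : ∃ (p : ℕ) (𝔓 : Ideal (𝓞 L)) (k : ℕ), p.Prime ∧ p ∉ S ∧ 𝔓.IsPrime ∧
      (p : 𝓞 L) ∈ 𝔓 ∧ (Ideal.span {(p : ℤ)}).ramificationIdxIn (𝓞 L) = 1 ∧
      Nat.Coprime k (orderOf (AlgEquiv.restrictNormalHom L τ)) ∧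
      IsArithFrobAt ℤ ((AlgEquiv.restrictNormalHom L τ) ^ k) 𝔓) :
    ∃ (p : ℕ) (A : ValuationSubring (AlgebraicClosure ℚ))
      (σ : AlgebraicClosure ℚ ≃ₐ[ℚ] AlgebraicClosure ℚ) (k : ℕ),
      p.Prime ∧ p ∉ S ∧ A.LiesOverPrime p ∧ A.IsFrobeniusAt σ p ∧
      (∀ g ∈ A.inertiaSubgroupIn ℚ, ∀ x ∈ L, g x = x) ∧
      Nat.Coprime k (orderOf (AlgEquiv.restrictNormalHom L τ)) ∧
      ∀ x ∈ L, σ x = (τ ^ k) x := by
  obtain ⟨p, 𝔓, k, hp, hpS, h𝔓, hp𝔓, hram, hk, hfrob⟩ := hE1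
  have := F1_numberField L
  have : Fact p.Prime := ⟨hp⟩
  have := h𝔓
  have h𝔓0 : 𝔓 ≠ ⊥ := by
    intro h
    rw [h, Ideal.mem_bot] at hp𝔓
    exact hp.ne_zero (by exact_mod_cast hp𝔓)
  have h𝔓max : 𝔓.IsMaximal := h𝔓.isMaximal h𝔓0
  have hlo : 𝔓.LiesOver (Ideal.span {(p : ℤ)}) := F1_liesOver L hp 𝔓 hp𝔓
  -- the inertia group of `𝔓` is trivial
  have hinert : Nat.card (𝔓.inertia Gal(L/ℚ)) = 1 := by
    rw [Ideal.card_inertia_eq_ramificationIdxIn (Ideal.span {(p : ℤ)}) 𝔓, hram]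
  have hcard : Nat.card (ℤ ⧸ 𝔓.under ℤ) = p := by
    rw [← hlo.over, Nat.card_congr (Int.quotientSpanNatEquivZMod p).toEquiv, Nat.card_zmod]
  -- the embedding of `𝓞 L` into `ℚ̄`
  let f : 𝓞 L →+* AlgebraicClosure ℚ := algebraMap (𝓞 L) (AlgebraicClosure ℚ)
  have hf : Function.Injective f := by
    have h1 : Function.Injective (algebraMap L (AlgebraicClosure ℚ)) :=
      (algebraMap L (AlgebraicClosure ℚ)).injective
    have h2 : Function.Injective (algebraMap (𝓞 L) L) := RingOfIntegers.coe_injective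
    exact h1.comp h2
  have hfg : ∀ (g : AlgebraicClosure ℚ ≃ₐ[ℚ] AlgebraicClosure ℚ) (x : 𝓞 L),
      f (AlgEquiv.restrictNormalHom L g • x) = g (f x) := fun g x =>
    AlgEquiv.restrictNormal_commutes g L (x : L)
  obtain ⟨A, hA1, hA2⟩ := F1_exists_valuationSubring f hf 𝔓 h𝔓.ne_top
  have hAp : A.LiesOverPrime p := by
    have h := hA2 _ hp𝔓
    have e : f (p : 𝓞 L) = (p : AlgebraicClosure ℚ) := map_natCast f p
    rw [e] at h
    exact h
  obtain ⟨σ, hσ⟩ := Fermat.Agent.S54.exists_isFrobeniusAt_of_liesOverPrime hp A hAp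
  -- an element of `Gal(L/ℚ)` acting trivially modulo the maximal ideal of `A` is trivial
  have key : ∀ g : Gal(L/ℚ), (∀ x : 𝓞 L, f (g • x) - f x ∈ A.nonunits) → g = 1 := by
    intro g hg
    have hmem : g ∈ 𝔓.inertia Gal(L/ℚ) := fun x =>
      F1_mem_of_mem_nonunits f 𝔓 A hA1 hA2 (by rw [map_sub]; exact hg x)
    have : Subsingleton (𝔓.inertia Gal(L/ℚ)) :=
      (Nat.card_eq_one_iff_unique.mp hinert).1
    have h1 : (⟨g, hmem⟩ : 𝔓.inertia Gal(L/ℚ)) = 1 := Subsingleton.elim _ _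
    exact congrArg Subtype.val h1
  -- the restriction of `σ` to `L` is an arithmetic Frobenius at `𝔓`
  have hσL : IsArithFrobAt ℤ (AlgEquiv.restrictNormalHom L σ) 𝔓 := by
    intro x
    rw [hcard]
    refine F1_mem_of_mem_nonunits f 𝔓 A hA1 hA2 ?_
    rw [map_sub, map_pow]
    show f (AlgEquiv.restrictNormalHom L σ • x) - f x ^ p ∈ A.nonunits
    rw [hfg]
    exact (F1_frob_sub_mem_nonunits A hσ (hA1 x)).2
  have hmul : AlgEquiv.restrictNormalHom L σ * ((AlgEquiv.restrictNormalHom L τ) ^ k)⁻¹ = 1 := by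
    have hmem := IsArithFrobAt.mul_inv_mem_inertia hσL hfrob
    have : Subsingleton (𝔓.inertia Gal(L/ℚ)) :=
      (Nat.card_eq_one_iff_unique.mp hinert).1
    have h1 : (⟨_, hmem⟩ : 𝔓.inertia Gal(L/ℚ)) = 1 := Subsingleton.elim _ _
    exact congrArg Subtype.val h1
  have hres : AlgEquiv.restrictNormalHom L σ = AlgEquiv.restrictNormalHom L (τ ^ k) := by
    rw [map_pow]
    exact mul_inv_eq_one.mp hmul
  refine ⟨p, A, σ, k, hp, hpS, hAp, hσ, ?_, hk, ?_⟩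
  · intro g hg x hx
    have h1 : AlgEquiv.restrictNormalHom L g = 1 := by
      refine key _ (fun y => ?_)
      rw [hfg]
      exact (F1_inertia_sub_mem_nonunits A hg (hA1 y)).2
    have h2 := AlgEquiv.restrictNormal_commutes g L (⟨x, hx⟩ : L)
    have h3 : (AlgEquiv.restrictNormalHom L g) (⟨x, hx⟩ : L) = ⟨x, hx⟩ := by
      rw [h1]; rfl
    have h4 : (g.restrictNormal L) (⟨x, hx⟩ : L) = ⟨x, hx⟩ := h3
    rw [h4] at h2
    exact h2.symm
  · intro x hx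
    have h2 := AlgEquiv.restrictNormal_commutes σ L (⟨x, hx⟩ : L)
    have h3 := AlgEquiv.restrictNormal_commutes (τ ^ k) L (⟨x, hx⟩ : L)
    have h4 : (σ.restrictNormal L) (⟨x, hx⟩ : L) = ((τ ^ k).restrictNormal L) (⟨x, hx⟩ : L) :=
      congrArg (fun e : Gal(L/ℚ) => e (⟨x, hx⟩ : L)) hres
    rw [h4, h3] at h2
    exact h2.symm

end F

end Fermat.Agent.Cheb
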