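import Mathlib
import Fermat.Agent.Cheb.Defs

/-!
# Pillar CHEB: calculus of `HasLogAsymp` and of prime zeta sums

`HasLogAsymp f c` means `f s = c * log (1 / (s - 1)) + O(1)` for `1 < s ≤ 2`.  This file
contains the closure properties of this predicate and the basic manipulations of the prime zeta
sums `NumberField.Set.primeIdealZetaSum` used in the proof of the weak Chebotarev theorem.
-/

set_option autoImplicit false

open NumberField IsDedekindDomain

namespace Fermat.Agent.Cheb

section calculus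

theorem HasLogAsymp.congr {f g : ℝ → ℝ} {c : ℝ} (hf : HasLogAsymp f c)
    (h : ∀ s : ℝ, 1 < s → s ≤ 2 → f s = g s) : HasLogAsymp g c := by
  obtain ⟨C, hC⟩ := hf
  exact ⟨C, fun s hs hs2 ↦ by rw [← h s hs hs2]; exact hC s hs hs2⟩

theorem HasLogAsymp.add {f g : ℝ → ℝ} {c d : ℝ} (hf : HasLogAsymp f c) (hg : HasLogAsymp g d) :
    HasLogAsymp (fun s ↦ f s + g s) (c + d) := by
  obtain ⟨C, hC⟩ := hf
  obtain ⟨D, hD⟩ := hg
  refine ⟨C + D, fun s hs hs2 ↦ ?_⟩
  have h1 := hC s hs hs2
  have h2 := hD s hs hs2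
  have : f s + g s - (c + d) * Real.log (1 / (s - 1)) =
      (f s - c * Real.log (1 / (s - 1))) + (g s - d * Real.log (1 / (s - 1))) := by ring
  rw [this]
  exact (abs_add_le _ _).trans (add_le_add h1 h2)

theorem HasLogAsymp.const_mul {f : ℝ → ℝ} {c : ℝ} (hf : HasLogAsymp f c) (a : ℝ) :
    HasLogAsymp (fun s ↦ a * f s) (a * c) := by
  obtain ⟨C, hC⟩ := hf
  refine ⟨|a| * C, fun s hs hs2 ↦ ?_⟩
  have h1 := hC s hs hs2
  have : a * f s - a * c * Real.log (1 / (s - 1)) = a * (f s - c * Real.log (1 / (s - 1))) := by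
    ring
  rw [this, abs_mul]
  exact mul_le_mul_of_nonneg_left h1 (abs_nonneg a)

theorem HasLogAsymp.neg {f : ℝ → ℝ} {c : ℝ} (hf : HasLogAsymp f c) :
    HasLogAsymp (fun s ↦ - f s) (- c) := by
  simpa using hf.const_mul (-1)

theorem HasLogAsymp.sub {f g : ℝ → ℝ} {c d : ℝ} (hf : HasLogAsymp f c) (hg : HasLogAsymp g d) :
    HasLogAsymp (fun s ↦ f s - g s) (c - d) := by
  simpa [sub_eq_add_neg] using hf.add hg.neg

/-- A function bounded on `(1, 2]` has logarithmic asymptotics with constant `0`. -/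
theorem hasLogAsymp_zero_of_bounded {f : ℝ → ℝ} {C : ℝ}
    (h : ∀ s : ℝ, 1 < s → s ≤ 2 → |f s| ≤ C) : HasLogAsymp f 0 :=
  ⟨C, fun s hs hs2 ↦ by simpa using h s hs hs2⟩

theorem HasLogAsymp.add_bounded {f g : ℝ → ℝ} {c C : ℝ} (hf : HasLogAsymp f c)
    (h : ∀ s : ℝ, 1 < s → s ≤ 2 → |g s| ≤ C) : HasLogAsymp (fun s ↦ f s + g s) c := by
  simpa using hf.add (hasLogAsymp_zero_of_bounded h)

theorem HasLogAsymp.sub_bounded {f g : ℝ → ℝ} {c C : ℝ} (hf : HasLogAsymp f c)
    (h : ∀ s : ℝ, 1 < s → s ≤ 2 → |g s| ≤ C) : HasLogAsymp (fun s ↦ f s - g s) c := by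
  simpa using hf.sub (hasLogAsymp_zero_of_bounded h)

theorem hasLogAsymp_finset_sum {ι : Type*} (t : Finset ι) {f : ι → ℝ → ℝ} {c : ι → ℝ}
    (h : ∀ i ∈ t, HasLogAsymp (f i) (c i)) :
    HasLogAsymp (fun s ↦ ∑ i ∈ t, f i s) (∑ i ∈ t, c i) := by
  classical
  induction t using Finset.induction_on with
  | empty => exact ⟨0, fun s _ _ ↦ by simp⟩
  | insert i t hi ih =>
    simp only [Finset.sum_insert hi]
    exact (h i (Finset.mem_insert_self i t)).add
      (ih fun j hj ↦ h j (Finset.mem_insert_of_mem hj))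

/-- A function with logarithmic asymptotics with a positive constant is unbounded on
`(1, 2]`. -/
theorem HasLogAsymp.not_bounded {f : ℝ → ℝ} {c : ℝ} (hc : 0 < c) (hf : HasLogAsymp f c)
    (B : ℝ) : ∃ s : ℝ, 1 < s ∧ s ≤ 2 ∧ B < f s := by
  obtain ⟨C, hC⟩ := hf
  -- choose `s = 1 + exp (-t)` with `t` large
  set t : ℝ := max 0 ((B + C + 1) / c) with ht
  have ht0 : 0 ≤ t := le_max_left _ _
  have htc : (B + C + 1) / c ≤ t := le_max_right _ _
  refine ⟨1 + Real.exp (-t), by linarith [Real.exp_pos (-t)], ?_, ?_⟩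
  · have : Real.exp (-t) ≤ 1 := Real.exp_le_one_iff.mpr (by linarith)
    linarith
  · have hs1 : (1 : ℝ) < 1 + Real.exp (-t) := by linarith [Real.exp_pos (-t)]
    have hs2 : 1 + Real.exp (-t) ≤ 2 := by
      have : Real.exp (-t) ≤ 1 := Real.exp_le_one_iff.mpr (by linarith)
      linarith
    have h := hC _ hs1 hs2
    have hlog : Real.log (1 / (1 + Real.exp (-t) - 1)) = t := by
      rw [add_sub_cancel_left, one_div, ← Real.exp_neg, neg_neg, Real.log_exp]
    rw [hlog] at h
    have h1 := (abs_le.mp h).1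
    have h2 : B + C + 1 ≤ c * t := by
      rw [div_le_iff₀ hc] at htc
      linarith
    linarith

end calculus

section zetaSum

variable {K : Type*} [Field K] [NumberField K]

/-- The weight `N𝔭 ^ (-s)`. -/
noncomputable def wt (K : Type*) [Field K] [NumberField K] (s : ℝ)
    (𝔭 : HeightOneSpectrum (𝓞 K)) : ℝ :=
  (Ideal.absNorm 𝔭.asIdeal : ℝ) ^ (-s)

theorem wt_nonneg (s : ℝ) (𝔭 : HeightOneSpectrum (𝓞 K)) : 0 ≤ wt K s 𝔭 := by
  unfold wt
  positivity

theorem primeIdealZetaSum_eq_tsum_indicator (T : Set (HeightOneSpectrum (𝓞 K))) (s : ℝ) :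
    NumberField.Set.primeIdealZetaSum T s = ∑' 𝔭, T.indicator (wt K s) 𝔭 := by
  rw [NumberField.Set.primeIdealZetaSum_def]
  exact tsum_subtype T (wt K s)

theorem summable_indicator_wt {s : ℝ} (hsum : Summable (wt K s))
    (T : Set (HeightOneSpectrum (𝓞 K))) : Summable (T.indicator (wt K s)) :=
  hsum.indicator T

/-- Monotonicity of prime zeta sums. -/
theorem primeIdealZetaSum_mono {s : ℝ} (hsum : Summable (wt K s))
    {T T' : Set (HeightOneSpectrum (𝓞 K))} (h : T ⊆ T') :
    NumberField.Set.primeIdealZetaSum T s ≤ NumberField.Set.primeIdealZetaSum T' s := by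
  rw [primeIdealZetaSum_eq_tsum_indicator, primeIdealZetaSum_eq_tsum_indicator]
  refine (summable_indicator_wt hsum T).tsum_le_tsum (fun 𝔭 ↦ ?_) (summable_indicator_wt hsum T')
  exact Set.indicator_le_indicator_of_subset h (wt_nonneg s) 𝔭

/-- Additivity of prime zeta sums on disjoint sets. -/
theorem primeIdealZetaSum_union {s : ℝ} (hsum : Summable (wt K s))
    {T T' : Set (HeightOneSpectrum (𝓞 K))} (h : Disjoint T T') :
    NumberField.Set.primeIdealZetaSum (T ∪ T') s =
      NumberField.Set.primeIdealZetaSum T s + NumberField.Set.primeIdealZetaSum T' s := by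
  rw [primeIdealZetaSum_eq_tsum_indicator, primeIdealZetaSum_eq_tsum_indicator,
    primeIdealZetaSum_eq_tsum_indicator,
    ← (summable_indicator_wt hsum T).tsum_add (summable_indicator_wt hsum T')]
  congr 1
  ext 𝔭
  rw [Set.indicator_union_of_disjoint h]

/-- Removing a finite set changes a prime zeta sum by a bounded amount. -/
theorem primeIdealZetaSum_diff_finite {s : ℝ} (hs : 0 ≤ s) (hsum : Summable (wt K s))
    (T : Set (HeightOneSpectrum (𝓞 K))) {F : Set (HeightOneSpectrum (𝓞 K))} (hF : F.Finite) :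
    |NumberField.Set.primeIdealZetaSum T s - NumberField.Set.primeIdealZetaSum (T \ F) s| ≤
      F.ncard := by
  have hdisj : Disjoint (T \ F) (T ∩ F) := by
    rw [Set.disjoint_left]
    rintro x ⟨-, hx⟩ ⟨-, hx'⟩
    exact hx hx'
  have hun : T = (T \ F) ∪ (T ∩ F) := by
    ext x
    by_cases hx : x ∈ F <;> simp
  have h1 := primeIdealZetaSum_union hsum hdisj
  rw [← hun] at h1
  rw [h1, add_sub_cancel_left, abs_of_nonneg (NumberField.Set.primeIdealZetaSum_nonneg _ _)]
  have hfin : (T ∩ F).Finite := hF.subset Set.inter_subset_right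
  refine (NumberField.Set.primeIdealZetaSum_le_card_of_finite hfin hs).trans ?_
  exact_mod_cast Set.ncard_le_ncard Set.inter_subset_right hF

/-- If the prime zeta sum of `T` has logarithmic asymptotics, then so does the prime zeta sum
of `T \ F` for every finite set `F`. -/
theorem HasLogAsymp.diff_finite {T : Set (HeightOneSpectrum (𝓞 K))} {c : ℝ}
    (hsum : ∀ s : ℝ, 1 < s → Summable (wt K s))
    (h : HasLogAsymp (NumberField.Set.primeIdealZetaSum T) c)
    {F : Set (HeightOneSpectrum (𝓞 K))} (hF : F.Finite) :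
    HasLogAsymp (NumberField.Set.primeIdealZetaSum (T \ F)) c := by
  have hb : ∀ s : ℝ, 1 < s → s ≤ 2 →
      |NumberField.Set.primeIdealZetaSum T s - NumberField.Set.primeIdealZetaSum (T \ F) s| ≤
        F.ncard :=
    fun s hs _ ↦ primeIdealZetaSum_diff_finite (by linarith) (hsum s hs) T hF
  exact (h.sub_bounded hb).congr fun s _ _ ↦ by ring

/-- A set of primes whose prime zeta sum has logarithmic asymptotics with a positive constant
is infinite. -/
theorem infinite_of_hasLogAsymp {T : Set (HeightOneSpectrum (𝓞 K))} {c : ℝ} (hc : 0 < c)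
    (h : HasLogAsymp (NumberField.Set.primeIdealZetaSum T) c) : T.Infinite := by
  intro hfin
  obtain ⟨s, hs, -, hlt⟩ := h.not_bounded hc (T.ncard : ℝ)
  have := NumberField.Set.primeIdealZetaSum_le_card_of_finite hfin (s := s) (by linarith)
  linarith

end zetaSum

end Fermat.Agent.Cheb
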