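import Mathlib
import Fermat.Agent.Cheb.LogAsymp

/-!
# Pillar CHEB, module D (core): inert primes in a cyclic extension

Let `L / K` be a cyclic extension of number fields of degree `n`.  Assuming

* (A2) the summability of the prime zeta sum of `K`,
* (B1) for every subgroup `H` of `Gal(L/K)`, the degree one primes of `K` which split completely
  in the fixed field `L ^ H` have logarithmic density `1 / [L ^ H : K]`,
* (C1) an unramified prime `𝔭` splits completely in `L ^ H` iff its residue degree in `L`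
  divides `|H|`,
* (C2) only finitely many primes of `K` ramify in `L`,

we prove by Möbius inversion that the inert primes of degree one have logarithmic density
`φ(n) / n`; in particular there are infinitely many of them.
-/

set_option autoImplicit false

open NumberField IsDedekindDomain ArithmeticFunction

namespace Fermat.Agent.Cheb

section moebius

/-- Möbius inversion for the indicator function of divisibility. -/
theorem D_sum_moebius_mul_ite_dvd (n f : ℕ) (hn : 0 < n) :
    ∑ x ∈ n.divisorsAntidiagonal, ((ArithmeticFunction.moebius x.1 : ℤ) : ℝ) * (if f ∣ x.2 then 1 else 0) =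
      if n = f then 1 else 0 := by
  have key := (sum_eq_iff_sum_mul_moebius_eq (R := ℝ)
    (f := fun i ↦ if i = f then (1 : ℝ) else 0)
    (g := fun m ↦ if f ∣ m then (1 : ℝ) else 0)).mp ?_ n hn
  · exact key
  · intro m hm
    rw [Finset.sum_ite_eq' m.divisors f (fun _ ↦ (1 : ℝ))]
    simp [Nat.mem_divisors, hm.ne']

/-- Möbius inversion of `∑_{d ∣ n} φ(d) = n`. -/
theorem D_sum_moebius_mul_div (n : ℕ) (hn : 0 < n) :
    ∑ x ∈ n.divisorsAntidiagonal, ((ArithmeticFunction.moebius x.1 : ℤ) : ℝ) * ((x.2 : ℝ) / n) =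
      (Nat.totient n : ℝ) / n := by
  have key := (sum_eq_iff_sum_mul_moebius_eq (R := ℝ)
    (f := fun i ↦ (Nat.totient i : ℝ)) (g := fun m ↦ (m : ℝ))).mp ?_ n hn
  · rw [← key, Finset.sum_div]
    refine Finset.sum_congr rfl fun x _ ↦ ?_
    ring
  · intro m _
    exact_mod_cast congrArg (Nat.cast : ℕ → ℝ) (Nat.sum_totient m)

end moebius

section cyclic

variable (K L : Type*) [Field K] [NumberField K] [Field L] [NumberField L] [Algebra K L]
  [IsGalois K L]

/-- The residue degree of a prime of `K` in the Galois extension `L / K` divides `[L : K]`. -/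
theorem D_inertiaDegIn_dvd_finrank (𝔭 : HeightOneSpectrum (𝓞 K)) :
    𝔭.asIdeal.inertiaDegIn (𝓞 L) ∣ Module.finrank K L := by
  have h := Ideal.ncard_primesOver_mul_ramificationIdxIn_mul_inertiaDegIn 𝔭.asIdeal (𝓞 L) Gal(L/K)
  rw [IsGalois.card_aut_eq_finrank] at h
  rw [← h]
  exact Dvd.dvd.mul_left (Dvd.intro_left _ rfl) _

/-- In a cyclic group of order `n`, a subgroup of order `e` for every divisor `e` of `n`. -/
theorem D_exists_subgroup_card [IsCyclic Gal(L/K)] {e : ℕ} (he : e ∣ Module.finrank K L) :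
    ∃ H : Subgroup Gal(L/K), Nat.card H = e := by
  obtain ⟨g, hg⟩ := IsCyclic.exists_generator (α := Gal(L/K))
  have hn : orderOf g = Module.finrank K L := by
    rw [orderOf_eq_card_of_forall_mem_zpowers hg, IsGalois.card_aut_eq_finrank]
  have hn0 : 0 < Module.finrank K L := Module.finrank_pos
  obtain ⟨d, hd⟩ := he
  have he0 : e ≠ 0 := by
    rintro rfl
    rw [zero_mul] at hd
    omega
  have hd0 : d ≠ 0 := by
    rintro rfl
    rw [mul_zero] at hd
    omega
  refine ⟨Subgroup.zpowers (g ^ d), ?_⟩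
  rw [Nat.card_zpowers, orderOf_pow_of_dvd hd0 (by rw [hn, hd]; exact Dvd.intro_left _ rfl), hn,
    hd]
  exact Nat.mul_div_cancel _ (Nat.pos_of_ne_zero hd0)

variable {K L}

/-- The core of module D: the inert primes of degree one of a cyclic extension have logarithmic
density `φ(n) / n`, with the inputs A2, B1, C1, C2 as hypotheses. -/
theorem D_hasLogAsymp_isInert_of [IsCyclic Gal(L/K)]
    (hsum : ∀ s : ℝ, 1 < s → Summable (wt K s))
    (hB : ∀ H : Subgroup Gal(L/K), HasLogAsymp (NumberField.Set.primeIdealZetaSum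
      {𝔭 : HeightOneSpectrum (𝓞 K) | IsDegOne K 𝔭 ∧
        SplitsCompletely K (IntermediateField.fixedField H) 𝔭})
      (1 / (Module.finrank K (IntermediateField.fixedField H) : ℝ)))
    (hC1 : ∀ (H : Subgroup Gal(L/K)) (𝔭 : HeightOneSpectrum (𝓞 K)),
      𝔭.asIdeal.ramificationIdxIn (𝓞 L) = 1 →
      (SplitsCompletely K (IntermediateField.fixedField H) 𝔭 ↔
        𝔭.asIdeal.inertiaDegIn (𝓞 L) ∣ Nat.card H))
    (hC2 : {𝔭 : HeightOneSpectrum (𝓞 K) | 𝔭.asIdeal.ramificationIdxIn (𝓞 L) ≠ 1}.Finite) :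
    HasLogAsymp (NumberField.Set.primeIdealZetaSum
      {𝔭 : HeightOneSpectrum (𝓞 K) | IsDegOne K 𝔭 ∧ IsInert K L 𝔭})
      ((Nat.totient (Module.finrank K L) : ℝ) / (Module.finrank K L : ℝ)) := by
  classical
  set n := Module.finrank K L with hn
  have hn0 : 0 < n := Module.finrank_pos
  -- the subgroup of order `e`
  have hex : ∀ e : ℕ, ∃ H : Subgroup Gal(L/K), e ∣ n → Nat.card H = e := by
    intro e
    by_cases he : e ∣ n
    · obtain ⟨H, hH⟩ := D_exists_subgroup_card K L he
      exact ⟨H, fun _ ↦ hH⟩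
    · exact ⟨⊥, fun h ↦ absurd h he⟩
  choose H hH using hex
  -- the ramified primes
  set R : Set (HeightOneSpectrum (𝓞 K)) := {𝔭 | 𝔭.asIdeal.ramificationIdxIn (𝓞 L) ≠ 1} with hR
  -- the sets
  set A : ℕ → Set (HeightOneSpectrum (𝓞 K)) := fun e ↦
    {𝔭 | IsDegOne K 𝔭 ∧ SplitsCompletely K (IntermediateField.fixedField (H e)) 𝔭} \ R with hA
  set I : Set (HeightOneSpectrum (𝓞 K)) := {𝔭 | IsDegOne K 𝔭 ∧ IsInert K L 𝔭} with hI
  -- asymptotics of the sets `A e`
  have hAasymp : ∀ x ∈ n.divisorsAntidiagonal,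
      HasLogAsymp (fun s ↦ ((ArithmeticFunction.moebius x.1 : ℤ) : ℝ) * NumberField.Set.primeIdealZetaSum (A x.2) s)
        (((ArithmeticFunction.moebius x.1 : ℤ) : ℝ) * ((x.2 : ℝ) / n)) := by
    intro x hx
    refine HasLogAsymp.const_mul ?_ _
    have hx2 : x.2 ∣ n := by
      rw [Nat.mem_divisorsAntidiagonal] at hx
      exact Dvd.intro_left _ hx.1
    have hfr : Module.finrank K (IntermediateField.fixedField (H x.2)) * x.2 = n := by
      have h1 : Module.finrank (IntermediateField.fixedField (H x.2)) L = x.2 :=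
        (IntermediateField.finrank_fixedField_eq_card (H x.2)).trans (hH x.2 hx2)
      have h2 := Module.finrank_mul_finrank K (IntermediateField.fixedField (H x.2)) L
      rw [h1] at h2
      exact h2
    have hx20 : (x.2 : ℝ) ≠ 0 := by
      have : x.2 ≠ 0 := by
        rintro h
        rw [h, mul_zero] at hfr
        omega
      exact_mod_cast this
    have hc : (1 : ℝ) / (Module.finrank K (IntermediateField.fixedField (H x.2)) : ℝ) =
        (x.2 : ℝ) / n := by
      have h2 : ((Module.finrank K (IntermediateField.fixedField (H x.2)) : ℕ) : ℝ) * x.2 = n := by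
        exact_mod_cast congrArg (Nat.cast : ℕ → ℝ) hfr
      have hf0 : ((Module.finrank K (IntermediateField.fixedField (H x.2)) : ℕ) : ℝ) ≠ 0 := by
        intro h
        rw [h, zero_mul] at h2
        have : (n : ℝ) ≠ 0 := by exact_mod_cast hn0.ne'
        exact this h2.symm
      have hn0' : (n : ℝ) ≠ 0 := by exact_mod_cast hn0.ne'
      field_simp
      linarith
    rw [← hc]
    exact (hB (H x.2)).diff_finite hsum hC2
  -- the pointwise identity
  have hpt : ∀ (s : ℝ) (𝔭 : HeightOneSpectrum (𝓞 K)), I.indicator (wt K s) 𝔭 =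
      ∑ x ∈ n.divisorsAntidiagonal, ((ArithmeticFunction.moebius x.1 : ℤ) : ℝ) * (A x.2).indicator (wt K s) 𝔭 := by
    intro s 𝔭
    by_cases hram : 𝔭.asIdeal.ramificationIdxIn (𝓞 L) = 1
    · by_cases hdeg : IsDegOne K 𝔭
      · have hAmem : ∀ x ∈ n.divisorsAntidiagonal,
            (A x.2).indicator (wt K s) 𝔭 =
              wt K s 𝔭 * (if 𝔭.asIdeal.inertiaDegIn (𝓞 L) ∣ x.2 then 1 else 0) := by
          intro x hx
          have hx2 : x.2 ∣ n := by
            rw [Nat.mem_divisorsAntidiagonal] at hx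
            exact Dvd.intro_left _ hx.1
          have hiff : 𝔭 ∈ A x.2 ↔ 𝔭.asIdeal.inertiaDegIn (𝓞 L) ∣ x.2 := by
            simp only [hA, hR, Set.mem_sdiff, Set.mem_ofPred_eq, hdeg, true_and, hram,
              ne_eq, not_true_eq_false, not_false_eq_true, and_true]
            rw [hC1 (H x.2) 𝔭 hram, hH x.2 hx2]
          by_cases h : 𝔭.asIdeal.inertiaDegIn (𝓞 L) ∣ x.2
          · rw [Set.indicator_of_mem (hiff.mpr h), if_pos h, mul_one]
          · rw [Set.indicator_of_notMem (fun h' ↦ h (hiff.mp h')), if_neg h, mul_zero]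
        rw [Finset.sum_congr rfl fun x hx ↦ by rw [hAmem x hx]]
        have : ∀ x ∈ n.divisorsAntidiagonal, ((ArithmeticFunction.moebius x.1 : ℤ) : ℝ) * (wt K s 𝔭 *
            (if 𝔭.asIdeal.inertiaDegIn (𝓞 L) ∣ x.2 then 1 else 0)) =
            wt K s 𝔭 * (((ArithmeticFunction.moebius x.1 : ℤ) : ℝ) *
              (if 𝔭.asIdeal.inertiaDegIn (𝓞 L) ∣ x.2 then 1 else 0)) := fun x _ ↦ by ring
        rw [Finset.sum_congr rfl this, ← Finset.mul_sum,
          D_sum_moebius_mul_ite_dvd n _ hn0]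
        by_cases hin : n = 𝔭.asIdeal.inertiaDegIn (𝓞 L)
        · rw [if_pos hin, mul_one, Set.indicator_of_mem]
          exact ⟨hdeg, hram, hin.symm⟩
        · rw [if_neg hin, mul_zero, Set.indicator_of_notMem]
          rintro ⟨-, -, h⟩
          exact hin h.symm
      · rw [Set.indicator_of_notMem (fun h ↦ hdeg h.1)]
        symm
        refine Finset.sum_eq_zero fun x _ ↦ ?_
        rw [Set.indicator_of_notMem (fun h ↦ hdeg h.1.1), mul_zero]
    · rw [Set.indicator_of_notMem (fun h ↦ hram h.2.1)]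
      symm
      refine Finset.sum_eq_zero fun x _ ↦ ?_
      rw [Set.indicator_of_notMem (fun h ↦ h.2 hram), mul_zero]
  -- summation
  have hsumeq : ∀ s : ℝ, 1 < s → NumberField.Set.primeIdealZetaSum I s =
      ∑ x ∈ n.divisorsAntidiagonal,
        ((ArithmeticFunction.moebius x.1 : ℤ) : ℝ) * NumberField.Set.primeIdealZetaSum (A x.2) s := by
    intro s hs
    rw [primeIdealZetaSum_eq_tsum_indicator]
    simp_rw [hpt s, primeIdealZetaSum_eq_tsum_indicator]
    rw [Summable.tsum_finsetSum]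
    · refine Finset.sum_congr rfl fun x _ ↦ ?_
      rw [tsum_mul_left]
    · intro x _
      exact (summable_indicator_wt (hsum s hs) (A x.2)).mul_left _
  have := hasLogAsymp_finset_sum n.divisorsAntidiagonal hAasymp
  rw [D_sum_moebius_mul_div n hn0] at this
  exact this.congr fun s hs _ ↦ (hsumeq s hs).symm

/-- The core of module D: infinitely many primes of degree one are inert in a cyclic
extension (inputs A2, B1, C1, C2 as hypotheses). -/
theorem D_exists_degOne_isInert_of [IsCyclic Gal(L/K)]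
    (hsum : ∀ s : ℝ, 1 < s → Summable (wt K s))
    (hB : ∀ H : Subgroup Gal(L/K), HasLogAsymp (NumberField.Set.primeIdealZetaSum
      {𝔭 : HeightOneSpectrum (𝓞 K) | IsDegOne K 𝔭 ∧
        SplitsCompletely K (IntermediateField.fixedField H) 𝔭})
      (1 / (Module.finrank K (IntermediateField.fixedField H) : ℝ)))
    (hC1 : ∀ (H : Subgroup Gal(L/K)) (𝔭 : HeightOneSpectrum (𝓞 K)),
      𝔭.asIdeal.ramificationIdxIn (𝓞 L) = 1 →
      (SplitsCompletely K (IntermediateField.fixedField H) 𝔭 ↔
        𝔭.asIdeal.inertiaDegIn (𝓞 L) ∣ Nat.card H))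
    (hC2 : {𝔭 : HeightOneSpectrum (𝓞 K) | 𝔭.asIdeal.ramificationIdxIn (𝓞 L) ≠ 1}.Finite)
    (T : Set (HeightOneSpectrum (𝓞 K))) (hT : T.Finite) :
    ∃ 𝔭 : HeightOneSpectrum (𝓞 K), 𝔭 ∉ T ∧ IsDegOne K 𝔭 ∧ IsInert K L 𝔭 := by
  have h := D_hasLogAsymp_isInert_of hsum hB hC1 hC2
  have hpos : (0 : ℝ) < (Nat.totient (Module.finrank K L) : ℝ) / (Module.finrank K L : ℝ) := by
    have hn0 : 0 < Module.finrank K L := Module.finrank_pos
    have : 0 < Nat.totient (Module.finrank K L) := Nat.totient_pos.mpr hn0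
    positivity
  have hinf := infinite_of_hasLogAsymp hpos h
  obtain ⟨𝔭, h𝔭, h𝔭T⟩ := (hinf.sdiff hT).nonempty
  exact ⟨𝔭, h𝔭T, h𝔭.1, h𝔭.2⟩

end cyclic

end Fermat.Agent.Cheb
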