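import Mathlib
import Fermat.Agent.Cheb.Defs

/-!
# Pillar CHEB, module C1: splitting in the subfields of a cyclic extension

For a cyclic extension `L / K` of number fields, a subgroup `H` of `Gal(L/K)` and a prime `𝔭`
of `K` unramified in `L`, the prime `𝔭` splits completely in the fixed field `L ^ H` if and only
if the residue degree of `𝔭` in `L` divides the order of `H`.
-/

set_option autoImplicit false

open NumberField IsDedekindDomain
open scoped Pointwise

namespace Fermat.Agent.Cheb

/-- In a finite cyclic group, a subgroup whose order divides the order of another subgroup is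
contained in it. -/
theorem C1_le_of_card_dvd {G : Type*} [Group G] [Finite G] [IsCyclic G] (D H : Subgroup G)
    (h : Nat.card D ∣ Nat.card H) : D ≤ H := by
  classical
  let _ : Fintype G := Fintype.ofFinite G
  have hn : 0 < Nat.card H := Nat.card_pos
  -- the `n`-torsion of `G` has at most `n` elements and contains `H`
  set n := Nat.card H with hn_def
  let T : Finset G := Finset.univ.filter fun a : G => a ^ n = 1
  have hT : T.card ≤ n := IsCyclic.card_pow_eq_one_le hn
  have hHT : ∀ a ∈ H, a ∈ T := by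
    intro a ha
    simp only [T, Finset.mem_filter, Finset.mem_univ, true_and]
    have h2 : ((⟨a, ha⟩ : H) ^ n : H) = 1 := pow_card_eq_one'
    have h3 := congrArg Subtype.val h2
    simpa only [Subgroup.coe_pow, Subgroup.coe_one] using h3
  -- so `H` equals the `n`-torsion
  have hTH : ∀ a ∈ T, a ∈ H := by
    let Hs : Finset G := Finset.univ.filter fun a : G => a ∈ H
    have hsub : Hs ⊆ T := fun a ha => hHT a (by simpa [Hs] using ha)
    have hcard : Hs.card = n := by
      rw [hn_def, Nat.card_eq_fintype_card, Fintype.card_subtype]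
    have heq : Hs = T := Finset.eq_of_subset_of_card_le hsub (by rw [hcard]; exact hT)
    intro a ha
    have : a ∈ Hs := heq ▸ ha
    simpa [Hs] using this
  intro d hd
  apply hTH
  simp only [T, Finset.mem_filter, Finset.mem_univ, true_and]
  obtain ⟨k, hk⟩ := h
  have h1 : ((⟨d, hd⟩ : D) ^ Nat.card D : D) = 1 := pow_card_eq_one'
  have h2 : d ^ Nat.card D = 1 := by
    have h3 := congrArg Subtype.val h1
    simpa only [Subgroup.coe_pow, Subgroup.coe_one] using h3
  rw [hk, pow_mul, h2, one_pow]

section CD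

variable (K L : Type*) [Field K] [NumberField K] [Field L] [NumberField L] [Algebra K L]
  [IsGalois K L]

/-- C1 (splitting in the subfield fixed by `H` versus the residue degree in `L`, cyclic case):
for `𝔭` unramified in `L`, `𝔭` splits completely in `L^H` iff the residue degree of `𝔭` in `L`
divides `|H|`. -/
theorem splitsCompletely_fixedField_iff [IsCyclic Gal(L/K)] (H : Subgroup Gal(L/K))
    (𝔭 : HeightOneSpectrum (𝓞 K)) (hram : 𝔭.asIdeal.ramificationIdxIn (𝓞 L) = 1) :
    SplitsCompletely K (IntermediateField.fixedField H) 𝔭 ↔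
      𝔭.asIdeal.inertiaDegIn (𝓞 L) ∣ Nat.card H := by
  classical
  have hp : 𝔭.asIdeal.IsPrime := 𝔭.isPrime
  -- `M / K` is Galois since `Gal(L/K)` is commutative
  have hcomm : ∀ a b : Gal(L/K), a * b = b * a := by
    obtain ⟨g, hg⟩ := IsCyclic.exists_generator (α := Gal(L/K))
    intro a b
    obtain ⟨m, rfl⟩ := Subgroup.mem_zpowers_iff.1 (hg a)
    obtain ⟨n, rfl⟩ := Subgroup.mem_zpowers_iff.1 (hg b)
    rw [← zpow_add, ← zpow_add, add_comm]
  have hHn : H.Normal :=
    ⟨fun n hn g => by rw [hcomm g n, mul_assoc, mul_inv_cancel, mul_one]; exact hn⟩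
  have hGalM : IsGalois K (IntermediateField.fixedField H) :=
    IsGalois.of_fixedField_normal_subgroup H
  have hGH : IsGaloisGroup H (IntermediateField.fixedField H) L :=
    IsGaloisGroup.of_fixedPoints_eq _ _ _ _ _ rfl
  have hGH' : IsGaloisGroup H (𝓞 (IntermediateField.fixedField H)) (𝓞 L) :=
    IsGaloisGroup.of_isFractionRing H (𝓞 (IntermediateField.fixedField H)) (𝓞 L)
      (IntermediateField.fixedField H) L
  -- a prime `Q` of `L` above `𝔭` and the prime `P` of `M` below it
  obtain ⟨⟨Q, hQ1, hQ2⟩⟩ := (inferInstance : Nonempty (𝔭.asIdeal.primesOver (𝓞 L)))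
  let P : Ideal (𝓞 (IntermediateField.fixedField H)) := Q.under _
  have hPprime : P.IsPrime := inferInstance
  have hQP : Q.LiesOver P := inferInstance
  have hPp : P.LiesOver 𝔭.asIdeal := inferInstance
  have hne : Nonempty (P.primesOver (𝓞 L)) := ⟨⟨Q, hQ1, hQP⟩⟩
  -- the tower formulas
  have he := Ideal.ramificationIdxIn_mul_ramificationIdxIn (p := 𝔭.asIdeal) P
    Gal((IntermediateField.fixedField H)/K) (𝓞 L) Gal(L/K) H
  have hf := Ideal.inertiaDegIn_mul_inertiaDegIn 𝔭.asIdeal P
    Gal((IntermediateField.fixedField H)/K) (𝓞 L) Gal(L/K) H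
  rw [hram] at he
  have heM : 𝔭.asIdeal.ramificationIdxIn (𝓞 (IntermediateField.fixedField H)) = 1 :=
    Nat.eq_one_of_mul_eq_one_right he
  have heLM : P.ramificationIdxIn (𝓞 L) = 1 := Nat.eq_one_of_mul_eq_one_left he
  -- decomposition groups
  have hD := Ideal.card_stabilizer_eq (G := Gal(L/K)) 𝔭.asIdeal Q
  have hDH := Ideal.card_stabilizer_eq (G := H) P Q
  rw [hram, one_mul] at hD
  rw [heLM, one_mul] at hDH
  have hstab : MulAction.stabilizer H Q = (MulAction.stabilizer Gal(L/K) Q).subgroupOf H := by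
    simp [Subgroup.ext_iff, Subgroup.mem_subgroupOf]
  have hfL : 𝔭.asIdeal.inertiaDegIn (𝓞 L) ≠ 0 := Ideal.inertiaDegIn_ne_zero Gal(L/K)
  constructor
  · rintro ⟨-, hfM⟩
    rw [hfM, one_mul] at hf
    rw [← hf, ← hDH]
    exact Subgroup.card_subgroup_dvd_card _
  · intro hdvd
    refine ⟨heM, ?_⟩
    rw [← hD] at hdvd
    have hle : MulAction.stabilizer Gal(L/K) Q ≤ H := C1_le_of_card_dvd _ _ hdvd
    have hcard : Nat.card (MulAction.stabilizer H Q) =
        Nat.card (MulAction.stabilizer Gal(L/K) Q) := by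
      rw [hstab]
      exact Nat.card_congr (Subgroup.subgroupOfEquivOfLe hle).toEquiv
    have h3 : P.inertiaDegIn (𝓞 L) = 𝔭.asIdeal.inertiaDegIn (𝓞 L) :=
      hDH.symm.trans (hcard.trans hD)
    rw [h3] at hf
    exact Nat.eq_of_mul_eq_mul_right (Nat.pos_of_ne_zero hfL) (by rw [hf, one_mul])

end CD

end Fermat.Agent.Cheb
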