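import Mathlib
import Fermat.Agent.Cheb.Defs

/-!
# Pillar CHEB, module A4: primes of degree `≥ 2` contribute `O(1)` to the prime zeta sum
-/

set_option autoImplicit false

open NumberField IsDedekindDomain

namespace Fermat.Agent.Cheb

section A4

variable (K : Type*) [Field K] [NumberField K]

/-- The residue characteristic of a prime of `𝓞 K`. -/
noncomputable def A4_resChar (𝔭 : HeightOneSpectrum (𝓞 K)) : ℕ :=
  ringChar (𝓞 K ⧸ 𝔭.asIdeal)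

theorem A4_absNorm_eq (𝔭 : HeightOneSpectrum (𝓞 K)) :
    ∃ f : ℕ, 0 < f ∧ (A4_resChar K 𝔭).Prime ∧
      Ideal.absNorm 𝔭.asIdeal = (A4_resChar K 𝔭) ^ f := by
  have hmax : 𝔭.asIdeal.IsMaximal := 𝔭.isMaximal
  let _ : Field (𝓞 K ⧸ 𝔭.asIdeal) := Ideal.Quotient.field 𝔭.asIdeal
  have : Finite (𝓞 K ⧸ 𝔭.asIdeal) := Ideal.finiteQuotientOfFreeOfNeBot 𝔭.asIdeal 𝔭.ne_bot
  let _ : Fintype (𝓞 K ⧸ 𝔭.asIdeal) := Fintype.ofFinite _
  have : CharP (𝓞 K ⧸ 𝔭.asIdeal) (A4_resChar K 𝔭) := ringChar.charP _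
  obtain ⟨n, hp, hn⟩ := FiniteField.card (𝓞 K ⧸ 𝔭.asIdeal) (A4_resChar K 𝔭)
  refine ⟨n, n.pos, hp, ?_⟩
  rw [Ideal.absNorm_apply, Submodule.cardQuot_apply, Nat.card_eq_fintype_card]
  exact hn

omit [NumberField K] in
theorem A4_natCast_mem (𝔭 : HeightOneSpectrum (𝓞 K)) :
    ((A4_resChar K 𝔭 : ℕ) : 𝓞 K) ∈ 𝔭.asIdeal := by
  have : CharP (𝓞 K ⧸ 𝔭.asIdeal) (A4_resChar K 𝔭) := ringChar.charP _
  rw [← Ideal.Quotient.eq_zero_iff_mem, map_natCast]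
  exact CharP.cast_eq_zero _ _

theorem A4_two_le_of_not_degOne (𝔭 : HeightOneSpectrum (𝓞 K)) (h : ¬ IsDegOne K 𝔭) :
    (A4_resChar K 𝔭) ^ 2 ≤ Ideal.absNorm 𝔭.asIdeal ∧ (A4_resChar K 𝔭).Prime := by
  obtain ⟨f, hf, hp, hN⟩ := A4_absNorm_eq K 𝔭
  refine ⟨?_, hp⟩
  have hf2 : 2 ≤ f := by
    by_contra hlt
    have hf1 : f = 1 := by omega
    apply h
    rw [IsDegOne, hN, hf1, pow_one]
    exact hp
  rw [hN]
  exact Nat.pow_le_pow_right hp.pos hf2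

theorem A4_card_fiber_le (p : ℕ) (hp : p.Prime) (F : Finset (HeightOneSpectrum (𝓞 K)))
    (hF : ∀ 𝔭 ∈ F, A4_resChar K 𝔭 = p) : F.card ≤ Module.finrank ℚ K := by
  have : Fact p.Prime := ⟨hp⟩
  have hmax : (Ideal.span {(p : ℤ)}).IsMaximal := Int.ideal_span_isMaximal_of_prime p
  have hne : Ideal.span {(p : ℤ)} ≠ ⊥ := by simp [hp.ne_zero]
  refine le_trans ?_ (Ideal.card_primesOverFinset_le_finrank (𝓞 K) ℚ K hne)
  apply Finset.card_le_card_of_injOn (fun 𝔭 => 𝔭.asIdeal)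
  · intro 𝔭 h𝔭
    rw [Finset.mem_coe, IsDedekindDomain.mem_primesOverFinset_iff hne]
    refine ⟨𝔭.isPrime, ⟨?_⟩⟩
    apply hmax.eq_of_le
    · intro htop
      have h1 : (1 : ℤ) ∈ Ideal.under ℤ 𝔭.asIdeal := by rw [htop]; trivial
      rw [Ideal.under_def, Ideal.mem_comap, map_one] at h1
      exact 𝔭.isPrime.ne_top ((Ideal.eq_top_iff_one _).mpr h1)
    · rw [Ideal.span_le, Set.singleton_subset_iff, SetLike.mem_coe, Ideal.under_def,
        Ideal.mem_comap]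
      have := A4_natCast_mem K 𝔭
      rw [hF 𝔭 h𝔭] at this
      simpa using this
  · intro a _ b _ hab
    exact HeightOneSpectrum.ext hab

theorem A4_term_le (x : HeightOneSpectrum (𝓞 K)) (hx : ¬ IsDegOne K x) (s : ℝ) (hs : 1 < s) :
    ((Ideal.absNorm x.asIdeal : ℕ) : ℝ) ^ (-s) ≤ 1 / ((A4_resChar K x : ℕ) : ℝ) ^ 2 := by
  obtain ⟨h2, hp⟩ := A4_two_le_of_not_degOne K x hx
  have hp1 : (1 : ℝ) ≤ ((A4_resChar K x : ℕ) : ℝ) := by exact_mod_cast hp.one_lt.le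
  have hpos : (0 : ℝ) < ((A4_resChar K x : ℕ) : ℝ) ^ 2 := by positivity
  have h2' : ((A4_resChar K x : ℕ) : ℝ) ^ 2 ≤ ((Ideal.absNorm x.asIdeal : ℕ) : ℝ) := by
    exact_mod_cast h2
  calc ((Ideal.absNorm x.asIdeal : ℕ) : ℝ) ^ (-s)
      ≤ (((A4_resChar K x : ℕ) : ℝ) ^ 2) ^ (-s) :=
        Real.rpow_le_rpow_of_nonpos hpos h2' (by linarith)
    _ ≤ (((A4_resChar K x : ℕ) : ℝ) ^ 2) ^ (-1 : ℝ) :=
        Real.rpow_le_rpow_of_exponent_le (one_le_pow₀ hp1) (by linarith)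
    _ = 1 / ((A4_resChar K x : ℕ) : ℝ) ^ 2 := by
        rw [Real.rpow_neg_one, one_div]

theorem A4_finset_sum_le (u : Finset (HeightOneSpectrum (𝓞 K)))
    (hu : ∀ x ∈ u, (A4_resChar K x).Prime) :
    ∑ x ∈ u, 1 / ((A4_resChar K x : ℕ) : ℝ) ^ 2 ≤
      (Module.finrank ℚ K : ℝ) * ∑' m : ℕ, 1 / (m : ℝ) ^ 2 := by
  classical
  have hsum : Summable (fun m : ℕ => 1 / (m : ℝ) ^ 2) :=
    Real.summable_one_div_nat_pow.mpr one_lt_two
  calc ∑ x ∈ u, 1 / ((A4_resChar K x : ℕ) : ℝ) ^ 2 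
      = ∑ p ∈ u.image (fun x => A4_resChar K x),
          (u.filter (fun x => A4_resChar K x = p)).card • (1 / ((p : ℕ) : ℝ) ^ 2) :=
        Finset.sum_comp (fun p : ℕ => 1 / ((p : ℕ) : ℝ) ^ 2) (fun x => A4_resChar K x)
    _ ≤ ∑ p ∈ u.image (fun x => A4_resChar K x),
          (Module.finrank ℚ K : ℝ) * (1 / ((p : ℕ) : ℝ) ^ 2) := by
        apply Finset.sum_le_sum
        intro p hp
        rw [nsmul_eq_mul]
        apply mul_le_mul_of_nonneg_right _ (by positivity)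
        obtain ⟨x, hx, rfl⟩ := Finset.mem_image.mp hp
        have hcard := A4_card_fiber_le K (A4_resChar K x) (hu x hx)
          (u.filter (fun y => A4_resChar K y = A4_resChar K x)) (by
              intro 𝔭 h𝔭
              exact (Finset.mem_filter.mp h𝔭).2)
        exact_mod_cast hcard
    _ = (Module.finrank ℚ K : ℝ) * ∑ p ∈ u.image (fun x => A4_resChar K x),
          1 / ((p : ℕ) : ℝ) ^ 2 := by rw [Finset.mul_sum]
    _ ≤ (Module.finrank ℚ K : ℝ) * ∑' m : ℕ, 1 / (m : ℝ) ^ 2 := by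
        apply mul_le_mul_of_nonneg_left _ (by positivity)
        exact hsum.sum_le_tsum _ (fun _ _ => by positivity)

/-- **A4** (primes of degree `≥ 2` contribute `O(1)`). -/
theorem primeIdealZetaSum_not_degOne_le :
    ∃ C : ℝ, ∀ s : ℝ, 1 < s →
      NumberField.Set.primeIdealZetaSum {𝔭 : HeightOneSpectrum (𝓞 K) | ¬ IsDegOne K 𝔭} s ≤ C := by
  refine ⟨(Module.finrank ℚ K : ℝ) * ∑' m : ℕ, 1 / (m : ℝ) ^ 2, fun s hs => ?_⟩
  rw [NumberField.Set.primeIdealZetaSum_def]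
  apply Real.tsum_le_of_sum_le
  · intro x
    exact Real.rpow_nonneg (Nat.cast_nonneg _) _
  intro u
  have h1 : ∑ x ∈ u, ((Ideal.absNorm x.1.asIdeal : ℕ) : ℝ) ^ (-s) =
      ∑ y ∈ u.map (Function.Embedding.subtype _), ((Ideal.absNorm y.asIdeal : ℕ) : ℝ) ^ (-s) := by
    rw [Finset.sum_map]
    rfl
  rw [h1]
  have hmem : ∀ y ∈ u.map (Function.Embedding.subtype
      (fun 𝔭 : HeightOneSpectrum (𝓞 K) => 𝔭 ∈ {𝔭 : HeightOneSpectrum (𝓞 K) | ¬ IsDegOne K 𝔭})),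
      ¬ IsDegOne K y := by
    intro y hy
    obtain ⟨x, _, rfl⟩ := Finset.mem_map.mp hy
    exact x.2
  refine le_trans (Finset.sum_le_sum (fun y hy => A4_term_le K y (hmem y hy) s hs)) ?_
  exact A4_finset_sum_le K _ (fun y hy => (A4_two_le_of_not_degOne K y (hmem y hy)).2)

end A4

end Fermat.Agent.Cheb
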