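import Mathlib
import Fermat.Agent.Cheb.Defs

/-!
# Pillar CHEB, module A1: the Euler product of the Dedekind zeta function (real `s > 1`)

* `hasProd_dedekindZeta` : `ζ_K(s) = ∏_𝔭 (1 - N𝔭^(-s))⁻¹` for real `s > 1`.
* `dedekindZeta_im_eq_zero` : `ζ_K(s)` is real and `≥ 1` for real `s > 1`.
* `summable_absNorm_rpow_neg` : `∑_𝔭 N𝔭^(-s)` converges for real `s > 1`.

Route: `ζ_K(s) = ∑_I N(I)^(-s)` (sum over all ideals; the zero ideal contributes `0`), regrouping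
the `L`-series by the fibres of the absolute norm.  For a finite set `T` of primes, the sum over
the nonzero ideals supported on `T` equals `∏_{𝔭 ∈ T} (1 - N𝔭^(-s))⁻¹` (induction on `T`, using the
bijection `(e, J) ↦ 𝔮 ^ e * J`); then exhaust.
-/

set_option autoImplicit false

open NumberField IsDedekindDomain Filter Topology

namespace Fermat.Agent.Cheb

section A1

variable (K : Type*) [Field K] [NumberField K]

/-- The summand `N(I)^(-s)` (which is `0` at the zero ideal for `s ≠ 0`). -/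
noncomputable def A1_phi (s : ℝ) (I : Ideal (𝓞 K)) : ℝ := (Ideal.absNorm I : ℝ) ^ (-s)

theorem A1_phi_nonneg (s : ℝ) (I : Ideal (𝓞 K)) : 0 ≤ A1_phi K s I := by
  unfold A1_phi; positivity

theorem A1_phi_bot {s : ℝ} (hs : s ≠ 0) : A1_phi K s ⊥ = 0 := by
  simp [A1_phi, Real.zero_rpow (neg_ne_zero.2 hs)]

theorem A1_phi_one (s : ℝ) : A1_phi K s 1 = 1 := by
  simp [A1_phi]

theorem A1_phi_mul (s : ℝ) (I J : Ideal (𝓞 K)) :
    A1_phi K s (I * J) = A1_phi K s I * A1_phi K s J := by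
  simp [A1_phi, map_mul, Nat.cast_mul, Real.mul_rpow (Nat.cast_nonneg _) (Nat.cast_nonneg _)]

theorem A1_phi_pow (s : ℝ) (I : Ideal (𝓞 K)) (e : ℕ) :
    A1_phi K s (I ^ e) = A1_phi K s I ^ e := by
  induction e with
  | zero => simpa using A1_phi_one K s
  | succ n ih => rw [pow_succ, A1_phi_mul, ih, pow_succ]

theorem A1_one_lt_absNorm (𝔭 : HeightOneSpectrum (𝓞 K)) : 1 < Ideal.absNorm 𝔭.asIdeal := by
  have h0 : Ideal.absNorm 𝔭.asIdeal ≠ 0 := by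
    rw [Ne, Ideal.absNorm_eq_zero_iff]; exact 𝔭.ne_bot
  have h1 : Ideal.absNorm 𝔭.asIdeal ≠ 1 := by
    rw [Ne, Ideal.absNorm_eq_one_iff]; exact 𝔭.isPrime.ne_top
  omega

theorem A1_phi_prime_lt_one {s : ℝ} (hs : 0 < s) (𝔭 : HeightOneSpectrum (𝓞 K)) :
    A1_phi K s 𝔭.asIdeal < 1 := by
  unfold A1_phi
  apply Real.rpow_lt_one_of_one_lt_of_neg _ (by linarith)
  exact_mod_cast A1_one_lt_absNorm K 𝔭

/-- The fibre sums of `A1_phi` over the absolute norm. -/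
theorem A1_tsum_fibre (s : ℝ) (n : ℕ) :
    ∑' I : {I : Ideal (𝓞 K) // Ideal.absNorm I = n}, A1_phi K s I.1 =
      (Nat.card {I : Ideal (𝓞 K) // Ideal.absNorm I = n} : ℝ) * (n : ℝ) ^ (-s) := by
  have : ∀ I : {I : Ideal (𝓞 K) // Ideal.absNorm I = n}, A1_phi K s I.1 = (n : ℝ) ^ (-s) := by
    intro I; simp [A1_phi, I.2]
  simp_rw [this]
  rw [tsum_const, nsmul_eq_mul]

theorem A1_term_eq {s : ℝ} (hs : s ≠ 0) (n : ℕ) :
    LSeries.term (fun n ↦ (Nat.card {I : Ideal (𝓞 K) // Ideal.absNorm I = n} : ℂ)) (s : ℂ) n =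
      ((∑' I : {I : Ideal (𝓞 K) // Ideal.absNorm I = n}, A1_phi K s I.1 : ℝ) : ℂ) := by
  rw [A1_tsum_fibre]
  rcases eq_or_ne n 0 with rfl | hn
  · simp [Real.zero_rpow (neg_ne_zero.2 hs)]
  · rw [LSeries.term_of_ne_zero hn, Real.rpow_neg (Nat.cast_nonneg n), Complex.ofReal_mul,
      Complex.ofReal_inv, Complex.ofReal_cpow (Nat.cast_nonneg n), div_eq_mul_inv]
    simp

theorem A1_lseriesSummable {s : ℝ} (hs : 1 < s) :
    LSeriesSummable (fun n ↦ (Nat.card {I : Ideal (𝓞 K) // Ideal.absNorm I = n} : ℂ)) (s : ℂ) := by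
  have h := LSeriesSummable_of_sum_norm_bigO_and_nonneg
    (f := fun n ↦ (Nat.card {I : Ideal (𝓞 K) // Ideal.absNorm I = n} : ℝ)) (r := 1) (s := (s : ℂ))
    ?_ (fun _ ↦ Nat.cast_nonneg _) zero_le_one (by simpa using hs)
  · simpa using h
  · refine Asymptotics.isBigO_atTop_natCast_rpow_of_tendsto_div_rpow
      (a := (2 ^ InfinitePlace.nrRealPlaces K * (2 * Real.pi) ^ InfinitePlace.nrComplexPlaces K *
        Units.regulator K * classNumber K) / (Units.torsionOrder K * Real.sqrt |discr K|)) ?_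
    simp only [Real.rpow_one]
    refine ((Ideal.tendsto_norm_le_div_atTop₀ K).comp tendsto_natCast_atTop_atTop).congr fun n ↦ ?_
    simp only [Function.comp_apply, Nat.cast_le, ← Nat.cast_sum]
    congr
    rw [← add_left_inj 1, ← Ideal.card_norm_le_eq_card_norm_le_add_one,
      show Finset.Icc 1 n = Finset.Ioc 0 n from Finset.Icc_succ_left_eq_Ioc _ _,
      show 1 = Nat.card {I : Ideal (𝓞 K) // Ideal.absNorm I = 0} by
        simp [Ideal.absNorm_eq_zero_iff],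
      Finset.sum_Ioc_add_eq_sum_Icc (n.zero_le),
      ← Finset.card_preimage_eq_sum_card_image_eq
        (fun k _ ↦ Ideal.finite_setOfPred_absNorm_eq k)]
    simp [Set.coe_eq_subtype]

/-- The fibre sums are summable. -/
theorem A1_summable_fibre {s : ℝ} (hs : 1 < s) :
    Summable fun n : ℕ ↦ ∑' I : {I : Ideal (𝓞 K) // Ideal.absNorm I = n}, A1_phi K s I.1 := by
  have h := A1_lseriesSummable K hs
  unfold LSeriesSummable at h
  have h2 : (LSeries.term (fun n ↦ (Nat.card {I : Ideal (𝓞 K) // Ideal.absNorm I = n} : ℂ))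
      (s : ℂ)) = fun n ↦ ((∑' I : {I : Ideal (𝓞 K) // Ideal.absNorm I = n}, A1_phi K s I.1 : ℝ) : ℂ) :=
    funext fun n ↦ A1_term_eq K (by linarith) n
  rw [h2] at h
  exact Complex.summable_ofReal.mp h

/-- `∑_I N(I)^(-s)` converges for `s > 1`. -/
theorem A1_summable_phi {s : ℝ} (hs : 1 < s) : Summable (A1_phi K s) := by
  rw [← (Equiv.sigmaFiberEquiv (fun I : Ideal (𝓞 K) ↦ Ideal.absNorm I)).summable_iff]
  refine (summable_sigma_of_nonneg (fun x ↦ A1_phi_nonneg K s _)).mpr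
    ⟨fun n ↦ ?_, A1_summable_fibre K hs⟩
  have : Finite {I : Ideal (𝓞 K) // Ideal.absNorm I = n} :=
    (Ideal.finite_setOfPred_absNorm_eq n).to_subtype
  exact Summable.of_finite

/-- `ζ_K(s) = ∑_I N(I)^(-s)` for real `s > 1`. -/
theorem A1_dedekindZeta_eq {s : ℝ} (hs : 1 < s) :
    dedekindZeta K s = ((∑' I : Ideal (𝓞 K), A1_phi K s I : ℝ) : ℂ) := by
  have h1 : ∑' I : Ideal (𝓞 K), A1_phi K s I =
      ∑' n : ℕ, ∑' I : {I : Ideal (𝓞 K) // Ideal.absNorm I = n}, A1_phi K s I.1 := by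
    rw [← (Equiv.sigmaFiberEquiv (fun I : Ideal (𝓞 K) ↦ Ideal.absNorm I)).tsum_eq]
    have hs' : Summable ((A1_phi K s) ∘
        (Equiv.sigmaFiberEquiv (fun I : Ideal (𝓞 K) ↦ Ideal.absNorm I))) :=
      (Equiv.sigmaFiberEquiv (fun I : Ideal (𝓞 K) ↦ Ideal.absNorm I)).summable_iff.mpr
        (A1_summable_phi K hs)
    exact hs'.tsum_sigma
  rw [h1, Complex.ofReal_tsum]
  unfold dedekindZeta LSeries
  exact tsum_congr fun n ↦ A1_term_eq K (by linarith) n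

/-! ### Ideals supported on a finite set of primes -/

/-- The nonzero ideals all of whose prime divisors belong to `T`. -/
def A1_supp (T : Finset (HeightOneSpectrum (𝓞 K))) : Set (Ideal (𝓞 K)) :=
  {I | I ≠ ⊥ ∧ ∀ 𝔭 : HeightOneSpectrum (𝓞 K), I ≤ 𝔭.asIdeal → 𝔭 ∈ T}

theorem A1_supp_empty : A1_supp K ∅ = {⊤} := by
  ext I
  simp only [A1_supp, Set.mem_ofPred_eq, Finset.notMem_empty, imp_false, Set.mem_singleton_iff]
  constructor
  · rintro ⟨h0, h⟩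
    by_contra hI
    obtain ⟨M, hM, hIM⟩ := Ideal.exists_le_maximal I hI
    have hM0 : M ≠ ⊥ := fun h' ↦ h0 (le_bot_iff.mp (h' ▸ hIM))
    exact h ⟨M, hM.isPrime, hM0⟩ hIM
  · rintro rfl
    refine ⟨top_ne_bot, fun 𝔭 h𝔭 ↦ 𝔭.isPrime.ne_top (top_le_iff.mp h𝔭)⟩

/-- The map `(e, J) ↦ 𝔮 ^ e * J`. -/
def A1_step (T : Finset (HeightOneSpectrum (𝓞 K))) (𝔮 : HeightOneSpectrum (𝓞 K))
    [DecidableEq (HeightOneSpectrum (𝓞 K))] :
    ℕ × A1_supp K T → A1_supp K (insert 𝔮 T) := fun x ↦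
  ⟨𝔮.asIdeal ^ x.1 * x.2.1, by
    refine ⟨mul_ne_zero (pow_ne_zero _ 𝔮.ne_bot) x.2.2.1, fun 𝔭 h𝔭 ↦ ?_⟩
    rcases 𝔭.isPrime.mul_le.mp h𝔭 with h | h
    · have h1 : 𝔮.asIdeal ≤ 𝔭.asIdeal := 𝔭.isPrime.le_of_pow_le h
      have h2 : 𝔮.asIdeal = 𝔭.asIdeal := 𝔮.isMaximal.eq_of_le 𝔭.isPrime.ne_top h1
      exact Finset.mem_insert.mpr (Or.inl (HeightOneSpectrum.ext h2.symm))
    · exact Finset.mem_insert.mpr (Or.inr (x.2.2.2 𝔭 h))⟩

theorem A1_step_apply (T : Finset (HeightOneSpectrum (𝓞 K))) (𝔮 : HeightOneSpectrum (𝓞 K))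
    [DecidableEq (HeightOneSpectrum (𝓞 K))] (x : ℕ × A1_supp K T) :
    (A1_step K T 𝔮 x : Ideal (𝓞 K)) = 𝔮.asIdeal ^ x.1 * x.2.1 := rfl

theorem A1_not_le_of_mem_supp {T : Finset (HeightOneSpectrum (𝓞 K))}
    {𝔮 : HeightOneSpectrum (𝓞 K)} (h𝔮 : 𝔮 ∉ T) (J : A1_supp K T) : ¬ J.1 ≤ 𝔮.asIdeal :=
  fun h ↦ h𝔮 (J.2.2 𝔮 h)

theorem A1_step_aux {T : Finset (HeightOneSpectrum (𝓞 K))} {𝔮 : HeightOneSpectrum (𝓞 K)}
    (h𝔮 : 𝔮 ∉ T) (e d : ℕ) (J J' : A1_supp K T)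
    (h : 𝔮.asIdeal ^ e * J.1 = 𝔮.asIdeal ^ (e + d) * J'.1) : d = 0 ∧ J = J' := by
  rw [pow_add, mul_assoc] at h
  have h1 : J.1 = 𝔮.asIdeal ^ d * J'.1 := mul_left_cancel₀ (pow_ne_zero _ 𝔮.ne_bot) h
  have hd : d = 0 := by
    by_contra hd
    obtain ⟨d', rfl⟩ := Nat.exists_eq_succ_of_ne_zero hd
    apply A1_not_le_of_mem_supp K h𝔮 J
    rw [h1, pow_succ', mul_assoc]
    exact Ideal.mul_le_left
  refine ⟨hd, Subtype.ext ?_⟩
  rw [h1, hd, pow_zero, one_mul]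

theorem A1_step_bijective (T : Finset (HeightOneSpectrum (𝓞 K))) (𝔮 : HeightOneSpectrum (𝓞 K))
    [DecidableEq (HeightOneSpectrum (𝓞 K))] (h𝔮 : 𝔮 ∉ T) :
    Function.Bijective (A1_step K T 𝔮) := by
  constructor
  · rintro ⟨e, J⟩ ⟨e', J'⟩ h
    have h' : 𝔮.asIdeal ^ e * J.1 = 𝔮.asIdeal ^ e' * J'.1 := congrArg Subtype.val h
    rcases le_total e e' with hee | hee
    · obtain ⟨d, rfl⟩ := Nat.exists_eq_add_of_le hee
      obtain ⟨hd, hJ⟩ := A1_step_aux K h𝔮 e d J J' h'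
      subst hd; subst hJ; rfl
    · obtain ⟨d, rfl⟩ := Nat.exists_eq_add_of_le hee
      obtain ⟨hd, hJ⟩ := A1_step_aux K h𝔮 e' d J' J h'.symm
      subst hd; subst hJ; rfl
  · rintro ⟨I, hI0, hI⟩
    obtain ⟨n, J, hJ, rfl⟩ := WfDvdMonoid.max_power_factor (a₀ := I) (x := 𝔮.asIdeal) hI0
      𝔮.irreducible
    have hJ0 : J ≠ ⊥ := by
      rintro rfl
      exact hI0 (by simp)
    refine ⟨⟨n, ⟨J, hJ0, fun 𝔭 h𝔭 ↦ ?_⟩⟩, rfl⟩
    have h1 : 𝔭 ∈ insert 𝔮 T := hI 𝔭 (le_trans Ideal.mul_le_right h𝔭)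
    rcases Finset.mem_insert.mp h1 with rfl | h2
    · exact absurd (Ideal.dvd_iff_le.mpr h𝔭) hJ
    · exact h2

/-- The Euler factor at `𝔭`. -/
noncomputable def A1_factor (s : ℝ) (𝔭 : HeightOneSpectrum (𝓞 K)) : ℝ :=
  (1 - (Ideal.absNorm 𝔭.asIdeal : ℝ) ^ (-s))⁻¹

theorem A1_hasSum_supp {s : ℝ} (hs : 1 < s) (T : Finset (HeightOneSpectrum (𝓞 K))) :
    HasSum (fun J : A1_supp K T ↦ A1_phi K s J.1) (∏ 𝔭 ∈ T, A1_factor K s 𝔭) := by
  classical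
  induction T using Finset.induction_on with
  | empty =>
    rw [Finset.prod_empty]
    have h1 : ∀ J : A1_supp K ∅, A1_phi K s J.1 = 1 := by
      rintro ⟨J, hJ⟩
      have : J = ⊤ := by simpa [A1_supp_empty] using hJ
      subst this
      simpa using A1_phi_one K s
    letI : Unique (A1_supp K ∅) :=
      { default := ⟨⊤, by simp [A1_supp_empty]⟩
        uniq := by
          rintro ⟨J, hJ⟩
          apply Subtype.ext
          simpa [A1_supp_empty] using hJ }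
    have := hasSum_unique (fun J : A1_supp K ∅ ↦ A1_phi K s J.1)
    rwa [h1] at this
  | insert 𝔮 T h𝔮 ih =>
    rw [Finset.prod_insert h𝔮]
    have hg : HasSum (fun e : ℕ ↦ A1_phi K s 𝔮.asIdeal ^ e) (A1_factor K s 𝔮) :=
      hasSum_geometric_of_lt_one (A1_phi_nonneg K s _) (A1_phi_prime_lt_one K (by linarith) 𝔮)
    have hprod := hg.mul ih (hg.summable.mul_of_nonneg ih.summable
      (fun e ↦ pow_nonneg (A1_phi_nonneg K s _) e) (fun J ↦ A1_phi_nonneg K s _))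
    rw [← (Equiv.ofBijective _ (A1_step_bijective K T 𝔮 h𝔮)).hasSum_iff]
    have hfun : ((fun J : A1_supp K (insert 𝔮 T) ↦ A1_phi K s J.1) ∘
        (Equiv.ofBijective _ (A1_step_bijective K T 𝔮 h𝔮))) =
        fun x : ℕ × A1_supp K T ↦ A1_phi K s 𝔮.asIdeal ^ x.1 * A1_phi K s x.2.1 := by
      funext x
      simp only [Function.comp_apply, Equiv.ofBijective_apply, A1_step_apply, A1_phi_mul,
        A1_phi_pow]
    rw [hfun]
    exact hprod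

theorem A1_one_le_factor {s : ℝ} (hs : 0 < s) (𝔭 : HeightOneSpectrum (𝓞 K)) :
    1 ≤ A1_factor K s 𝔭 := by
  have h1 := A1_phi_prime_lt_one K hs 𝔭
  have h2 := A1_phi_nonneg K s 𝔭.asIdeal
  unfold A1_phi at h1 h2
  unfold A1_factor
  rw [one_le_inv₀ (by linarith)]
  linarith

theorem A1_prod_le {s : ℝ} (hs : 1 < s) (T : Finset (HeightOneSpectrum (𝓞 K))) :
    ∏ 𝔭 ∈ T, A1_factor K s 𝔭 ≤ ∑' I : Ideal (𝓞 K), A1_phi K s I := by
  rw [← (A1_hasSum_supp K hs T).tsum_eq]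
  exact (A1_summable_phi K hs).tsum_subtype_le _ _ (fun _ ↦ A1_phi_nonneg K s _)

theorem A1_sum_le_prod {s : ℝ} (hs : 1 < s) (F : Finset (Ideal (𝓞 K))) :
    ∃ T : Finset (HeightOneSpectrum (𝓞 K)),
      ∑ I ∈ F, A1_phi K s I ≤ ∏ 𝔭 ∈ T, A1_factor K s 𝔭 := by
  classical
  have hfin : {𝔭 : HeightOneSpectrum (𝓞 K) | ∃ I ∈ F, I ≠ ⊥ ∧ I ≤ 𝔭.asIdeal}.Finite := by
    have : {𝔭 : HeightOneSpectrum (𝓞 K) | ∃ I ∈ F, I ≠ ⊥ ∧ I ≤ 𝔭.asIdeal} ⊆
        ⋃ I ∈ (F.filter (· ≠ ⊥) : Finset (Ideal (𝓞 K))),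
          {𝔭 : HeightOneSpectrum (𝓞 K) | 𝔭.asIdeal ∣ I} := by
      rintro 𝔭 ⟨I, hIF, hI0, hI⟩
      simp only [Set.mem_iUnion]
      exact ⟨I, Finset.mem_filter.mpr ⟨hIF, hI0⟩, Ideal.dvd_iff_le.mpr hI⟩
    refine Set.Finite.subset (Set.Finite.biUnion (Finset.finite_toSet _) fun I hI ↦ ?_) this
    exact Ideal.finite_factors (Finset.mem_filter.mp hI).2
  refine ⟨hfin.toFinset, ?_⟩
  rw [← (A1_hasSum_supp K hs hfin.toFinset).tsum_eq, tsum_subtype (A1_supp K hfin.toFinset)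
    (A1_phi K s)]
  have hsumm : Summable ((A1_supp K hfin.toFinset).indicator (A1_phi K s)) :=
    (A1_summable_phi K hs).indicator _
  refine le_trans (Finset.sum_le_sum fun I hI ↦ ?_)
    (hsumm.sum_le_tsum F fun I _ ↦ Set.indicator_nonneg (fun _ _ ↦ A1_phi_nonneg K s _) I)
  by_cases hI0 : I = ⊥
  · rw [hI0, A1_phi_bot K (by linarith)]
    exact Set.indicator_nonneg (fun _ _ ↦ A1_phi_nonneg K s _) _
  · have hmem : I ∈ A1_supp K hfin.toFinset := by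
      refine ⟨hI0, fun 𝔭 h𝔭 ↦ ?_⟩
      rw [Set.Finite.mem_toFinset]
      exact ⟨I, hI, hI0, h𝔭⟩
    rw [Set.indicator_of_mem hmem]

/-- A1 (Euler product, real `s > 1`). -/
theorem hasProd_dedekindZeta {s : ℝ} (hs : 1 < s) :
    HasProd (fun 𝔭 : HeightOneSpectrum (𝓞 K) ↦ (1 - (Ideal.absNorm 𝔭.asIdeal : ℝ) ^ (-s))⁻¹)
      (dedekindZeta K s).re := by
  rw [A1_dedekindZeta_eq K hs, Complex.ofReal_re]
  have hmono : Monotone
      (fun T : Finset (HeightOneSpectrum (𝓞 K)) ↦ ∏ 𝔭 ∈ T, A1_factor K s 𝔭) := by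
    classical
    intro T T' hTT'
    have h1 : (1 : ℝ) ≤ ∏ 𝔭 ∈ T' \ T, A1_factor K s 𝔭 := by
      have := Finset.prod_le_prod (s := T' \ T) (f := fun _ ↦ (1 : ℝ))
        (g := fun 𝔭 ↦ A1_factor K s 𝔭) (fun _ _ ↦ zero_le_one)
        (fun 𝔭 _ ↦ A1_one_le_factor K (by linarith) 𝔭)
      simpa using this
    have h2 : (0 : ℝ) ≤ ∏ 𝔭 ∈ T, A1_factor K s 𝔭 :=
      Finset.prod_nonneg fun 𝔭 _ ↦ zero_le_one.trans (A1_one_le_factor K (by linarith) 𝔭)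
    show ∏ 𝔭 ∈ T, A1_factor K s 𝔭 ≤ ∏ 𝔭 ∈ T', A1_factor K s 𝔭
    rw [← Finset.prod_sdiff hTT']
    exact le_mul_of_one_le_left h2 h1
  refine tendsto_atTop_isLUB hmono ⟨?_, ?_⟩
  · rintro _ ⟨T, rfl⟩
    exact A1_prod_le K hs T
  · intro b hb
    refine (A1_summable_phi K hs).tsum_le_of_sum_le fun F ↦ ?_
    obtain ⟨T, hT⟩ := A1_sum_le_prod K hs F
    exact hT.trans (hb ⟨T, rfl⟩)

/-- A1' (the Dedekind zeta function is real and `≥ 1` on `(1, ∞)`). -/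
theorem dedekindZeta_im_eq_zero {s : ℝ} (hs : 1 < s) :
    (dedekindZeta K s).im = 0 ∧ 1 ≤ (dedekindZeta K s).re := by
  rw [A1_dedekindZeta_eq K hs, Complex.ofReal_im, Complex.ofReal_re]
  refine ⟨rfl, ?_⟩
  have h := (A1_summable_phi K hs).le_tsum (1 : Ideal (𝓞 K)) (fun I _ ↦ A1_phi_nonneg K s I)
  rwa [A1_phi_one] at h

/-- A2 (summability of the prime zeta sum). -/
theorem summable_absNorm_rpow_neg {s : ℝ} (hs : 1 < s) :
    Summable fun 𝔭 : HeightOneSpectrum (𝓞 K) ↦ (Ideal.absNorm 𝔭.asIdeal : ℝ) ^ (-s) := by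
  have hinj : Function.Injective (fun 𝔭 : HeightOneSpectrum (𝓞 K) ↦ 𝔭.asIdeal) :=
    fun 𝔭 𝔮 h ↦ HeightOneSpectrum.ext h
  exact (A1_summable_phi K hs).comp_injective hinj

end A1

end Fermat.Agent.Cheb
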