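import Mathlib
import Fermat.Agent.Cheb.Defs

/-!
# Pillar CHEB, module A3: `log ζ_K(s) = log (1 / (s - 1)) + O(1)` on `(1, 2]`

From the class number formula `(s - 1) ζ_K(s) → ρ > 0` (`s → 1⁺`) and the continuity of `ζ_K` on
`Re s > 1`.

* `A3_lSeriesSummable_dedekindZeta`: the Dirichlet series of `ζ_K` converges absolutely for
  `Re s > 1`;
* `A3_continuousOn_dedekindZeta_re`: `s ↦ Re ζ_K(s)` is continuous on `(1, ∞)`;
* `hasLogAsymp_log_dedekindZeta_of`: the asymptotics, given that `ζ_K(s)` has real part `≥ 1`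
  for real `s > 1` (statement A1');
* `A3_dedekindZeta_im_eq_zero`: statement A1', proved directly from the Dirichlet series;
* `hasLogAsymp_log_dedekindZeta`: the asymptotics (exact skeleton statement).
-/

set_option autoImplicit false

open NumberField IsDedekindDomain Filter Topology

namespace Fermat.Agent.Cheb

section A
variable (K : Type*) [Field K] [NumberField K]

/-- The averages of the coefficients of the Dedekind zeta function converge to the residue. -/
theorem A3_tendsto_sum_coeff_div :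
    Tendsto (fun n : ℕ ↦ (∑ k ∈ Finset.Icc 1 n,
      (Nat.card {I : Ideal (𝓞 K) // Ideal.absNorm I = k} : ℝ)) / (n : ℝ)) atTop
      (𝓝 (dedekindZeta_residue K)) := by
  refine ((Ideal.tendsto_norm_le_div_atTop₀ K).comp tendsto_natCast_atTop_atTop).congr fun n ↦ ?_
  simp only [Function.comp_apply, Nat.cast_le, ← Nat.cast_sum]
  congr
  rw [← add_left_inj 1, ← Ideal.card_norm_le_eq_card_norm_le_add_one,
    show Finset.Icc 1 n = Finset.Ioc 0 n from Finset.Icc_succ_left_eq_Ioc _ _,
    show 1 = Nat.card {I : Ideal (𝓞 K) // Ideal.absNorm I = 0} by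
      simp [Ideal.absNorm_eq_zero_iff],
    Finset.sum_Ioc_add_eq_sum_Icc (n.zero_le),
    ← Finset.card_preimage_eq_sum_card_image_eq
      (fun k _ ↦ Ideal.finite_setOfPred_absNorm_eq k)]
  simp [Set.coe_eq_subtype]

/-- The Dirichlet series of the Dedekind zeta function converges absolutely for `Re s > 1`. -/
theorem A3_lSeriesSummable_dedekindZeta {s : ℂ} (hs : 1 < s.re) :
    LSeriesSummable (fun n ↦ (Nat.card {I : Ideal (𝓞 K) // Ideal.absNorm I = n} : ℂ)) s := by
  have h := LSeriesSummable_of_sum_norm_bigO_and_nonneg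
    (f := fun n ↦ (Nat.card {I : Ideal (𝓞 K) // Ideal.absNorm I = n} : ℝ)) (r := 1) (s := s)
    (Asymptotics.isBigO_atTop_natCast_rpow_of_tendsto_div_rpow (by simpa using A3_tendsto_sum_coeff_div K))
    (fun _ ↦ Nat.cast_nonneg _) zero_le_one hs
  simpa using h

theorem A3_abscissaOfAbsConv_le :
    LSeries.abscissaOfAbsConv
      (fun n ↦ (Nat.card {I : Ideal (𝓞 K) // Ideal.absNorm I = n} : ℂ)) ≤ 1 := by
  refine LSeries.abscissaOfAbsConv_le_of_forall_lt_LSeriesSummable fun y hy ↦ ?_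
  exact A3_lSeriesSummable_dedekindZeta K (by simpa using hy)

/-- The Dedekind zeta function is continuous on the half plane `Re s > 1`. -/
theorem A3_continuousOn_dedekindZeta : ContinuousOn (dedekindZeta K) {s : ℂ | 1 < s.re} := by
  have h := (LSeries_differentiableOn
    (fun n ↦ (Nat.card {I : Ideal (𝓞 K) // Ideal.absNorm I = n} : ℂ))).continuousOn
  refine h.mono fun s hs ↦ ?_
  exact lt_of_le_of_lt (A3_abscissaOfAbsConv_le K) (by exact_mod_cast hs)

/-- `s ↦ Re ζ_K(s)` is continuous on `(1, ∞)`. -/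
theorem A3_continuousOn_dedekindZeta_re :
    ContinuousOn (fun s : ℝ ↦ (dedekindZeta K s).re) (Set.Ioi 1) := by
  have h1 : ContinuousOn (fun s : ℝ ↦ dedekindZeta K s) (Set.Ioi 1) :=
    (A3_continuousOn_dedekindZeta K).comp Complex.continuous_ofReal.continuousOn
      (fun s hs ↦ by simpa using hs)
  exact Complex.continuous_re.comp_continuousOn h1

/-- `(s - 1) Re ζ_K(s) → ρ` as `s → 1⁺`. -/
theorem A3_tendsto_sub_one_mul_re :
    Tendsto (fun s : ℝ ↦ (s - 1) * (dedekindZeta K s).re) (𝓝[>] 1)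
      (𝓝 (dedekindZeta_residue K)) := by
  have h := (Complex.continuous_re.tendsto _).comp (tendsto_sub_one_mul_dedekindZeta_nhdsGT K)
  simp only [Complex.ofReal_re] at h
  refine h.congr fun s ↦ ?_
  simp only [Function.comp_apply]
  rw [← Complex.ofReal_one, ← Complex.ofReal_sub, Complex.re_ofReal_mul]

/-- A3 (`log ζ_K(s) = log (1/(s-1)) + O(1)`), given that `Re ζ_K(s) ≥ 1` for real `s > 1`. -/
theorem hasLogAsymp_log_dedekindZeta_of
    (hA1 : ∀ s : ℝ, 1 < s → (dedekindZeta K s).im = 0 ∧ 1 ≤ (dedekindZeta K s).re) :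
    HasLogAsymp (fun s ↦ Real.log (dedekindZeta K s).re) 1 := by
  set ρ := dedekindZeta_residue K with hρ
  have hρpos : 0 < ρ := dedekindZeta_residue_pos K
  set g : ℝ → ℝ := fun s ↦ (s - 1) * (dedekindZeta K s).re with hg
  -- near `1`
  have hev : ∀ᶠ s in 𝓝[>] (1 : ℝ), g s ∈ Set.Ioo (ρ / 2) (2 * ρ) :=
    (A3_tendsto_sub_one_mul_re K).eventually (Ioo_mem_nhds (by linarith) (by linarith))
  obtain ⟨u, hu1, hu⟩ := (mem_nhdsGT_iff_exists_Ioo_subset' (one_lt_two (α := ℝ))).mp hev
  have hu1' : (1 : ℝ) < u := hu1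
  -- away from `1`: a bound for `Re ζ_K` on `[min u 2, 2]`
  set v := min u 2 with hv
  have hv1 : 1 < v := lt_min hu1' one_lt_two
  have hcont : ContinuousOn (fun s : ℝ ↦ (dedekindZeta K s).re) (Set.Icc v 2) :=
    (A3_continuousOn_dedekindZeta_re K).mono fun s hs ↦ lt_of_lt_of_le hv1 hs.1
  obtain ⟨M, hM⟩ := (isCompact_Icc.bddAbove_image hcont)
  have hM' : ∀ s ∈ Set.Icc v 2, (dedekindZeta K s).re ≤ M := fun s hs ↦
    hM (Set.mem_image_of_mem _ hs)
  have hM1 : 1 ≤ M := (hA1 v hv1).2.trans (hM' v ⟨le_rfl, min_le_right _ _⟩)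
  -- global two-sided bound for `g`
  set c₁ := min (ρ / 2) (v - 1) with hc₁
  set c₂ := max (2 * ρ) M with hc₂
  have hc₁pos : 0 < c₁ := lt_min (by linarith) (by linarith)
  have hbound : ∀ s : ℝ, 1 < s → s ≤ 2 → c₁ ≤ g s ∧ g s ≤ c₂ := by
    intro s hs hs2
    by_cases hsu : s < v
    · have hsu' : s < u := lt_of_lt_of_le hsu (min_le_left _ _)
      have h := hu ⟨hs, hsu'⟩
      exact ⟨(min_le_left _ _).trans h.1.le, h.2.le.trans (le_max_left _ _)⟩
    · have hvs : v ≤ s := not_lt.mp hsu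
      have hz1 : 1 ≤ (dedekindZeta K s).re := (hA1 s hs).2
      have hzM : (dedekindZeta K s).re ≤ M := hM' s ⟨hvs, hs2⟩
      constructor
      · calc c₁ ≤ v - 1 := min_le_right _ _
          _ ≤ s - 1 := by linarith
          _ = (s - 1) * 1 := (mul_one _).symm
          _ ≤ (s - 1) * (dedekindZeta K s).re :=
              mul_le_mul_of_nonneg_left hz1 (by linarith)
      · calc g s = (s - 1) * (dedekindZeta K s).re := rfl
          _ ≤ 1 * M := mul_le_mul (by linarith) hzM (by linarith) zero_le_one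
          _ = M := one_mul _
          _ ≤ c₂ := le_max_right _ _
  refine ⟨max |Real.log c₁| |Real.log c₂|, fun s hs hs2 ↦ ?_⟩
  obtain ⟨h1, h2⟩ := hbound s hs hs2
  have hz1 : 1 ≤ (dedekindZeta K s).re := (hA1 s hs).2
  have hzpos : 0 < (dedekindZeta K s).re := lt_of_lt_of_le zero_lt_one hz1
  have hs0 : 0 < s - 1 := by linarith
  have hgpos : 0 < g s := mul_pos hs0 hzpos
  have hlog : Real.log (dedekindZeta K s).re - 1 * Real.log (1 / (s - 1)) = Real.log (g s) := by
    rw [one_mul, one_div, Real.log_inv, sub_neg_eq_add, hg,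
      Real.log_mul hs0.ne' hzpos.ne', add_comm]
  rw [hlog]
  exact abs_le_max_abs_abs (Real.log_le_log hc₁pos h1) (Real.log_le_log hgpos h2)

/-- The real terms of the Dirichlet series of `ζ_K` at a real point. -/
noncomputable def A3_realTerm (s : ℝ) (n : ℕ) : ℝ :=
  if n = 0 then 0 else (Nat.card {I : Ideal (𝓞 K) // Ideal.absNorm I = n} : ℝ) / (n : ℝ) ^ s

theorem A3_realTerm_nonneg (s : ℝ) (n : ℕ) : 0 ≤ A3_realTerm K s n := by
  unfold A3_realTerm
  split_ifs
  · exact le_rfl
  · positivity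

theorem A3_term_eq_ofReal (s : ℝ) (n : ℕ) :
    LSeries.term (fun n ↦ (Nat.card {I : Ideal (𝓞 K) // Ideal.absNorm I = n} : ℂ)) s n
      = ((A3_realTerm K s n : ℝ) : ℂ) := by
  unfold A3_realTerm
  by_cases hn : n = 0
  · simp [hn]
  · rw [LSeries.term_of_ne_zero hn, if_neg hn, Complex.ofReal_div,
      Complex.ofReal_cpow (Nat.cast_nonneg n)]
    simp

theorem A3_summable_realTerm {s : ℝ} (hs : 1 < s) : Summable (A3_realTerm K s) := by
  have h := A3_lSeriesSummable_dedekindZeta K (s := (s : ℂ)) (by simpa using hs)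
  rw [LSeriesSummable] at h
  rw [← Complex.summable_ofReal]
  exact h.congr fun n ↦ A3_term_eq_ofReal K s n

theorem A3_dedekindZeta_eq_ofReal (s : ℝ) :
    dedekindZeta K s = ((∑' n, A3_realTerm K s n : ℝ) : ℂ) := by
  rw [dedekindZeta, LSeries, Complex.ofReal_tsum]
  exact tsum_congr fun n ↦ A3_term_eq_ofReal K s n

theorem A3_realTerm_one (s : ℝ) : A3_realTerm K s 1 = 1 := by
  simp [A3_realTerm]

/-- A1' (proved here independently of the Euler product): for real `s > 1` the value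
`ζ_K(s)` is real and `≥ 1`. -/
theorem A3_dedekindZeta_im_eq_zero {s : ℝ} (hs : 1 < s) :
    (dedekindZeta K s).im = 0 ∧ 1 ≤ (dedekindZeta K s).re := by
  rw [A3_dedekindZeta_eq_ofReal]
  refine ⟨Complex.ofReal_im _, ?_⟩
  rw [Complex.ofReal_re, ← A3_realTerm_one K s]
  exact (A3_summable_realTerm K hs).le_tsum 1 fun j _ ↦ A3_realTerm_nonneg K s j

/-- A3 (`log ζ_K(s) = log (1/(s-1)) + O(1)`; from the class number formula). -/
theorem hasLogAsymp_log_dedekindZeta :
    HasLogAsymp (fun s ↦ Real.log (dedekindZeta K s).re) 1 :=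
  hasLogAsymp_log_dedekindZeta_of K fun _ hs ↦ A3_dedekindZeta_im_eq_zero K hs

end A

end Fermat.Agent.Cheb
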