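import Mathlib
import Fermat.Agent.Cheb.Defs
import Fermat.Agent.Cheb.LogAsymp

/-!
# Pillar CHEB, module A5/A6: asymptotics of the prime zeta sums (helper49)

From the Euler product of the Dedekind zeta function, the logarithmic asymptotics of
`log ζ_K(s)` and the boundedness of the contribution of the primes of degree `≥ 2` we deduce

* `hasLogAsymp_primeIdealZetaSum_univ_of`: `Σ_𝔭 N𝔭^(-s) = log (1/(s-1)) + O(1)`;
* `hasLogAsymp_primeIdealZetaSum_degOne_of`: the same for the primes of degree one.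

The analytic inputs (modules A1, A3, A4) are explicit hypotheses.
-/

set_option autoImplicit false

open NumberField IsDedekindDomain

namespace Fermat.Agent.Cheb

section elementary

/-- `0 ≤ -log (1 - x) - x ≤ 2 x²` for `0 ≤ x ≤ 1/2`. -/
theorem A5_log_bound {x : ℝ} (h0 : 0 ≤ x) (h1 : x ≤ 1 / 2) :
    0 ≤ -Real.log (1 - x) - x ∧ -Real.log (1 - x) - x ≤ 2 * x ^ 2 := by
  constructor
  · have := Real.log_le_sub_one_of_pos (show (0 : ℝ) < 1 - x by linarith)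
    linarith
  · have h := Real.abs_log_sub_add_sum_range_le (show |x| < 1 by rw [abs_of_nonneg h0]; linarith) 1
    simp only [Finset.range_one, Finset.sum_singleton, zero_add, pow_one, Nat.cast_zero,
      div_one] at h
    rw [abs_of_nonneg h0] at h
    have h2 : x ^ (1 + 1) / (1 - x) ≤ 2 * x ^ 2 := by
      rw [div_le_iff₀ (by linarith)]
      have : 0 ≤ x ^ 2 := sq_nonneg x
      have e : (1 : ℕ) + 1 = 2 := rfl
      rw [e]
      nlinarith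
    have h3 := (abs_le.mp (h.trans h2)).1
    linarith

end elementary

section primeZeta

variable (K : Type*) [Field K] [NumberField K]

/-- The absolute norm of a nonzero prime ideal is at least two. -/
theorem A5_two_le_absNorm (𝔭 : HeightOneSpectrum (𝓞 K)) : 2 ≤ Ideal.absNorm 𝔭.asIdeal := by
  have h0 : Ideal.absNorm 𝔭.asIdeal ≠ 0 := by
    rw [Ne, Ideal.absNorm_eq_zero_iff]
    exact 𝔭.ne_bot
  have h1 : Ideal.absNorm 𝔭.asIdeal ≠ 1 := by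
    rw [Ne, Ideal.absNorm_eq_one_iff]
    exact 𝔭.isPrime.ne_top
  omega

theorem A5_wt_pos (s : ℝ) (𝔭 : HeightOneSpectrum (𝓞 K)) : 0 < wt K s 𝔭 := by
  unfold wt
  have := A5_two_le_absNorm K 𝔭
  positivity

/-- `N𝔭 ^ (-s) ≤ 1/2` for `s ≥ 1`. -/
theorem A5_wt_le_half {s : ℝ} (hs : 1 ≤ s) (𝔭 : HeightOneSpectrum (𝓞 K)) :
    wt K s 𝔭 ≤ 1 / 2 := by
  unfold wt
  have h2 : (2 : ℝ) ≤ (Ideal.absNorm 𝔭.asIdeal : ℝ) := by exact_mod_cast A5_two_le_absNorm K 𝔭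
  have hpos : (0 : ℝ) < (Ideal.absNorm 𝔭.asIdeal : ℝ) := by linarith
  rw [Real.rpow_neg hpos.le, one_div]
  apply inv_anti₀ (by norm_num)
  calc (2 : ℝ) = 2 ^ (1 : ℝ) := (Real.rpow_one 2).symm
    _ ≤ (Ideal.absNorm 𝔭.asIdeal : ℝ) ^ (1 : ℝ) := Real.rpow_le_rpow (by norm_num) h2 (by norm_num)
    _ ≤ (Ideal.absNorm 𝔭.asIdeal : ℝ) ^ s :=
        Real.rpow_le_rpow_of_exponent_le (by linarith) hs

/-- `(N𝔭 ^ (-s))² ≤ N𝔭 ^ (-2)` for `s ≥ 1`. -/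
theorem A5_wt_sq_le {s : ℝ} (hs : 1 ≤ s) (𝔭 : HeightOneSpectrum (𝓞 K)) :
    wt K s 𝔭 ^ 2 ≤ wt K 2 𝔭 := by
  unfold wt
  have h2 : (2 : ℝ) ≤ (Ideal.absNorm 𝔭.asIdeal : ℝ) := by exact_mod_cast A5_two_le_absNorm K 𝔭
  have hpos : (0 : ℝ) < (Ideal.absNorm 𝔭.asIdeal : ℝ) := by linarith
  rw [← Real.rpow_natCast, ← Real.rpow_mul hpos.le]
  apply Real.rpow_le_rpow_of_exponent_le (by linarith)
  push_cast
  linarith

theorem A5_primeIdealZetaSum_univ_eq (s : ℝ) :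
    NumberField.Set.primeIdealZetaSum (Set.univ : Set (HeightOneSpectrum (𝓞 K))) s =
      ∑' 𝔭, wt K s 𝔭 := by
  rw [primeIdealZetaSum_eq_tsum_indicator, Set.indicator_univ]

/-- The key comparison: `|log ζ_K(s) - Σ_𝔭 N𝔭^(-s)| ≤ 2 Σ_𝔭 N𝔭^(-2)` for `s > 1`. -/
theorem A5_abs_log_sub_le
    (hprod : ∀ s : ℝ, 1 < s → HasProd (fun 𝔭 : HeightOneSpectrum (𝓞 K) ↦
      (1 - (Ideal.absNorm 𝔭.asIdeal : ℝ) ^ (-s))⁻¹) (dedekindZeta K s).re)
    (hsum : ∀ s : ℝ, 1 < s → Summable fun 𝔭 : HeightOneSpectrum (𝓞 K) ↦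
      (Ideal.absNorm 𝔭.asIdeal : ℝ) ^ (-s))
    {s : ℝ} (hs : 1 < s) :
    |Real.log (dedekindZeta K s).re -
        NumberField.Set.primeIdealZetaSum (Set.univ : Set (HeightOneSpectrum (𝓞 K))) s| ≤
      2 * ∑' 𝔭, wt K 2 𝔭 := by
  have hsum_s : Summable (wt K s) := hsum s hs
  have hsum_2 : Summable (wt K 2) := hsum 2 (by norm_num)
  -- the error terms
  set e : HeightOneSpectrum (𝓞 K) → ℝ := fun 𝔭 ↦ -Real.log (1 - wt K s 𝔭) - wt K s 𝔭 with he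
  have he_bd : ∀ 𝔭, 0 ≤ e 𝔭 ∧ e 𝔭 ≤ 2 * wt K 2 𝔭 := by
    intro 𝔭
    have hb := A5_log_bound (A5_wt_pos K s 𝔭).le (A5_wt_le_half K hs.le 𝔭)
    refine ⟨hb.1, hb.2.trans ?_⟩
    have := A5_wt_sq_le K hs.le 𝔭
    linarith
  have he_sum : Summable e :=
    Summable.of_nonneg_of_le (fun 𝔭 ↦ (he_bd 𝔭).1) (fun 𝔭 ↦ (he_bd 𝔭).2) (hsum_2.mul_left 2)
  -- the logarithms of the Euler factors are summable
  have hg_sum : Summable fun 𝔭 ↦ -Real.log (1 - wt K s 𝔭) := by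
    have : (fun 𝔭 ↦ -Real.log (1 - wt K s 𝔭)) = fun 𝔭 ↦ e 𝔭 + wt K s 𝔭 := by
      funext 𝔭; simp only [he]; ring
    rw [this]
    exact he_sum.add hsum_s
  -- exponentiate
  have hexp := hg_sum.hasSum.rexp
  have hfun : (Real.exp ∘ fun 𝔭 ↦ -Real.log (1 - wt K s 𝔭)) =
      fun 𝔭 : HeightOneSpectrum (𝓞 K) ↦ (1 - (Ideal.absNorm 𝔭.asIdeal : ℝ) ^ (-s))⁻¹ := by
    funext 𝔭
    have hpos : 0 < 1 - wt K s 𝔭 := by
      have := A5_wt_le_half K hs.le 𝔭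
      linarith
    simp only [Function.comp_apply]
    rw [Real.exp_neg, Real.exp_log hpos]
    rfl
  rw [hfun] at hexp
  have hZ : (dedekindZeta K s).re = Real.exp (∑' 𝔭, -Real.log (1 - wt K s 𝔭)) :=
    (hprod s hs).unique hexp
  rw [hZ, Real.log_exp, A5_primeIdealZetaSum_univ_eq, ← hg_sum.tsum_sub hsum_s]
  have hnn : 0 ≤ ∑' 𝔭, (-Real.log (1 - wt K s 𝔭) - wt K s 𝔭) :=
    tsum_nonneg fun 𝔭 ↦ (he_bd 𝔭).1
  rw [abs_of_nonneg hnn, ← tsum_mul_left]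
  exact he_sum.tsum_le_tsum (fun 𝔭 ↦ (he_bd 𝔭).2) (hsum_2.mul_left 2)

/-- **A5**: `Σ_𝔭 N𝔭^(-s) = log (1/(s-1)) + O(1)`, from the Euler product (A1), the summability
(A2) and the asymptotics of `log ζ_K` (A3). -/
theorem hasLogAsymp_primeIdealZetaSum_univ_of
    (hprod : ∀ s : ℝ, 1 < s → HasProd (fun 𝔭 : HeightOneSpectrum (𝓞 K) ↦
      (1 - (Ideal.absNorm 𝔭.asIdeal : ℝ) ^ (-s))⁻¹) (dedekindZeta K s).re)
    (hsum : ∀ s : ℝ, 1 < s → Summable fun 𝔭 : HeightOneSpectrum (𝓞 K) ↦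
      (Ideal.absNorm 𝔭.asIdeal : ℝ) ^ (-s))
    (hlog : HasLogAsymp (fun s ↦ Real.log (dedekindZeta K s).re) 1) :
    HasLogAsymp (NumberField.Set.primeIdealZetaSum
      (Set.univ : Set (HeightOneSpectrum (𝓞 K)))) 1 := by
  have hb : ∀ s : ℝ, 1 < s → s ≤ 2 →
      |Real.log (dedekindZeta K s).re -
        NumberField.Set.primeIdealZetaSum (Set.univ : Set (HeightOneSpectrum (𝓞 K))) s| ≤
      2 * ∑' 𝔭, wt K 2 𝔭 := fun s hs _ ↦ A5_abs_log_sub_le K hprod hsum hs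
  exact (hlog.sub_bounded hb).congr fun s _ _ ↦ by ring

/-- **A6**: the primes of degree one satisfy `Σ N𝔭^(-s) = log (1/(s-1)) + O(1)`, from A5 and the
boundedness of the contribution of the primes of higher degree (A4). -/
theorem hasLogAsymp_primeIdealZetaSum_degOne_of
    (hsum : ∀ s : ℝ, 1 < s → Summable fun 𝔭 : HeightOneSpectrum (𝓞 K) ↦
      (Ideal.absNorm 𝔭.asIdeal : ℝ) ^ (-s))
    (huniv : HasLogAsymp (NumberField.Set.primeIdealZetaSum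
      (Set.univ : Set (HeightOneSpectrum (𝓞 K)))) 1)
    (hdeg : ∃ C : ℝ, ∀ s : ℝ, 1 < s →
      NumberField.Set.primeIdealZetaSum {𝔭 : HeightOneSpectrum (𝓞 K) | ¬ IsDegOne K 𝔭} s ≤ C) :
    HasLogAsymp (NumberField.Set.primeIdealZetaSum
      {𝔭 : HeightOneSpectrum (𝓞 K) | IsDegOne K 𝔭}) 1 := by
  obtain ⟨C, hC⟩ := hdeg
  have hb : ∀ s : ℝ, 1 < s → s ≤ 2 →
      |NumberField.Set.primeIdealZetaSum {𝔭 : HeightOneSpectrum (𝓞 K) | ¬ IsDegOne K 𝔭} s| ≤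
        C := by
    intro s hs _
    rw [abs_of_nonneg (NumberField.Set.primeIdealZetaSum_nonneg _ _)]
    exact hC s hs
  refine (huniv.sub_bounded hb).congr fun s hs _ ↦ ?_
  have hdisj : Disjoint {𝔭 : HeightOneSpectrum (𝓞 K) | IsDegOne K 𝔭}
      {𝔭 : HeightOneSpectrum (𝓞 K) | ¬ IsDegOne K 𝔭} := by
    rw [Set.disjoint_left]
    intro 𝔭 h1 h2
    exact h2 h1
  have hun : {𝔭 : HeightOneSpectrum (𝓞 K) | IsDegOne K 𝔭} ∪
      {𝔭 : HeightOneSpectrum (𝓞 K) | ¬ IsDegOne K 𝔭} = Set.univ := by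
    ext 𝔭
    constructor
    · intro _; exact Set.mem_univ _
    · intro _
      by_cases h : IsDegOne K 𝔭
      · exact Or.inl h
      · exact Or.inr h
  have h := primeIdealZetaSum_union (K := K) (hsum s hs) hdisj
  rw [hun] at h
  rw [h]
  ring

end primeZeta

end Fermat.Agent.Cheb
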