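import Mathlib
import Fermat.Agent.Cheb.Defs

/-!
# Pillar CHEB, module C2: only finitely many primes ramify

A prime with ramification index `≠ 1` divides the different ideal, which is nonzero and hence has
only finitely many prime divisors.

* `finite_ramified`: for number fields `L / K`, only finitely many primes of `K` ramify in `L`;
* `finite_ramified_rat`: only finitely many rational primes ramify in `L`.
-/

set_option autoImplicit false
set_option linter.unusedSectionVars false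

open NumberField IsDedekindDomain

namespace Fermat.Agent.Cheb

section CD
variable (K L : Type*) [Field K] [NumberField K] [Field L] [NumberField L] [Algebra K L]
  [IsGalois K L]

omit [IsGalois K L] in
/-- A prime of `𝓞 L` with ramification index `≠ 1` over `𝓞 K` divides the different. -/
theorem C2_dvd_differentIdeal_of_ramificationIdx_ne_one (P : Ideal (𝓞 L)) [P.IsPrime]
    (h : P.ramificationIdx (𝓞 K) ≠ 1) : P ∣ differentIdeal (𝓞 K) (𝓞 L) := by
  by_contra hnd
  rw [not_dvd_differentIdeal_iff] at hnd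
  exact h (Ideal.ramificationIdx_eq_one P (𝓞 K))

/-- C2 (only finitely many primes ramify). -/
theorem finite_ramified :
    {𝔭 : HeightOneSpectrum (𝓞 K) | 𝔭.asIdeal.ramificationIdxIn (𝓞 L) ≠ 1}.Finite := by
  classical
  have hD : differentIdeal (𝓞 K) (𝓞 L) ≠ 0 := differentIdeal_ne_bot
  have hfin := Ideal.finite_factors hD
  have hinj : Function.Injective (fun 𝔭 : HeightOneSpectrum (𝓞 K) => 𝔭.asIdeal) :=
    fun _ _ h => HeightOneSpectrum.ext h
  refine Set.Finite.of_finite_image ?_ hinj.injOn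
  refine (hfin.image (fun v : HeightOneSpectrum (𝓞 L) => v.asIdeal.under (𝓞 K))).subset ?_
  rintro _ ⟨𝔭, h𝔭, rfl⟩
  have h𝔭' : 𝔭.asIdeal.ramificationIdxIn (𝓞 L) ≠ 1 := h𝔭
  have hex : ∃ P : Ideal (𝓞 L), P.IsPrime ∧ P.LiesOver 𝔭.asIdeal := by
    obtain ⟨⟨P, hP1, hP2⟩⟩ := (inferInstance : Nonempty (Ideal.primesOver 𝔭.asIdeal (𝓞 L)))
    exact ⟨P, hP1, hP2⟩
  rw [Ideal.ramificationIdxIn, dif_pos hex] at h𝔭'
  obtain ⟨hP1, hP2⟩ := hex.choose_spec
  set P := hex.choose with hPdef
  have hPbot : P ≠ ⊥ := by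
    intro hbot
    have h1 : 𝔭.asIdeal = P.under (𝓞 K) := hP2.over
    rw [hbot] at h1
    apply 𝔭.ne_bot
    rw [h1]
    exact Ideal.under_bot (𝓞 K) (𝓞 L)
  refine ⟨⟨P, hP1, hPbot⟩, ?_, ?_⟩
  · exact C2_dvd_differentIdeal_of_ramificationIdx_ne_one K L P h𝔭'
  · exact hP2.over.symm

end CD

section Rat

variable (L : Type*) [Field L] [NumberField L] [IsGalois ℚ L]

omit [IsGalois ℚ L] in
/-- A prime of `𝓞 L` with ramification index `≠ 1` over `ℤ` divides the different. -/
theorem C2_dvd_differentIdeal_int_of_ramificationIdx_ne_one (P : Ideal (𝓞 L)) [P.IsPrime]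
    (h : P.ramificationIdx ℤ ≠ 1) : P ∣ differentIdeal ℤ (𝓞 L) := by
  by_contra hnd
  rw [not_dvd_differentIdeal_iff] at hnd
  exact h (Ideal.ramificationIdx_eq_one P ℤ)

/-- C2, rational version: only finitely many rational primes ramify in `L`. -/
theorem finite_ramified_rat :
    {p : ℕ | p.Prime ∧ (Ideal.span {(p : ℤ)}).ramificationIdxIn (𝓞 L) ≠ 1}.Finite := by
  classical
  have hD : differentIdeal ℤ (𝓞 L) ≠ 0 := differentIdeal_ne_bot
  have hfin := Ideal.finite_factors hD
  have hinj : Function.Injective (fun p : ℕ => Ideal.span {(p : ℤ)}) := by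
    intro a b hab
    have h1 : Associated (a : ℤ) (b : ℤ) := Ideal.span_singleton_eq_span_singleton.mp hab
    have h2 := Int.natAbs_eq_iff_associated.mpr h1
    simpa using h2
  refine Set.Finite.of_finite_image ?_ hinj.injOn
  refine (hfin.image (fun v : HeightOneSpectrum (𝓞 L) => v.asIdeal.under ℤ)).subset ?_
  rintro _ ⟨p, ⟨hp, hram⟩, rfl⟩
  have hpprime : (Ideal.span {(p : ℤ)}).IsPrime := by
    rw [Ideal.span_singleton_prime (by exact_mod_cast hp.ne_zero)]
    exact Nat.prime_iff_prime_int.mp hp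
  have hpbot : Ideal.span {(p : ℤ)} ≠ ⊥ := by
    rw [Ne, Ideal.span_singleton_eq_bot]
    exact_mod_cast hp.ne_zero
  have hex : ∃ P : Ideal (𝓞 L), P.IsPrime ∧ P.LiesOver (Ideal.span {(p : ℤ)}) := by
    obtain ⟨⟨P, hP1, hP2⟩⟩ :=
      (inferInstance : Nonempty (Ideal.primesOver (Ideal.span {(p : ℤ)}) (𝓞 L)))
    exact ⟨P, hP1, hP2⟩
  rw [Ideal.ramificationIdxIn, dif_pos hex] at hram
  obtain ⟨hP1, hP2⟩ := hex.choose_spec
  set P := hex.choose with hPdef
  have hPbot : P ≠ ⊥ := by
    intro hbot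
    have h1 : Ideal.span {(p : ℤ)} = P.under ℤ := hP2.over
    rw [hbot] at h1
    apply hpbot
    rw [h1]
    exact Ideal.under_bot ℤ (𝓞 L)
  refine ⟨⟨P, hP1, hPbot⟩, ?_, ?_⟩
  · exact C2_dvd_differentIdeal_int_of_ramificationIdx_ne_one L P hram
  · exact hP2.over.symm

end Rat

end Fermat.Agent.Cheb
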