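import Mathlib
import Fermat.Agent.Cheb.Defs
import Fermat.Agent.Cheb.LogAsymp
import Fermat.Agent.Cheb.Ramified

/-!
# Pillar CHEB, module B1: completely split primes of degree one

For a Galois extension `E / K` of number fields of degree `d`, the primes of degree one of `E`
lying over an unramified prime of `K` sit `d`-to-`1` over the primes of degree one of `K` which
split completely in `E`, with the same absolute norm.  Hence the latter have logarithmic density
`1 / d`.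

* `hasLogAsymp_splitsCompletely_of`: the statement B1 with the inputs A2 (summability for `E`)
  and A6 (for `E`) as hypotheses.
-/

set_option autoImplicit false
set_option linter.unusedSectionVars false

open NumberField IsDedekindDomain

namespace Fermat.Agent.Cheb

section B
variable (K E : Type*) [Field K] [NumberField K] [Field E] [NumberField E] [Algebra K E]
  [IsGalois K E]

/-- The prime of `K` below a prime of `E`. -/
noncomputable def B1_under (𝔓 : HeightOneSpectrum (𝓞 E)) : HeightOneSpectrum (𝓞 K) :=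
  HeightOneSpectrum.under (𝓞 K) 𝔓

theorem B1_under_asIdeal (𝔓 : HeightOneSpectrum (𝓞 E)) :
    (B1_under K E 𝔓).asIdeal = 𝔓.asIdeal.under (𝓞 K) := rfl

theorem B1_liesOver (𝔓 : HeightOneSpectrum (𝓞 E)) :
    𝔓.asIdeal.LiesOver (B1_under K E 𝔓).asIdeal := ⟨rfl⟩

/-- `N𝔭 ^ f(𝔓 | 𝔭) = N𝔓`. -/
theorem B1_absNorm_pow (𝔓 : HeightOneSpectrum (𝓞 E)) :
    Ideal.absNorm (B1_under K E 𝔓).asIdeal ^ (B1_under K E 𝔓).asIdeal.inertiaDegIn (𝓞 E) =
      Ideal.absNorm 𝔓.asIdeal := by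
  have := 𝔓.isPrime
  have := B1_liesOver K E 𝔓
  rw [Ideal.inertiaDegIn_eq_inertiaDeg (B1_under K E 𝔓).asIdeal 𝔓.asIdeal Gal(E/K)]
  exact Ideal.absNorm_pow_inertiaDeg (B1_under K E 𝔓).asIdeal 𝔓.asIdeal

/-- A prime of degree one of `E` lies over a prime of degree one of `K`, with residue degree
one and the same norm. -/
theorem B1_of_isDegOne {𝔓 : HeightOneSpectrum (𝓞 E)} (h : IsDegOne E 𝔓) :
    IsDegOne K (B1_under K E 𝔓) ∧ (B1_under K E 𝔓).asIdeal.inertiaDegIn (𝓞 E) = 1 ∧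
      Ideal.absNorm 𝔓.asIdeal = Ideal.absNorm (B1_under K E 𝔓).asIdeal := by
  have hpow := B1_absNorm_pow K E 𝔓
  have hP : (Ideal.absNorm 𝔓.asIdeal).Prime := h
  obtain ⟨h1, h2⟩ := (Nat.Prime.pow_eq_iff hP).mp hpow
  refine ⟨?_, h2, h1.symm⟩
  show (Ideal.absNorm (B1_under K E 𝔓).asIdeal).Prime
  rw [h1]; exact hP

/-- A prime of `E` over a prime of degree one of `K` with residue degree one has degree one and
the same norm. -/
theorem B1_of_inertiaDegIn_eq_one {𝔓 : HeightOneSpectrum (𝓞 E)}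
    (h : IsDegOne K (B1_under K E 𝔓))
    (hf : (B1_under K E 𝔓).asIdeal.inertiaDegIn (𝓞 E) = 1) :
    IsDegOne E 𝔓 ∧ Ideal.absNorm 𝔓.asIdeal = Ideal.absNorm (B1_under K E 𝔓).asIdeal := by
  have hpow := B1_absNorm_pow K E 𝔓
  rw [hf, pow_one] at hpow
  refine ⟨?_, hpow.symm⟩
  show (Ideal.absNorm 𝔓.asIdeal).Prime
  rw [← hpow]; exact h

/-- The fibre of `B1_under` over `𝔭` is the set of primes over `𝔭`. -/
noncomputable def B1_fiberEquiv (𝔭 : HeightOneSpectrum (𝓞 K)) :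
    (B1_under K E ⁻¹' {𝔭}) ≃ (𝔭.asIdeal.primesOver (𝓞 E)) where
  toFun 𝔓 := ⟨𝔓.1.asIdeal, 𝔓.1.isPrime, by
    have h : B1_under K E 𝔓.1 = 𝔭 := 𝔓.2
    exact ⟨(congrArg HeightOneSpectrum.asIdeal h).symm⟩⟩
  invFun P := ⟨⟨P.1, P.2.1, by
      intro hbot
      have h1 : 𝔭.asIdeal = P.1.under (𝓞 K) := P.2.2.over
      rw [hbot] at h1
      apply 𝔭.ne_bot
      rw [h1]
      exact Ideal.under_bot (𝓞 K) (𝓞 E)⟩, by
    show B1_under K E _ = 𝔭
    apply HeightOneSpectrum.ext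
    rw [B1_under_asIdeal]
    exact P.2.2.over.symm⟩
  left_inv 𝔓 := by
    apply Subtype.ext
    apply HeightOneSpectrum.ext
    rfl
  right_inv P := by
    apply Subtype.ext
    rfl

theorem B1_finite_fiber (𝔭 : HeightOneSpectrum (𝓞 K)) : (B1_under K E ⁻¹' {𝔭}).Finite := by
  have := 𝔭.isPrime
  have : Finite (𝔭.asIdeal.primesOver (𝓞 E)) :=
    (IsDedekindDomain.primesOver_finite 𝔭.asIdeal (𝓞 E)).to_subtype
  exact Set.finite_coe_iff.mp (Finite.of_equiv _ (B1_fiberEquiv K E 𝔭).symm)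

/-- Over a completely split prime there are exactly `[E : K]` primes. -/
theorem B1_card_fiber {𝔭 : HeightOneSpectrum (𝓞 K)} (h : SplitsCompletely K E 𝔭) :
    Nat.card (B1_under K E ⁻¹' {𝔭}) = Module.finrank K E := by
  have := 𝔭.isPrime
  have h1 := Ideal.ncard_primesOver_mul_ramificationIdxIn_mul_inertiaDegIn 𝔭.asIdeal (𝓞 E)
    Gal(E/K)
  rw [h.1, h.2, mul_one, mul_one, IsGalois.card_aut_eq_finrank] at h1
  rw [Nat.card_congr (B1_fiberEquiv K E 𝔭), ← h1]
  exact Nat.card_coe_set_eq _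

/-- The primes of `E` over a finite set of primes of `K` are finitely many. -/
theorem B1_finite_preimage {R : Set (HeightOneSpectrum (𝓞 K))} (hR : R.Finite) :
    (B1_under K E ⁻¹' R).Finite :=
  hR.preimage' fun 𝔭 _ ↦ B1_finite_fiber K E 𝔭

/-- The set of primes of degree one of `E` lying over unramified primes of `K`. -/
def B1_good : Set (HeightOneSpectrum (𝓞 E)) :=
  {𝔓 | IsDegOne E 𝔓} \
    (B1_under K E ⁻¹' {𝔭 : HeightOneSpectrum (𝓞 K) | 𝔭.asIdeal.ramificationIdxIn (𝓞 E) ≠ 1})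

/-- The set of primes of degree one of `K` which split completely in `E`. -/
def B1_spl : Set (HeightOneSpectrum (𝓞 K)) :=
  {𝔭 | IsDegOne K 𝔭 ∧ SplitsCompletely K E 𝔭}

theorem B1_mem_good_iff (𝔓 : HeightOneSpectrum (𝓞 E)) :
    𝔓 ∈ B1_good K E ↔ B1_under K E 𝔓 ∈ B1_spl K E := by
  constructor
  · rintro ⟨h1, h2⟩
    have h1' : IsDegOne E 𝔓 := h1
    have h2' : (B1_under K E 𝔓).asIdeal.ramificationIdxIn (𝓞 E) = 1 := by
      by_contra hne
      exact h2 hne
    obtain ⟨ha, hb, -⟩ := B1_of_isDegOne K E h1'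
    exact ⟨ha, h2', hb⟩
  · rintro ⟨h1, h2, h3⟩
    refine ⟨(B1_of_inertiaDegIn_eq_one K E h1 h3).1, ?_⟩
    intro hmem
    exact hmem h2

theorem B1_wt_eq {𝔓 : HeightOneSpectrum (𝓞 E)} (h : 𝔓 ∈ B1_good K E) (s : ℝ) :
    wt E s 𝔓 = wt K s (B1_under K E 𝔓) := by
  obtain ⟨h1, -⟩ := h
  have h1' : IsDegOne E 𝔓 := h1
  obtain ⟨-, -, hc⟩ := B1_of_isDegOne K E h1'
  unfold wt
  rw [hc]

/-- The sum over a fibre. -/
theorem B1_tsum_fiber (s : ℝ) (𝔭 : HeightOneSpectrum (𝓞 K)) :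
    ∑' 𝔓 : (B1_under K E ⁻¹' {𝔭}), (B1_good K E).indicator (wt E s) 𝔓.1 =
      (Module.finrank K E : ℝ) * (B1_spl K E).indicator (wt K s) 𝔭 := by
  classical
  by_cases h𝔭 : 𝔭 ∈ B1_spl K E
  · have hfun : ∀ 𝔓 : (B1_under K E ⁻¹' {𝔭}),
        (B1_good K E).indicator (wt E s) 𝔓.1 = wt K s 𝔭 := by
      intro 𝔓
      have hu : B1_under K E 𝔓.1 = 𝔭 := 𝔓.2
      have hg : 𝔓.1 ∈ B1_good K E := by
        rw [B1_mem_good_iff, hu]; exact h𝔭
      rw [Set.indicator_of_mem hg, B1_wt_eq K E hg, hu]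
    rw [tsum_congr hfun, tsum_const, B1_card_fiber K E h𝔭.2, Set.indicator_of_mem h𝔭,
      nsmul_eq_mul]
  · have hfun : ∀ 𝔓 : (B1_under K E ⁻¹' {𝔭}),
        (B1_good K E).indicator (wt E s) 𝔓.1 = 0 := by
      intro 𝔓
      have hu : B1_under K E 𝔓.1 = 𝔭 := 𝔓.2
      have hg : 𝔓.1 ∉ B1_good K E := by
        rw [B1_mem_good_iff, hu]; exact h𝔭
      exact Set.indicator_of_notMem hg _
    rw [tsum_congr hfun, tsum_zero, Set.indicator_of_notMem h𝔭, mul_zero]

/-- The key identity: the prime zeta sum of the good primes of `E` is `[E : K]` times the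
prime zeta sum of the completely split primes of degree one of `K`. -/
theorem B1_primeIdealZetaSum_good {s : ℝ} (hsum : Summable (wt E s)) :
    NumberField.Set.primeIdealZetaSum (B1_good K E) s =
      (Module.finrank K E : ℝ) * NumberField.Set.primeIdealZetaSum (B1_spl K E) s := by
  rw [primeIdealZetaSum_eq_tsum_indicator, primeIdealZetaSum_eq_tsum_indicator]
  have hf : HasSum ((B1_good K E).indicator (wt E s))
      (∑' 𝔓, (B1_good K E).indicator (wt E s) 𝔓) :=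
    (summable_indicator_wt hsum (B1_good K E)).hasSum
  have hfib := hf.tsum_fiberwise (B1_under K E)
  have hfun : (fun 𝔭 : HeightOneSpectrum (𝓞 K) ↦
      ∑' 𝔓 : (B1_under K E ⁻¹' {𝔭}), (B1_good K E).indicator (wt E s) 𝔓.1) =
      fun 𝔭 ↦ (Module.finrank K E : ℝ) * (B1_spl K E).indicator (wt K s) 𝔭 :=
    funext fun 𝔭 ↦ B1_tsum_fiber K E s 𝔭
  rw [hfun] at hfib
  rw [← hfib.tsum_eq, tsum_mul_left]

/-- **B1** with the inputs A2 (summability for `E`) and A6 (for `E`) as hypotheses: the primes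
of degree one of `K` which split completely in the Galois extension `E / K` have logarithmic
density `1 / [E : K]`. -/
theorem hasLogAsymp_splitsCompletely_of
    (hsum : ∀ s : ℝ, 1 < s → Summable fun 𝔓 : HeightOneSpectrum (𝓞 E) ↦
      (Ideal.absNorm 𝔓.asIdeal : ℝ) ^ (-s))
    (hA6 : HasLogAsymp (NumberField.Set.primeIdealZetaSum
      {𝔓 : HeightOneSpectrum (𝓞 E) | IsDegOne E 𝔓}) 1) :
    HasLogAsymp (NumberField.Set.primeIdealZetaSum
      {𝔭 : HeightOneSpectrum (𝓞 K) | IsDegOne K 𝔭 ∧ SplitsCompletely K E 𝔭})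
      (1 / (Module.finrank K E : ℝ)) := by
  have hsum' : ∀ s : ℝ, 1 < s → Summable (wt E s) := hsum
  have hd : (0 : ℝ) < (Module.finrank K E : ℝ) := by
    exact_mod_cast (Module.finrank_pos : 0 < Module.finrank K E)
  have hfin : (B1_under K E ⁻¹'
      {𝔭 : HeightOneSpectrum (𝓞 K) | 𝔭.asIdeal.ramificationIdxIn (𝓞 E) ≠ 1}).Finite :=
    B1_finite_preimage K E (finite_ramified K E)
  have hgood : HasLogAsymp (NumberField.Set.primeIdealZetaSum (B1_good K E)) 1 :=
    HasLogAsymp.diff_finite hsum' hA6 hfin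
  have h := hgood.const_mul (1 / (Module.finrank K E : ℝ))
  rw [mul_one] at h
  refine h.congr fun s hs _ ↦ ?_
  rw [B1_primeIdealZetaSum_good K E (hsum' s hs)]
  show _ = NumberField.Set.primeIdealZetaSum (B1_spl K E) s
  field_simp

end B

end Fermat.Agent.Cheb
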