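import Mathlib
import Fermat.Agent.Cheb.Defs
import Fermat.Agent.Cheb.LogAsymp
import Fermat.Agent.Cheb.EulerProduct
import Fermat.Agent.Cheb.LogZeta
import Fermat.Agent.Cheb.DegTwo
import Fermat.Agent.Cheb.PrimeZeta
import Fermat.Agent.Cheb.Ramified
import Fermat.Agent.Cheb.Split
import Fermat.Agent.Cheb.CyclicSplit
import Fermat.Agent.Cheb.CyclicCore

/-!
# Pillar CHEB, module D (final): weak Chebotarev for cyclic extensions

Assembly of the landed modules A1 (Euler product), A3 (`log ζ_K`), A4 (degree `≥ 2`),
A5/A6 (prime zeta sum), B1 (completely split primes), C1, C2 and the core of D: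

* `hasLogAsymp_isInert`: the inert primes of degree one of a cyclic extension `L / K` of number
  fields have logarithmic density `φ(n) / n`, `n = [L : K]`;
* `exists_degOne_isInert`: outside any finite set there is an inert prime of degree one.
-/

set_option autoImplicit false
set_option linter.unusedSectionVars false

open NumberField IsDedekindDomain

namespace Fermat.Agent.Cheb

section final

/-- A5, unconditional (local name of module D). -/
theorem D_hasLogAsymp_univ (K : Type*) [Field K] [NumberField K] :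
    HasLogAsymp (NumberField.Set.primeIdealZetaSum
      (Set.univ : Set (HeightOneSpectrum (𝓞 K)))) 1 :=
  hasLogAsymp_primeIdealZetaSum_univ_of K (fun _ hs ↦ hasProd_dedekindZeta K hs)
    (fun _ hs ↦ summable_absNorm_rpow_neg K hs) (hasLogAsymp_log_dedekindZeta K)

/-- A6, unconditional (local name of module D). -/
theorem D_hasLogAsymp_degOne (K : Type*) [Field K] [NumberField K] :
    HasLogAsymp (NumberField.Set.primeIdealZetaSum
      {𝔭 : HeightOneSpectrum (𝓞 K) | IsDegOne K 𝔭}) 1 :=
  hasLogAsymp_primeIdealZetaSum_degOne_of K (fun _ hs ↦ summable_absNorm_rpow_neg K hs)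
    (D_hasLogAsymp_univ K) (primeIdealZetaSum_not_degOne_le K)

/-- B1, unconditional (local name of module D). -/
theorem D_hasLogAsymp_splitsCompletely (K E : Type*) [Field K] [NumberField K] [Field E]
    [NumberField E] [Algebra K E] [IsGalois K E] :
    HasLogAsymp (NumberField.Set.primeIdealZetaSum
      {𝔭 : HeightOneSpectrum (𝓞 K) | IsDegOne K 𝔭 ∧ SplitsCompletely K E 𝔭})
      (1 / (Module.finrank K E : ℝ)) :=
  hasLogAsymp_splitsCompletely_of K E (fun _ hs ↦ summable_absNorm_rpow_neg E hs)
    (D_hasLogAsymp_degOne E)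

variable (K L : Type*) [Field K] [NumberField K] [Field L] [NumberField L] [Algebra K L]
  [IsGalois K L]

/-- Every subgroup of the Galois group of a cyclic extension is normal. -/
theorem D_normal_of_isCyclic [IsCyclic Gal(L/K)] (H : Subgroup Gal(L/K)) : H.Normal := by
  have hcomm : ∀ a b : Gal(L/K), a * b = b * a := by
    obtain ⟨g, hg⟩ := IsCyclic.exists_generator (α := Gal(L/K))
    intro a b
    obtain ⟨m, rfl⟩ := Subgroup.mem_zpowers_iff.1 (hg a)
    obtain ⟨n, rfl⟩ := Subgroup.mem_zpowers_iff.1 (hg b)
    rw [← zpow_add, ← zpow_add, add_comm]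
  exact ⟨fun n hn g => by rw [hcomm g n, mul_assoc, mul_inv_cancel, mul_one]; exact hn⟩

/-- B1 for the fixed field of a subgroup of the Galois group of a cyclic extension. -/
theorem D_hasLogAsymp_splitsCompletely_fixedField [IsCyclic Gal(L/K)] (H : Subgroup Gal(L/K)) :
    HasLogAsymp (NumberField.Set.primeIdealZetaSum
      {𝔭 : HeightOneSpectrum (𝓞 K) | IsDegOne K 𝔭 ∧
        SplitsCompletely K (IntermediateField.fixedField H) 𝔭})
      (1 / (Module.finrank K (IntermediateField.fixedField H) : ℝ)) := by
  have hHn : H.Normal := D_normal_of_isCyclic K L H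
  have hGalM : IsGalois K (IntermediateField.fixedField H) :=
    IsGalois.of_fixedField_normal_subgroup H
  exact D_hasLogAsymp_splitsCompletely K (IntermediateField.fixedField H)

/-- D1 (the inert degree one primes have logarithmic density `φ(n)/n`). -/
theorem hasLogAsymp_isInert [IsCyclic Gal(L/K)] :
    HasLogAsymp (NumberField.Set.primeIdealZetaSum
      {𝔭 : HeightOneSpectrum (𝓞 K) | IsDegOne K 𝔭 ∧ IsInert K L 𝔭})
      ((Nat.totient (Module.finrank K L) : ℝ) / (Module.finrank K L : ℝ)) :=
  D_hasLogAsymp_isInert_of (K := K) (L := L) (fun _ hs ↦ summable_absNorm_rpow_neg K hs)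
    (fun H ↦ D_hasLogAsymp_splitsCompletely_fixedField K L H)
    (fun H 𝔭 hram ↦ splitsCompletely_fixedField_iff K L H 𝔭 hram)
    (finite_ramified K L)

/-- D2 (weak Chebotarev, cyclic case): infinitely many degree one primes are inert. -/
theorem exists_degOne_isInert [IsCyclic Gal(L/K)] (T : Set (HeightOneSpectrum (𝓞 K)))
    (hT : T.Finite) :
    ∃ 𝔭 : HeightOneSpectrum (𝓞 K), 𝔭 ∉ T ∧ IsDegOne K 𝔭 ∧ IsInert K L 𝔭 :=
  D_exists_degOne_isInert_of (K := K) (L := L) (fun _ hs ↦ summable_absNorm_rpow_neg K hs)
    (fun H ↦ D_hasLogAsymp_splitsCompletely_fixedField K L H)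
    (fun H 𝔭 hram ↦ splitsCompletely_fixedField_iff K L H 𝔭 hram)
    (finite_ramified K L) T hT

end final

end Fermat.Agent.Cheb
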