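import Mathlib
import Fermat.Agent.Cheb.Defs

/-!
# Pillar CHEB, module E1: Deuring's reduction

Weak Chebotarev over `ℚ` from the cyclic case: every `τ ∈ Gal(L/ℚ)` has a power `τ ^ k`,
`k` prime to the order of `τ`, which is an arithmetic Frobenius at a prime of `L` over a rational
prime `p ∉ S` unramified in `L`.
-/

set_option autoImplicit false

open NumberField IsDedekindDomain

namespace Fermat.Agent.Cheb

section E1aux

/-- In a finite field all of whose elements satisfy `x ^ N = x` (`2 ≤ N`) there are at most `N`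
elements. -/
theorem E1_card_le_of_forall_pow_eq {k : Type*} [Field k] [Finite k] {N : ℕ} (hN : 2 ≤ N)
    (h : ∀ x : k, x ^ N = x) : Nat.card k ≤ N := by
  classical
  cases nonempty_fintype k
  have hN1 : 1 < N := hN
  have hdeg : (Polynomial.X ^ N - Polynomial.X : Polynomial k).natDegree = N :=
    FiniteField.X_pow_card_sub_X_natDegree_eq k hN1
  have hne : (Polynomial.X ^ N - Polynomial.X : Polynomial k) ≠ 0 :=
    FiniteField.X_pow_card_sub_X_ne_zero k hN1
  have hsub : (Finset.univ : Finset k).val ⊆ (Polynomial.X ^ N - Polynomial.X : Polynomial k).roots := by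
    intro x _
    rw [Polynomial.mem_roots hne, Polynomial.IsRoot.def]
    simp [h x]
  have h1 : (Finset.univ : Finset k).card ≤ (Polynomial.X ^ N - Polynomial.X : Polynomial k).natDegree :=
    Polynomial.card_le_degree_of_subset_roots hsub
  rw [Nat.card_eq_fintype_card, ← Finset.card_univ]
  exact h1.trans hdeg.le

/-- A Frobenius element at `Q` whose `m`-th power is trivial forces the residue field at `Q`
to have at most `q ^ m` elements, `q` the cardinality of the residue field below. -/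
theorem E1_card_quot_le {R S G : Type*} [CommRing R] [CommRing S] [Algebra R S] [Group G]
    [MulSemiringAction G S] [SMulCommClass G R S] {Q : Ideal S} [Q.IsPrime] [Finite (S ⧸ Q)]
    {σ : G} (hσ : IsArithFrobAt R σ Q) {m : ℕ} (hm : 0 < m) (hσm : σ ^ m = 1)
    (hq : 2 ≤ Nat.card (R ⧸ Q.under R)) :
    Nat.card (S ⧸ Q) ≤ Nat.card (R ⧸ Q.under R) ^ m := by
  have hmax : Q.IsMaximal :=
    Ideal.Quotient.maximal_of_isField _ (Finite.isField_of_domain (S ⧸ Q))
  let _ : Field (S ⧸ Q) := Ideal.Quotient.field Q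
  set q := Nat.card (R ⧸ Q.under R) with hqdef
  -- iterate the Frobenius congruence
  have hiter : ∀ (j : ℕ) (y : S),
      Ideal.Quotient.mk Q ((σ ^ j) • y) = (Ideal.Quotient.mk Q y) ^ (q ^ j) := by
    intro j
    induction j with
    | zero => intro y; simp
    | succ j ih =>
      intro y
      have h1 : Ideal.Quotient.mk Q (σ • ((σ ^ j) • y)) =
          (Ideal.Quotient.mk Q ((σ ^ j) • y)) ^ q := by
        have := hσ ((σ ^ j) • y)
        rw [← Ideal.Quotient.eq] at this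
        simpa using this
      rw [pow_succ', mul_smul, h1, ih y, ← pow_mul, pow_succ]
  apply E1_card_le_of_forall_pow_eq
  · calc 2 ≤ q := hq
      _ = q ^ 1 := (pow_one q).symm
      _ ≤ q ^ m := Nat.pow_le_pow_right (by omega) hm
  · intro x
    obtain ⟨y, rfl⟩ := Ideal.Quotient.mk_surjective x
    rw [← hiter m y, hσm, one_smul]

end E1aux

section E
variable (L : Type*) [Field L] [NumberField L] [IsGalois ℚ L]

/-- E1, conditional form: weak Chebotarev over `ℚ` (Deuring's reduction) from the cyclic case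
`hD` (module D: infinitely many inert primes of degree one in a cyclic extension). -/
theorem exists_isArithFrobAt_pow_of
    (hD : ∀ (K : IntermediateField ℚ L) [IsCyclic Gal(L/K)] (T : Set (HeightOneSpectrum (𝓞 K))),
      T.Finite → ∃ 𝔭 : HeightOneSpectrum (𝓞 K), 𝔭 ∉ T ∧ IsDegOne K 𝔭 ∧ IsInert K L 𝔭)
    (τ : Gal(L/ℚ)) (S : Finset ℕ) :
    ∃ (p : ℕ) (𝔓 : Ideal (𝓞 L)) (k : ℕ), p.Prime ∧ p ∉ S ∧ 𝔓.IsPrime ∧ (p : 𝓞 L) ∈ 𝔓 ∧
      (Ideal.span {(p : ℤ)}).ramificationIdxIn (𝓞 L) = 1 ∧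
      Nat.Coprime k (orderOf τ) ∧ IsArithFrobAt ℤ (τ ^ k) 𝔓 := by
  classical
  set H : Subgroup Gal(L/ℚ) := Subgroup.zpowers τ with hH
  set K : IntermediateField ℚ L := IntermediateField.fixedField H with hK
  have hfix : K.fixingSubgroup = H := IntermediateField.fixingSubgroup_fixedField H
  let e : K.fixingSubgroup ≃* Gal(L/K) := IntermediateField.fixingSubgroupEquiv K
  have hcyc : IsCyclic Gal(L/K) := by
    have h1 : IsCyclic K.fixingSubgroup := by
      rw [hfix]; infer_instance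
    exact isCyclic_of_surjective e e.surjective
  let M : ℕ := max (S.sup id) (discr L).natAbs
  let T : Set (HeightOneSpectrum (𝓞 K)) := {𝔭 | Ideal.absNorm 𝔭.asIdeal ≤ M}
  have hT : T.Finite := by
    have h2 : {I : Ideal (𝓞 K) | Ideal.absNorm I ≤ M}.Finite := Ideal.finite_setOfPred_absNorm_le M
    refine Set.Finite.preimage (f := fun 𝔭 : HeightOneSpectrum (𝓞 K) => 𝔭.asIdeal) ?_ h2
    intro a _ b _ hab
    exact HeightOneSpectrum.ext hab
  obtain ⟨𝔭, h𝔭T, h𝔭1, h𝔭e, h𝔭f⟩ := hD K T hT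
  set p : ℕ := Ideal.absNorm 𝔭.asIdeal with hp
  have hpprime : p.Prime := h𝔭1
  have hpM : M < p := not_le.mp h𝔭T
  have hpS : p ∉ S := by
    intro hmem
    have h3 : p ≤ S.sup id := Finset.le_sup (f := id) hmem
    have h4 : S.sup id ≤ M := le_max_left _ _
    omega
  have hpd : ¬ (p : ℤ) ∣ discr L := by
    intro hdvd
    have h0 : discr L ≠ 0 := NumberField.discr_ne_zero L
    have h3 : p ≤ (discr L).natAbs := by
      apply Nat.le_of_dvd (Int.natAbs_pos.mpr h0)
      exact Int.natCast_dvd.mp hdvd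
    have h4 : (discr L).natAbs ≤ M := le_max_right _ _
    omega
  -- a prime of `L` above `𝔭`
  have : 𝔭.asIdeal.IsMaximal := 𝔭.isMaximal
  obtain ⟨⟨𝔓, h𝔓prime, h𝔓over⟩⟩ := (inferInstance : Nonempty (Ideal.primesOver 𝔭.asIdeal (𝓞 L)))
  have := h𝔓prime
  have := h𝔓over
  have hp𝔭 : (p : 𝓞 K) ∈ 𝔭.asIdeal := Ideal.absNorm_mem 𝔭.asIdeal
  have hp𝔓 : (p : 𝓞 L) ∈ 𝔓 := by
    have h5 : algebraMap (𝓞 K) (𝓞 L) (p : 𝓞 K) ∈ 𝔓 := by
      have := h𝔓over.over
      rw [this] at hp𝔭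
      exact hp𝔭
    simpa using h5
  have hp0 : (p : 𝓞 L) ≠ 0 := by
    exact_mod_cast hpprime.ne_zero
  have h𝔓ne : 𝔓 ≠ ⊥ := fun h => hp0 (by simpa [h] using hp𝔓)
  have hfin : Finite (𝓞 L ⧸ 𝔓) := Ideal.finiteQuotientOfFreeOfNeBot 𝔓 h𝔓ne
  have h𝔓max : 𝔓.IsMaximal := Ring.DimensionLEOne.maximalOfPrime h𝔓ne h𝔓prime
  -- the Frobenius in `Gal(L/K)`
  obtain ⟨φ, hφ⟩ := IsArithFrobAt.exists_of_isInvariant (𝓞 K) Gal(L/K) 𝔓
  have hunder : 𝔓.under (𝓞 K) = 𝔭.asIdeal := h𝔓over.over.symm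
  have hcardK : Nat.card (𝓞 K ⧸ 𝔓.under (𝓞 K)) = p := by
    rw [hunder, hp, Ideal.absNorm_apply, Submodule.cardQuot_apply]
  -- cardinality of the residue field of `𝔓`
  have hf : 𝔓.inertiaDeg (𝓞 K) = Module.finrank K L := by
    rw [← h𝔭f]
    exact (Ideal.inertiaDegIn_eq_inertiaDeg 𝔭.asIdeal 𝔓 Gal(L/K)).symm
  have hcardL : Nat.card (𝓞 L ⧸ 𝔓) = p ^ Module.finrank K L := by
    let _ : Field (𝓞 K ⧸ 𝔭.asIdeal) := Ideal.Quotient.field 𝔭.asIdeal
    have h6 := Ideal.inertiaDeg_eq_of_isMaximal 𝔭.asIdeal 𝔓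
    have h7 := Module.natCard_eq_pow_finrank (K := 𝓞 K ⧸ 𝔭.asIdeal) (V := 𝓞 L ⧸ 𝔓)
    rw [h7, ← h6, hf, ← hunder, hcardK]
  -- the order of `φ`
  have hordφ : Module.finrank K L ≤ orderOf φ := by
    have hm : 0 < orderOf φ := orderOf_pos φ
    have h8 := E1_card_quot_le (R := 𝓞 K) hφ hm (pow_orderOf_eq_one φ)
      (by rw [hcardK]; exact hpprime.two_le)
    rw [hcardL, hcardK] at h8
    exact (Nat.pow_le_pow_iff_right hpprime.one_lt).mp h8
  have hfinrank : Module.finrank K L = orderOf τ := by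
    rw [hK, IntermediateField.finrank_fixedField_eq_card, hH, Nat.card_zpowers]
  -- transport `φ` to `Gal(L/ℚ)`
  set τ' : Gal(L/ℚ) := ((e.symm φ : K.fixingSubgroup) : Gal(L/ℚ)) with hτ'
  have hτ'mem : τ' ∈ Subgroup.zpowers τ := by
    have h9 : τ' ∈ K.fixingSubgroup := (e.symm φ).2
    rw [hfix] at h9
    exact h9
  have hordτ' : orderOf τ' = orderOf φ := by
    rw [hτ', Subgroup.orderOf_coe, MulEquiv.orderOf_eq]
  have hτfin : IsOfFinOrder τ := isOfFinOrder_of_finite τ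
  obtain ⟨k, hk⟩ : ∃ k : ℕ, τ ^ k = τ' := by
    rw [← mem_powers_iff_mem_zpowers] at hτ'mem
    exact (Submonoid.mem_powers_iff _ _).mp hτ'mem
  have hcop : Nat.Coprime k (orderOf τ) := by
    have hpos : 0 < orderOf τ := orderOf_pos τ
    have h10 : orderOf (τ ^ k) = orderOf τ / Nat.gcd (orderOf τ) k := orderOf_pow (n := k) τ
    rw [hk, hordτ'] at h10
    have h11 : orderOf τ ≤ orderOf τ / Nat.gcd (orderOf τ) k := by
      rw [← h10, ← hfinrank]; exact hordφ
    have hg : 0 < Nat.gcd (orderOf τ) k := Nat.gcd_pos_of_pos_left k hpos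
    have h12 : Nat.gcd (orderOf τ) k = 1 := by
      by_contra hne
      have h13 : 2 ≤ Nat.gcd (orderOf τ) k := by omega
      have h14 : orderOf τ / Nat.gcd (orderOf τ) k < orderOf τ := Nat.div_lt_self hpos h13
      omega
    rw [Nat.coprime_comm]
    exact h12
  -- `p` is unramified in `L`
  have hpint : Prime (p : ℤ) := Nat.prime_iff_prime_int.mp hpprime
  have hunram : (Ideal.span {(p : ℤ)}).ramificationIdxIn (𝓞 L) = 1 := by
    have h15 := (NumberField.not_dvd_discr_iff_forall_mem L (𝓞 L) hpint).mp hpd 𝔓 h𝔓prime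
      (by simpa using hp𝔓)
    have h16 : 𝔓.LiesOver (Ideal.span {(p : ℤ)}) :=
      (Ideal.liesOver_span_iff h𝔓prime.ne_top hpint).mpr (by simpa using hp𝔓)
    rw [Ideal.ramificationIdxIn_eq_ramificationIdx (Ideal.span {(p : ℤ)}) 𝔓 Gal(L/ℚ)]
    exact Ideal.ramificationIdx_eq_one 𝔓 ℤ
  have h16 : 𝔓.LiesOver (Ideal.span {(p : ℤ)}) :=
    (Ideal.liesOver_span_iff h𝔓prime.ne_top hpint).mpr (by simpa using hp𝔓)
  have hcardZ : Nat.card (ℤ ⧸ 𝔓.under ℤ) = p := by
    rw [← h16.over, ← Submodule.cardQuot_apply, ← Ideal.absNorm_apply,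
      Ideal.absNorm_span_singleton]
    simp
  refine ⟨p, 𝔓, k, hpprime, hpS, h𝔓prime, hp𝔓, hunram, hcop, ?_⟩
  intro x
  have h17 := hφ x
  rw [hcardK] at h17
  rw [hcardZ]
  have h18 : (MulSemiringAction.toAlgHom ℤ (𝓞 L) (τ ^ k)) x =
      (MulSemiringAction.toAlgHom (𝓞 K) (𝓞 L) φ) x := by
    rw [hk]
    apply NumberField.RingOfIntegers.ext
    rfl
  rw [h18]
  exact h17

end E

end Fermat.Agent.Cheb
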