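import Mathlib
import Fermat.Agent.Cheb.Defs
import Fermat.Agent.Cheb.BridgeOf
import Fermat.Agent.Cheb.Deuring
import Fermat.Agent.Cheb.Cyclic

/-!
# Pillar CHEB, module F1 (final): weak Chebotarev for `Gal(ℚ̄/ℚ)`

`exists_isFrobeniusAt_pow`: for every finite Galois subextension `L ⊆ ℚ̄`, every
`τ ∈ Gal(ℚ̄/ℚ)` and every finite set `S` of primes there are a prime `p ∉ S`, a valuation
subring `A` of `ℚ̄` over `p` whose inertia group acts trivially on `L`, a Frobenius element `σ`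
at `A` and an exponent `k` prime to the order of `τ|_L` such that `σ = τ ^ k` on `L`.

Assembly of module F1 (`BridgeOf.lean`), module E1 (`Deuring.lean`) and module D
(`Cyclic.lean`).
-/

set_option autoImplicit false

open NumberField IsDedekindDomain

namespace Fermat.Agent.Cheb

/-- **F1 (weak Chebotarev for `Gal(ℚ̄/ℚ)`).** -/
theorem exists_isFrobeniusAt_pow (L : IntermediateField ℚ (AlgebraicClosure ℚ))
    [FiniteDimensional ℚ L] [IsGalois ℚ L]
    (τ : AlgebraicClosure ℚ ≃ₐ[ℚ] AlgebraicClosure ℚ) (S : Finset ℕ) :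
    ∃ (p : ℕ) (A : ValuationSubring (AlgebraicClosure ℚ))
      (σ : AlgebraicClosure ℚ ≃ₐ[ℚ] AlgebraicClosure ℚ) (k : ℕ),
      p.Prime ∧ p ∉ S ∧ A.LiesOverPrime p ∧ A.IsFrobeniusAt σ p ∧
      (∀ g ∈ A.inertiaSubgroupIn ℚ, ∀ x ∈ L, g x = x) ∧
      Nat.Coprime k (orderOf (AlgEquiv.restrictNormalHom L τ)) ∧
      ∀ x ∈ L, σ x = (τ ^ k) x := by
  have hnf : NumberField L := F1_numberField L
  exact exists_isFrobeniusAt_pow_of L τ S
    (exists_isArithFrobAt_pow_of (↥L)
      (fun K _ T hT => exists_degOne_isInert K (↥L) T hT)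
      (AlgEquiv.restrictNormalHom L τ) S)

end Fermat.Agent.Cheb
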