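import Mathlib

/-!
# Pillar CHEB, module G1: the characteristic polynomial of a power

`charpoly (M ^ k)` is determined by `charpoly M`, over any commutative ring.

Proof: adjoin a primitive `k`-th root of unity `ζ` (the free extension
`R' = R[z] / Φ_k(z)`); over `R'[t]` one has `t^k - M^k = ∏_{j<k} (t - ζ^j M)`, hence
`charpoly (M^k) (t^k) = ∏_j ζ^(j n) charpoly M (ζ^(k-j) t)`.
-/

set_option autoImplicit false

open Polynomial

noncomputable section

namespace Fermat.Agent.Cheb

/-! ### Fin 2 version (Cayley–Hamilton recursion) -/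

theorem G1_trace_pow_fin_two {R : Type*} [CommRing R] {M N : Matrix (Fin 2) (Fin 2) R}
    (ht : M.trace = N.trace) (hd : M.det = N.det) (k : ℕ) :
    (M ^ k).trace = (N ^ k).trace := by
  have hCH : ∀ A : Matrix (Fin 2) (Fin 2) R, A ^ 2 = A.trace • A - A.det • (1 : Matrix _ _ R) := by
    intro A
    ext i j
    fin_cases i <;> fin_cases j <;>
      simp [pow_two, Matrix.mul_apply, Fin.sum_univ_two, Matrix.trace_fin_two,
        Matrix.det_fin_two] <;> ring
  have hrec : ∀ (A : Matrix (Fin 2) (Fin 2) R) (k : ℕ),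
      (A ^ (k + 2)).trace = A.trace * (A ^ (k + 1)).trace - A.det * (A ^ k).trace := by
    intro A k
    have : A ^ (k + 2) = A.trace • A ^ (k + 1) - A.det • A ^ k := by
      rw [pow_add, hCH A, mul_sub, Matrix.mul_smul, Matrix.mul_smul, mul_one, pow_succ]
    rw [this, Matrix.trace_sub, Matrix.trace_smul, Matrix.trace_smul, smul_eq_mul, smul_eq_mul]
  induction k using Nat.strong_induction_on with
  | _ k ih =>
    rcases k with _ | _ | k
    · simp
    · simpa using ht
    · rw [hrec M k, hrec N k, ih (k + 1) (by omega), ih k (by omega), ht, hd]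

/-- G1 for `2 × 2` matrices. -/
theorem charpoly_pow_eq_of_charpoly_eq_fin_two {R : Type*} [CommRing R]
    {M N : Matrix (Fin 2) (Fin 2) R} (h : M.charpoly = N.charpoly) (k : ℕ) :
    (M ^ k).charpoly = (N ^ k).charpoly := by
  rcases subsingleton_or_nontrivial R with hR | hR
  · exact Subsingleton.elim _ _
  have ht : M.trace = N.trace := by
    have h1 := congrArg (fun p => p.coeff 1) h
    simp only [Matrix.charpoly_fin_two] at h1
    simpa [Polynomial.coeff_X, Polynomial.coeff_C] using h1
  have hd : M.det = N.det := by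
    have h0 := congrArg (fun p => p.coeff 0) h
    simp only [Matrix.charpoly_fin_two] at h0
    simpa [Polynomial.coeff_X, Polynomial.coeff_C] using h0
  rw [Matrix.charpoly_fin_two, Matrix.charpoly_fin_two, G1_trace_pow_fin_two ht hd k,
    Matrix.det_pow, Matrix.det_pow, hd]

/-! ### The universal cyclotomic identity -/

section Universal

variable (k : ℕ)

/-- `ℤ[ζ_k] = ℤ[z] / Φ_k(z)`. -/
abbrev G1CycInt : Type := AdjoinRoot (cyclotomic k ℤ)

theorem G1_isDomain_cycInt (hk : 0 < k) : IsDomain (G1CycInt k) :=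
  AdjoinRoot.isDomain_of_prime (cyclotomic.irreducible hk).prime

theorem G1_of_injective_cycInt (hk : 0 < k) :
    Function.Injective (AdjoinRoot.of (cyclotomic k ℤ)) := by
  apply AdjoinRoot.of.injective_of_degree_ne_zero
  rw [degree_cyclotomic]
  exact_mod_cast (Nat.totient_pos.mpr hk).ne'

theorem G1_isPrimitiveRoot_root (hk : 0 < k) :
    IsPrimitiveRoot (AdjoinRoot.root (cyclotomic k ℤ)) k := by
  have := G1_isDomain_cycInt k hk
  have hinj := G1_of_injective_cycInt k hk
  have : NeZero ((k : ℕ) : G1CycInt k) := by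
    refine ⟨fun h0 => ?_⟩
    have : AdjoinRoot.of (cyclotomic k ℤ) (k : ℤ) = 0 := by
      rw [map_natCast]; exact h0
    have := hinj (this.trans (map_zero _).symm)
    exact hk.ne' (by exact_mod_cast this)
  rw [← isRoot_cyclotomic_iff, ← map_cyclotomic_int k (G1CycInt k), IsRoot.def, eval_map]
  have h2 : Int.castRingHom (G1CycInt k) = AdjoinRoot.of (cyclotomic k ℤ) :=
    RingHom.ext_int _ _
  rw [h2]
  exact AdjoinRoot.eval₂_root _

/-- The universal identity `x^k - y^k = ∏_{j<k} (x - ζ^j y)` in any commutative ring receiving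
`ℤ[ζ_k]`. -/
theorem G1_pow_sub_pow_eq_prod (hk : 0 < k) {C : Type*} [CommRing C]
    (f : G1CycInt k →+* C) (x y : C) :
    x ^ k - y ^ k =
      ∏ j ∈ Finset.range k, (x - f (AdjoinRoot.root (cyclotomic k ℤ)) ^ j * y) := by
  classical
  have := G1_isDomain_cycInt k hk
  have hζ := G1_isPrimitiveRoot_root k hk
  set ζ₀ := AdjoinRoot.root (cyclotomic k ℤ) with hζ₀
  -- the identity in the domain `ℤ[ζ][X,Y]`
  let D := MvPolynomial (Fin 2) (G1CycInt k)
  have hζ' : IsPrimitiveRoot (MvPolynomial.C ζ₀ : D) k :=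
    hζ.map_of_injective (MvPolynomial.C_injective (Fin 2) (G1CycInt k))
  have huniv : (MvPolynomial.X 0 : D) ^ k - (MvPolynomial.X 1) ^ k =
      ∏ j ∈ Finset.range k, (MvPolynomial.X 0 - (MvPolynomial.C ζ₀) ^ j * MvPolynomial.X 1) := by
    rw [hζ'.pow_sub_pow_eq_prod_sub_mul _ _ hk]
    have hroots : nthRootsFinset k (1 : D) =
        (Finset.range k).image (fun j => (MvPolynomial.C ζ₀ : D) ^ j) := by
      have h1 := hζ'.nthRoots_eq (α := (1 : D)) (a := 1) (one_pow k)
      simp only [mul_one] at h1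
      ext μ
      rw [Polynomial.mem_nthRootsFinset hk, Finset.mem_image]
      constructor
      · intro hμ
        have : μ ∈ nthRoots k (1 : D) := (Polynomial.mem_nthRoots hk).mpr hμ
        rw [h1, Multiset.mem_map] at this
        obtain ⟨j, hj, rfl⟩ := this
        exact ⟨j, Finset.mem_range.mpr (Multiset.mem_range.mp hj), rfl⟩
      · rintro ⟨j, -, rfl⟩
        rw [← pow_mul, mul_comm, pow_mul, hζ'.pow_eq_one, one_pow]
    rw [hroots, Finset.prod_image]
    intro i hi j hj hij
    exact hζ'.pow_inj (Finset.mem_range.mp hi) (Finset.mem_range.mp hj) hij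
  -- specialise
  let ev : D →+* C := MvPolynomial.eval₂Hom f (fun i : Fin 2 => if i = 0 then x else y)
  have e0 : ev (MvPolynomial.X 0) = x :=
    (MvPolynomial.eval₂Hom_X' f _ 0).trans (if_pos rfl)
  have e1 : ev (MvPolynomial.X 1) = y :=
    (MvPolynomial.eval₂Hom_X' f _ 1).trans (if_neg (by decide))
  have eC : ev (MvPolynomial.C ζ₀) = f ζ₀ := MvPolynomial.eval₂Hom_C f _ ζ₀
  have := congrArg ev huniv
  rw [map_sub, map_pow, map_pow, map_prod, e0, e1] at this
  rw [this]
  refine Finset.prod_congr rfl fun j _ => ?_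
  rw [map_sub, map_mul, map_pow, e0, e1, eC]

end Universal

/-! ### Adjoining a root of unity to an arbitrary ring -/

section Adjoin

variable (R : Type*) [CommRing R] (k : ℕ)

/-- `R[ζ_k] = R[z] / Φ_k(z)`. -/
abbrev G1Cyc : Type _ := AdjoinRoot (cyclotomic k R)

theorem G1_of_injective (hk : 0 < k) : Function.Injective (AdjoinRoot.of (cyclotomic k R)) := by
  rcases subsingleton_or_nontrivial R with hR | hR
  · exact Function.injective_of_subsingleton _
  rw [injective_iff_map_eq_zero]
  intro r hr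
  rw [← AdjoinRoot.mk_C, AdjoinRoot.mk_eq_zero] at hr
  by_contra hne
  have hmonic := cyclotomic.monic k R
  have hdeg : (C r : R[X]).natDegree < (cyclotomic k R).natDegree := by
    rw [natDegree_C, natDegree_cyclotomic]
    exact Nat.totient_pos.mpr hk
  exact hmonic.not_dvd_of_natDegree_lt (C_ne_zero.mpr hne) hdeg hr

/-- The canonical map `ℤ[ζ_k] → R[ζ_k]`. -/
def G1cycMap : G1CycInt k →+* G1Cyc R k :=
  AdjoinRoot.lift (Int.castRingHom (G1Cyc R k)) (AdjoinRoot.root (cyclotomic k R)) (by
    rw [← eval_map, map_cyclotomic_int, ← map_cyclotomic k (AdjoinRoot.of (cyclotomic k R)),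
      eval_map]
    exact AdjoinRoot.eval₂_root _)

theorem G1cycMap_root :
    G1cycMap R k (AdjoinRoot.root (cyclotomic k ℤ)) = AdjoinRoot.root (cyclotomic k R) := by
  simp [G1cycMap]

theorem G1_root_pow_eq_one (hk : 0 < k) : (AdjoinRoot.root (cyclotomic k R)) ^ k = 1 := by
  rw [← G1cycMap_root, ← map_pow, (G1_isPrimitiveRoot_root k hk).pow_eq_one, map_one]

end Adjoin

/-! ### The main theorem -/

section Main

variable {n : Type*} [Fintype n] [DecidableEq n]

theorem G1_det_scalar_sub_smul {C : Type*} [CommRing C] (A : Matrix n n C) (s c c' : C)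
    (hc : c * c' = 1) :
    (Matrix.scalar n s - c • A).det = c ^ Fintype.card n * (A.charpoly).eval (c' * s) := by
  rw [Matrix.eval_charpoly, ← Matrix.det_smul]
  congr 1
  rw [smul_sub]
  congr 1
  ext i j
  by_cases hij : i = j
  · subst hij
    simp only [Matrix.scalar_apply, Matrix.diagonal_apply_eq, Matrix.smul_apply, smul_eq_mul]
    rw [← mul_assoc, hc, one_mul]
  · simp [Matrix.scalar_apply, Matrix.diagonal_apply_ne _ hij]

/-- Key identity: over `C` containing a `k`-th root of unity `ζ = f (root)`,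
`det (t^k - A^k) = ∏_{j<k} ζ^(j n) · charpoly A (ζ^((k-1) j) t)`. -/
theorem G1_det_pow_sub_pow (k : ℕ) (hk : 0 < k) {C : Type*} [CommRing C]
    (f : G1CycInt k →+* C) (A : Matrix n n C) (t : C) :
    (Matrix.scalar n (t ^ k) - A ^ k).det =
      ∏ j ∈ Finset.range k,
        ((f (AdjoinRoot.root (cyclotomic k ℤ)) ^ j) ^ Fintype.card n *
          (A.charpoly).eval ((f (AdjoinRoot.root (cyclotomic k ℤ)) ^ ((k - 1) * j)) * t)) := by
  set ζ : C := f (AdjoinRoot.root (cyclotomic k ℤ)) with hζ
  have hζk : ζ ^ k = 1 := by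
    rw [hζ, ← map_pow, (G1_isPrimitiveRoot_root k hk).pow_eq_one, map_one]
  -- the identity in `C[Y]`
  have hid := G1_pow_sub_pow_eq_prod k hk ((Polynomial.C : C →+* C[X]).comp f)
    (Polynomial.C t) (Polynomial.X)
  -- the multiplicative map `C[Y] → C`, `p ↦ det (p(A))`
  let φ : C[X] →* C :=
    (Matrix.detMonoidHom (n := n) (R := C)).comp
      ((Polynomial.aeval A : C[X] →ₐ[C] Matrix n n C) : C[X] →* Matrix n n C)
  have hφ : ∀ p : C[X], φ p = (Polynomial.aeval A p).det := fun p => rfl
  have hscal : ∀ c : C, Polynomial.aeval A (Polynomial.C c : C[X]) = Matrix.scalar n c := by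
    intro c
    rw [Polynomial.aeval_C]
    rfl
  have h1 : φ (Polynomial.C t ^ k - Polynomial.X ^ k) = (Matrix.scalar n (t ^ k) - A ^ k).det := by
    rw [hφ, map_sub, map_pow, map_pow, Polynomial.aeval_X, hscal, ← map_pow]
  rw [← h1, hid, map_prod]
  refine Finset.prod_congr rfl fun j _ => ?_
  have h2 : Polynomial.aeval A
      (Polynomial.C t - ((Polynomial.C : C →+* C[X]).comp f) (AdjoinRoot.root (cyclotomic k ℤ)) ^ j *
        Polynomial.X) = Matrix.scalar n t - (ζ ^ j) • A := by
    rw [map_sub, map_mul, map_pow, Polynomial.aeval_X, RingHom.comp_apply, hscal, hscal,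
      ← map_pow]
    congr 1
    ext a b
    simp [Matrix.scalar_apply, Matrix.mul_apply, Matrix.diagonal_apply, Finset.sum_ite_eq, hζ]
  rw [hφ, h2]
  refine G1_det_scalar_sub_smul A t (ζ ^ j) (ζ ^ ((k - 1) * j)) ?_
  rw [← pow_add]
  have : j + (k - 1) * j = k * j := by
    have : k = (k - 1) + 1 := by omega
    conv_rhs => rw [this]
    ring
  rw [this, pow_mul, hζk, one_pow]

/-- **G1**: the characteristic polynomial of a power is determined by the characteristic
polynomial, over any commutative ring. -/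
theorem charpoly_pow_eq_of_charpoly_eq {R : Type*} [CommRing R] {n : Type*} [Fintype n]
    [DecidableEq n] {M N : Matrix n n R} (h : M.charpoly = N.charpoly) (k : ℕ) :
    (M ^ k).charpoly = (N ^ k).charpoly := by
  rcases Nat.eq_zero_or_pos k with hk | hk
  · subst hk; simp
  -- the extension `R → R' = R[ζ] → C = R'[t]`
  set ι₀ : R →+* G1Cyc R k := AdjoinRoot.of (cyclotomic k R) with hι₀
  have hι₀inj : Function.Injective ι₀ := G1_of_injective R k hk
  set ι : R →+* (G1Cyc R k)[X] := (Polynomial.C : G1Cyc R k →+* (G1Cyc R k)[X]).comp ι₀ with hι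
  set f : G1CycInt k →+* (G1Cyc R k)[X] :=
    (Polynomial.C : G1Cyc R k →+* (G1Cyc R k)[X]).comp (G1cycMap R k) with hf
  have key : ∀ A : Matrix n n R,
      (A ^ k).charpoly.eval₂ ι (Polynomial.X ^ k) =
        ∏ j ∈ Finset.range k,
          ((f (AdjoinRoot.root (cyclotomic k ℤ)) ^ j) ^ Fintype.card n *
            (A.charpoly.map ι).eval
              ((f (AdjoinRoot.root (cyclotomic k ℤ)) ^ ((k - 1) * j)) * Polynomial.X)) := by
    intro A
    have := G1_det_pow_sub_pow k hk f (A.map ι) (Polynomial.X : (G1Cyc R k)[X])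
    rw [Matrix.charpoly_map] at this
    rw [← this, ← Matrix.eval_charpoly, ← Matrix.map_pow, Matrix.charpoly_map,
      Polynomial.eval_map]
  have hMN : (M ^ k).charpoly.eval₂ ι (Polynomial.X ^ k) =
      (N ^ k).charpoly.eval₂ ι (Polynomial.X ^ k) := by
    rw [key M, key N, h]
  have hexp : ∀ p : R[X], p.eval₂ ι (Polynomial.X ^ k) =
      Polynomial.expand (G1Cyc R k) k (p.map ι₀) := by
    intro p
    rw [Polynomial.expand_eq_comp_X_pow, Polynomial.comp, hι, Polynomial.eval₂_map]
  rw [hexp, hexp] at hMN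
  exact Polynomial.map_injective ι₀ hι₀inj (Polynomial.expand_injective hk hMN)

end Main

end Fermat.Agent.Cheb
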