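import Mathlib
import Fermat.Agent.Cheb.Defs
import Fermat.Agent.Cheb.CharpolyPow
import Fermat.Prelude.Def_EllipticCurve_FrobeniusTrace

/-!
# Pillar CHEB, module G2: the comparison principle

Two representations of `Gal(ℚ̄/ℚ)` factoring through a finite Galois extension `L/ℚ`, with the
same characteristic polynomials at the Frobenius elements of the primes `p ∉ S`, have the same
characteristic polynomials everywhere.

The weak Chebotarev theorem F1 for `L` is taken as an explicit hypothesis (`WeakChebotarevAt L`)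
in the `_of` versions, so that this file does not depend on the analytic modules.
-/

set_option autoImplicit false

open NumberField IsDedekindDomain

namespace Fermat.Agent.Cheb

section G2

local notation "Γℚ" => (AlgebraicClosure ℚ ≃ₐ[ℚ] AlgebraicClosure ℚ)

/-- The statement of module F1 (weak Chebotarev for `Gal(ℚ̄/ℚ)`) for one finite Galois
extension `L ⊆ ℚ̄`. -/
def WeakChebotarevAt (L : IntermediateField ℚ (AlgebraicClosure ℚ))
    [FiniteDimensional ℚ L] [IsGalois ℚ L] : Prop :=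
  ∀ (τ : Γℚ) (S : Finset ℕ),
    ∃ (p : ℕ) (A : ValuationSubring (AlgebraicClosure ℚ)) (σ : Γℚ) (k : ℕ),
      p.Prime ∧ p ∉ S ∧ A.LiesOverPrime p ∧ A.IsFrobeniusAt σ p ∧
      (∀ g ∈ A.inertiaSubgroupIn ℚ, ∀ x ∈ L, g x = x) ∧
      Nat.Coprime k (orderOf (AlgEquiv.restrictNormalHom L τ)) ∧
      ∀ x ∈ L, σ x = (τ ^ k) x

variable (L : IntermediateField ℚ (AlgebraicClosure ℚ)) [IsGalois ℚ L]

/-- An element of `Gal(ℚ̄/ℚ)` restricting to the identity of `L` fixes `L` pointwise. -/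
theorem G2_fixes_of_restrictNormalHom_eq_one (g : Γℚ)
    (hg : AlgEquiv.restrictNormalHom L g = 1) : ∀ x ∈ L, g x = x := by
  intro x hx
  have h2 := AlgEquiv.restrictNormal_commutes g L (⟨x, hx⟩ : L)
  have h3 : (g.restrictNormal L) (⟨x, hx⟩ : L) = ⟨x, hx⟩ := by
    have : (AlgEquiv.restrictNormalHom L g) (⟨x, hx⟩ : L) = ⟨x, hx⟩ := by rw [hg]; rfl
    exact this
  rw [h3] at h2
  exact h2.symm

/-- Elements agreeing on `L` have the same restriction. -/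
theorem G2_restrictNormalHom_eq_of_agree (σ τ : Γℚ) (h : ∀ x ∈ L, σ x = τ x) :
    AlgEquiv.restrictNormalHom L σ = AlgEquiv.restrictNormalHom L τ := by
  apply AlgEquiv.ext
  intro x
  apply Subtype.ext
  have h2 := AlgEquiv.restrictNormal_commutes σ L x
  have h3 := AlgEquiv.restrictNormal_commutes τ L x
  have h4 : algebraMap L (AlgebraicClosure ℚ) ((σ.restrictNormal L) x) =
      algebraMap L (AlgebraicClosure ℚ) ((τ.restrictNormal L) x) := by
    rw [h2, h3]; exact h x x.2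
  exact h4

variable [FiniteDimensional ℚ L]

/-- Core of G2: every `τ` is, modulo the subgroup fixing `L`, a power of a Frobenius element
at a prime `p ∉ S`. -/
theorem G2_exists_frobenius_pow (hF1 : WeakChebotarevAt L) (τ : Γℚ) (S : Finset ℕ) :
    ∃ (p : ℕ) (A : ValuationSubring (AlgebraicClosure ℚ)) (σ : Γℚ) (k' : ℕ),
      p.Prime ∧ p ∉ S ∧ A.LiesOverPrime p ∧ A.IsFrobeniusAt σ p ∧
      ∀ x ∈ L, (τ⁻¹ * σ ^ k') x = x := by
  obtain ⟨p, A, σ, k, hp, hpS, hA, hfr, -, hk, hσ⟩ := hF1 τ S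
  set τL := AlgEquiv.restrictNormalHom L τ with hτL
  set m := orderOf τL with hm
  have hmpos : 0 < m := orderOf_pos τL
  -- `k'` with `k k' ≡ 1 mod m`
  obtain ⟨k', hk'⟩ : ∃ k' : ℕ, k * k' ≡ 1 [MOD m] := by
    rcases Nat.lt_or_ge 1 m with h1 | h1
    · obtain ⟨k', -, hk'⟩ := Nat.exists_mul_mod_eq_one_of_coprime hk h1
      refine ⟨k', ?_⟩
      rw [Nat.ModEq, hk', Nat.mod_eq_of_lt h1]
    · have : m = 1 := by omega
      exact ⟨0, by rw [this]; exact Nat.modEq_one⟩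
  refine ⟨p, A, σ, k', hp, hpS, hA, hfr, ?_⟩
  apply G2_fixes_of_restrictNormalHom_eq_one L
  have hσL : AlgEquiv.restrictNormalHom L σ = τL ^ k := by
    rw [hτL, ← map_pow]
    exact G2_restrictNormalHom_eq_of_agree L σ (τ ^ k) hσ
  rw [map_mul, map_inv, map_pow, hσL, ← pow_mul]
  have : τL ^ (k * k') = τL ^ 1 := (pow_eq_pow_iff_modEq).mpr hk'
  rw [this, pow_one, inv_mul_cancel]

variable {R : Type*} [CommRing R] {n : Type*} [Fintype n] [DecidableEq n]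

/-- **G2**, with the weak Chebotarev theorem for `L` as a hypothesis. -/
theorem charpoly_eq_of_forall_isFrobeniusAt_of (hF1 : WeakChebotarevAt L)
    (ρ₁ ρ₂ : Γℚ →* Matrix n n R)
    (h₁ : ∀ g : Γℚ, (∀ x ∈ L, g x = x) → ρ₁ g = 1)
    (h₂ : ∀ g : Γℚ, (∀ x ∈ L, g x = x) → ρ₂ g = 1)
    (S : Finset ℕ)
    (hfrob : ∀ (p : ℕ) (A : ValuationSubring (AlgebraicClosure ℚ)) (σ : Γℚ),
      p.Prime → p ∉ S → A.LiesOverPrime p → A.IsFrobeniusAt σ p →
      (ρ₁ σ).charpoly = (ρ₂ σ).charpoly)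
    (τ : Γℚ) : (ρ₁ τ).charpoly = (ρ₂ τ).charpoly := by
  obtain ⟨p, A, σ, k', hp, hpS, hA, hfr, hfix⟩ := G2_exists_frobenius_pow L hF1 τ S
  have key : ∀ ρ : Γℚ →* Matrix n n R, (∀ g : Γℚ, (∀ x ∈ L, g x = x) → ρ g = 1) →
      ρ τ = ρ σ ^ k' := by
    intro ρ hρ
    have h1 := hρ _ hfix
    have h2 : ρ τ * ρ (τ⁻¹ * σ ^ k') = ρ σ ^ k' := by
      rw [← map_mul, mul_inv_cancel_left, map_pow]
    rw [h1, mul_one] at h2
    exact h2
  rw [key ρ₁ h₁, key ρ₂ h₂]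
  exact charpoly_pow_eq_of_charpoly_eq (hfrob p A σ hp hpS hA hfr) k'

/-- Trace/determinant corollary of G2. -/
theorem trace_det_eq_of_forall_isFrobeniusAt_of (hF1 : WeakChebotarevAt L)
    (ρ₁ ρ₂ : Γℚ →* Matrix n n R)
    (h₁ : ∀ g : Γℚ, (∀ x ∈ L, g x = x) → ρ₁ g = 1)
    (h₂ : ∀ g : Γℚ, (∀ x ∈ L, g x = x) → ρ₂ g = 1)
    (S : Finset ℕ)
    (hfrob : ∀ (p : ℕ) (A : ValuationSubring (AlgebraicClosure ℚ)) (σ : Γℚ),
      p.Prime → p ∉ S → A.LiesOverPrime p → A.IsFrobeniusAt σ p →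
      (ρ₁ σ).charpoly = (ρ₂ σ).charpoly)
    (τ : Γℚ) : (ρ₁ τ).trace = (ρ₂ τ).trace ∧ (ρ₁ τ).det = (ρ₂ τ).det := by
  have h := charpoly_eq_of_forall_isFrobeniusAt_of L hF1 ρ₁ ρ₂ h₁ h₂ S hfrob τ
  constructor
  · rcases isEmpty_or_nonempty n with hn | hn
    · simp [Matrix.trace]
    rcases subsingleton_or_nontrivial R with hR | hR
    · exact Subsingleton.elim _ _
    have h1 := Matrix.trace_eq_neg_charpoly_coeff (ρ₁ τ)
    have h2 := Matrix.trace_eq_neg_charpoly_coeff (ρ₂ τ)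
    rw [h1, h2, h]
  · have h1 := Matrix.det_eq_sign_charpoly_coeff (ρ₁ τ)
    have h2 := Matrix.det_eq_sign_charpoly_coeff (ρ₂ τ)
    rw [h1, h2, h]

/-- Version of G2 for traces and determinants of `2 × 2` representations, with the hypothesis
at Frobenius elements stated for traces and determinants. -/
theorem trace_det_eq_of_forall_isFrobeniusAt_fin_two_of (hF1 : WeakChebotarevAt L)
    (ρ₁ ρ₂ : Γℚ →* Matrix (Fin 2) (Fin 2) R)
    (h₁ : ∀ g : Γℚ, (∀ x ∈ L, g x = x) → ρ₁ g = 1)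
    (h₂ : ∀ g : Γℚ, (∀ x ∈ L, g x = x) → ρ₂ g = 1)
    (S : Finset ℕ)
    (hfrob : ∀ (p : ℕ) (A : ValuationSubring (AlgebraicClosure ℚ)) (σ : Γℚ),
      p.Prime → p ∉ S → A.LiesOverPrime p → A.IsFrobeniusAt σ p →
      (ρ₁ σ).trace = (ρ₂ σ).trace ∧ (ρ₁ σ).det = (ρ₂ σ).det)
    (τ : Γℚ) : (ρ₁ τ).trace = (ρ₂ τ).trace ∧ (ρ₁ τ).det = (ρ₂ τ).det := by
  rcases subsingleton_or_nontrivial R with hR | hR
  · exact ⟨Subsingleton.elim _ _, Subsingleton.elim _ _⟩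
  refine trace_det_eq_of_forall_isFrobeniusAt_of L hF1 ρ₁ ρ₂ h₁ h₂ S ?_ τ
  intro p A σ hp hpS hA hfr
  obtain ⟨ht, hd⟩ := hfrob p A σ hp hpS hA hfr
  rw [Matrix.charpoly_fin_two, Matrix.charpoly_fin_two, ht, hd]

end G2

end Fermat.Agent.Cheb
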