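import Mathlib
import Fermat.Prelude.Def_EllipticCurve_FrobeniusTrace

/-!
# P-CHEB, consumer form: weak Chebotarev in the cyclic form

`weakForm_of`: from F1 (`exists_isFrobeniusAt_pow`, stated for finite Galois `L/ℚ` inside `ℚ̄`)
we derive the form requested by P-GALREP: for every finite-dimensional intermediate field `L`
(not necessarily Galois), every `g ∈ Gal(ℚ̄/ℚ)` and every finite set `S` of primes, `g` acts on
`L` as a power of a Frobenius element at a prime `ℓ ∉ S`.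
-/

set_option autoImplicit false

namespace Fermat.Agent.Cheb

/-- The statement of F1 as a proposition (so that consumers can take it as a hypothesis). -/
def WeakFormInput : Prop :=
  ∀ (L : IntermediateField ℚ (AlgebraicClosure ℚ)) [FiniteDimensional ℚ L] [IsGalois ℚ L]
    (τ : AlgebraicClosure ℚ ≃ₐ[ℚ] AlgebraicClosure ℚ) (S : Finset ℕ),
    ∃ (p : ℕ) (A : ValuationSubring (AlgebraicClosure ℚ))
      (σ : AlgebraicClosure ℚ ≃ₐ[ℚ] AlgebraicClosure ℚ) (k : ℕ),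
      p.Prime ∧ p ∉ S ∧ A.LiesOverPrime p ∧ A.IsFrobeniusAt σ p ∧
      (∀ g ∈ A.inertiaSubgroupIn ℚ, ∀ x ∈ L, g x = x) ∧
      Nat.Coprime k (orderOf (AlgEquiv.restrictNormalHom L τ)) ∧
      ∀ x ∈ L, σ x = (τ ^ k) x

/-- Powers of an automorphism of `ℚ̄` preserve a normal intermediate field. -/
theorem WF_pow_mem (L : IntermediateField ℚ (AlgebraicClosure ℚ)) [Normal ℚ L]
    (τ : AlgebraicClosure ℚ ≃ₐ[ℚ] AlgebraicClosure ℚ) (n : ℕ) {x : AlgebraicClosure ℚ}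
    (hx : x ∈ L) : (τ ^ n) x ∈ L := by
  have h : (((τ ^ n).restrictNormal L ⟨x, hx⟩ : L) : AlgebraicClosure ℚ) = (τ ^ n) x :=
    AlgEquiv.restrictNormal_commutes (τ ^ n) L ⟨x, hx⟩
  rw [← h]
  exact ((τ ^ n).restrictNormal L ⟨x, hx⟩).2

/-- If `σ = τ ^ k` on a normal intermediate field `L`, then `σ ^ m = τ ^ (k * m)` on `L`. -/
theorem WF_pow_eq (L : IntermediateField ℚ (AlgebraicClosure ℚ)) [Normal ℚ L]
    (σ τ : AlgebraicClosure ℚ ≃ₐ[ℚ] AlgebraicClosure ℚ) (k : ℕ)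
    (h : ∀ x ∈ L, σ x = (τ ^ k) x) (m : ℕ) :
    ∀ x ∈ L, (σ ^ m) x = (τ ^ (k * m)) x := by
  induction m with
  | zero => intro x _; simp
  | succ m ih =>
    intro x hx
    rw [pow_succ, AlgEquiv.mul_apply, h x hx, ih _ (WF_pow_mem L τ k hx), Nat.mul_succ,
      pow_add, AlgEquiv.mul_apply]

/-- If `τ ^ a` and `τ ^ b` have the same restriction to `L` (as group elements), they agree
pointwise on `L`. -/
theorem WF_apply_eq_of_restrict_eq (L : IntermediateField ℚ (AlgebraicClosure ℚ)) [Normal ℚ L]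
    (g h : AlgebraicClosure ℚ ≃ₐ[ℚ] AlgebraicClosure ℚ)
    (e : AlgEquiv.restrictNormalHom L g = AlgEquiv.restrictNormalHom L h)
    {x : AlgebraicClosure ℚ} (hx : x ∈ L) : g x = h x := by
  have h1 : ((g.restrictNormal L ⟨x, hx⟩ : L) : AlgebraicClosure ℚ) = g x :=
    AlgEquiv.restrictNormal_commutes g L ⟨x, hx⟩
  have h2 : ((h.restrictNormal L ⟨x, hx⟩ : L) : AlgebraicClosure ℚ) = h x :=
    AlgEquiv.restrictNormal_commutes h L ⟨x, hx⟩
  have e' : g.restrictNormal L = h.restrictNormal L := e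
  rw [← h1, ← h2, e']

/-- **Weak Chebotarev, cyclic form** (from F1). -/
theorem weakForm_of (hF : WeakFormInput) :
    ∀ (L : IntermediateField ℚ (AlgebraicClosure ℚ)), FiniteDimensional ℚ L →
      ∀ (g : AlgebraicClosure ℚ ≃ₐ[ℚ] AlgebraicClosure ℚ) (S : Finset ℕ),
        ∃ (ℓ : ℕ) (_ : ℓ.Prime) (_ : ℓ ∉ S) (A : ValuationSubring (AlgebraicClosure ℚ))
          (_ : A.LiesOverPrime ℓ) (f : AlgebraicClosure ℚ ≃ₐ[ℚ] AlgebraicClosure ℚ)
          (_ : A.IsFrobeniusAt f ℓ) (n : ℕ),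
          ∀ x ∈ L, g x = (f ^ n) x := by
  intro L hL g S
  have : FiniteDimensional ℚ L := hL
  have : Algebra.IsAlgebraic ℚ (AlgebraicClosure ℚ) := AlgebraicClosure.isAlgebraic ℚ
  have : IsAlgClosure ℚ (AlgebraicClosure ℚ) := ⟨inferInstance, inferInstance⟩
  have : Normal ℚ (AlgebraicClosure ℚ) := IsAlgClosure.normal ℚ (AlgebraicClosure ℚ)
  set L' : IntermediateField ℚ (AlgebraicClosure ℚ) :=
    IntermediateField.normalClosure ℚ L (AlgebraicClosure ℚ) with hL'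
  have : FiniteDimensional ℚ L' := normalClosure.is_finiteDimensional ℚ L (AlgebraicClosure ℚ)
  have : Normal ℚ L' := normalClosure.normal ℚ L (AlgebraicClosure ℚ)
  have : IsGalois ℚ L' := ⟨⟩
  have hLL' : L ≤ L' := IntermediateField.le_normalClosure L
  obtain ⟨p, A, σ, k, hp, hpS, hA, hσ, -, hk, hσk⟩ := hF L' g S
  set r := AlgEquiv.restrictNormalHom L' g with hr
  -- choose `m` with `k * m ≡ 1 mod orderOf r`
  have hord : 0 < orderOf r := orderOf_pos r
  obtain ⟨m, hm⟩ : ∃ m : ℕ, k * m ≡ 1 [MOD orderOf r] := by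
    by_cases h1 : orderOf r = 1
    · exact ⟨0, by rw [h1]; exact Nat.modEq_one⟩
    · have hlt : 1 < orderOf r := lt_of_le_of_ne hord (Ne.symm h1)
      obtain ⟨m, -, hm⟩ := Nat.exists_mul_mod_eq_one_of_coprime hk hlt
      exact ⟨m, by rw [Nat.ModEq, hm, Nat.mod_eq_of_lt hlt]⟩
  refine ⟨p, hp, hpS, A, hA, σ, hσ, m, fun x hx ↦ ?_⟩
  have hx' : x ∈ L' := hLL' hx
  rw [WF_pow_eq L' σ g k hσk m x hx']
  apply WF_apply_eq_of_restrict_eq L' _ _ _ hx'
  rw [map_pow, ← hr]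
  have : r ^ (k * m) = r ^ 1 := (pow_eq_pow_iff_modEq).2 hm
  rw [this, pow_one]

end Fermat.Agent.Cheb
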