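import Mathlib
import Fermat.Agent.Cheb.Defs
import Fermat.Agent.Cheb.Cyclic
import Fermat.Agent.Cheb.Deuring
import Fermat.Agent.Cheb.BridgeOf
import Fermat.Agent.Cheb.WeakForm

/-!
# Pillar CHEB: weak Chebotarev, unconditional (final assembly, no consumer imports)

Final assembly of the pillar:

* `WC_exists_isArithFrobAt_pow` (E1): for a finite Galois extension `L / ℚ` of number fields and
  `τ ∈ Gal(L/ℚ)`, some power `τ ^ k`, `k` prime to the order of `τ`, is an arithmetic Frobenius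
  at a prime of `L` over an unramified rational prime `p ∉ S`;
* `WC_exists_isFrobeniusAt_pow` (F1): the same for `Gal(ℚ̄/ℚ)` and valuation subrings of `ℚ̄`;
* `weakFormInput` : `WeakFormInput`;
* `weakForm` : the cyclic form for arbitrary finite `L ⊆ ℚ̄` (the statement of
  `Fermat.Agent.S29.WeakChebotarev`, see `Fermat.Agent.Cheb.WeakChebotarev`).
-/

set_option autoImplicit false

open NumberField IsDedekindDomain

namespace Fermat.Agent.Cheb

/-- E1 (weak Chebotarev over `ℚ`), unconditional. -/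
theorem WC_exists_isArithFrobAt_pow (L : Type*) [Field L] [NumberField L] [IsGalois ℚ L]
    (τ : Gal(L/ℚ)) (S : Finset ℕ) :
    ∃ (p : ℕ) (𝔓 : Ideal (𝓞 L)) (k : ℕ), p.Prime ∧ p ∉ S ∧ 𝔓.IsPrime ∧ (p : 𝓞 L) ∈ 𝔓 ∧
      (Ideal.span {(p : ℤ)}).ramificationIdxIn (𝓞 L) = 1 ∧
      Nat.Coprime k (orderOf τ) ∧ IsArithFrobAt ℤ (τ ^ k) 𝔓 :=
  exists_isArithFrobAt_pow_of L
    (fun K _ T hT ↦ exists_degOne_isInert (K := K) (L := L) T hT) τ S

/-- F1 (weak Chebotarev for `Gal(ℚ̄/ℚ)`), unconditional. -/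
theorem WC_exists_isFrobeniusAt_pow (L : IntermediateField ℚ (AlgebraicClosure ℚ))
    [FiniteDimensional ℚ L] [IsGalois ℚ L]
    (τ : AlgebraicClosure ℚ ≃ₐ[ℚ] AlgebraicClosure ℚ) (S : Finset ℕ) :
    ∃ (p : ℕ) (A : ValuationSubring (AlgebraicClosure ℚ))
      (σ : AlgebraicClosure ℚ ≃ₐ[ℚ] AlgebraicClosure ℚ) (k : ℕ),
      p.Prime ∧ p ∉ S ∧ A.LiesOverPrime p ∧ A.IsFrobeniusAt σ p ∧
      (∀ g ∈ A.inertiaSubgroupIn ℚ, ∀ x ∈ L, g x = x) ∧
      Nat.Coprime k (orderOf (AlgEquiv.restrictNormalHom L τ)) ∧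
      ∀ x ∈ L, σ x = (τ ^ k) x := by
  have hnf : NumberField L := F1_numberField L
  exact exists_isFrobeniusAt_pow_of L τ S
    (WC_exists_isArithFrobAt_pow L (AlgEquiv.restrictNormalHom L τ) S)

/-- The input of `weakForm_of` holds. -/
theorem weakFormInput : WeakFormInput :=
  fun L _ _ τ S ↦ WC_exists_isFrobeniusAt_pow L τ S

/-- **Weak Chebotarev** (cyclic form): for every finite extension `L` of `ℚ` inside `ℚ̄`, every
`g ∈ Gal(ℚ̄/ℚ)` and every finite set `S` of primes there is a Frobenius element `f` at a prime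
`ℓ ∉ S` such that `g` acts on `L` as a power of `f`. -/
theorem weakForm :
    ∀ (L : IntermediateField ℚ (AlgebraicClosure ℚ)), FiniteDimensional ℚ L →
      ∀ (g : AlgebraicClosure ℚ ≃ₐ[ℚ] AlgebraicClosure ℚ) (S : Finset ℕ),
        ∃ (ℓ : ℕ) (_ : ℓ.Prime) (_ : ℓ ∉ S) (A : ValuationSubring (AlgebraicClosure ℚ))
          (_ : A.LiesOverPrime ℓ) (f : AlgebraicClosure ℚ ≃ₐ[ℚ] AlgebraicClosure ℚ)
          (_ : A.IsFrobeniusAt f ℓ) (n : ℕ),
          ∀ x ∈ L, g x = (f ^ n) x :=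
  weakForm_of weakFormInput

end Fermat.Agent.Cheb
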