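import Mathlib
import Fermat.Agent.Cheb.Final
import Fermat.Agent.S29.Skeleton

/-!
# Pillar CHEB: weak Chebotarev in the form requested by P-GALREP

`weakChebotarev : Fermat.Agent.S29.WeakChebotarev`.  The proof is in `Fermat.Agent.Cheb.Final`
(`weakForm`); this file only restates it with the name of the consumer interface.
-/

set_option autoImplicit false

namespace Fermat.Agent.Cheb

/-- **Weak Chebotarev** (cyclic form, as requested by P-GALREP): for every finite extension `L`
of `ℚ` inside `ℚ̄`, every `g ∈ Gal(ℚ̄/ℚ)` and every finite set `S` of primes there is a Frobenius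
element `f` at a prime `ℓ ∉ S` such that `g` acts on `L` as a power of `f`. -/
theorem weakChebotarev : Fermat.Agent.S29.WeakChebotarev :=
  weakForm

end Fermat.Agent.Cheb
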