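import Mathlib
import Fermat.Agent.Cheb.Compare
import Fermat.Agent.Cheb.WeakChebotarev

/-!
# Pillar CHEB, module G2 (final form): the comparison principle, unconditional

Two representations of `Gal(ℚ̄/ℚ)` factoring through a finite Galois extension `L/ℚ`, with the
same characteristic polynomials at the Frobenius elements of the primes `p ∉ S`, have the same
characteristic polynomials everywhere.  The weak Chebotarev theorem is now a theorem
(`WC_exists_isFrobeniusAt_pow`), so no hypothesis remains.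
-/

set_option autoImplicit false

namespace Fermat.Agent.Cheb

section G2Final

local notation "Γℚ" => (AlgebraicClosure ℚ ≃ₐ[ℚ] AlgebraicClosure ℚ)

variable (L : IntermediateField ℚ (AlgebraicClosure ℚ)) [FiniteDimensional ℚ L] [IsGalois ℚ L]

/-- The weak Chebotarev theorem holds for every finite Galois `L ⊆ ℚ̄`. -/
theorem weakChebotarevAt : WeakChebotarevAt L :=
  fun τ S => WC_exists_isFrobeniusAt_pow L τ S

/-- Every `τ ∈ Gal(ℚ̄/ℚ)` is, modulo the subgroup fixing `L`, a power of a Frobenius element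
at a prime `p ∉ S`. -/
theorem exists_frobenius_pow_mod (τ : Γℚ) (S : Finset ℕ) :
    ∃ (p : ℕ) (A : ValuationSubring (AlgebraicClosure ℚ)) (σ : Γℚ) (k' : ℕ),
      p.Prime ∧ p ∉ S ∧ A.LiesOverPrime p ∧ A.IsFrobeniusAt σ p ∧
      ∀ x ∈ L, (τ⁻¹ * σ ^ k') x = x :=
  G2_exists_frobenius_pow L (weakChebotarevAt L) τ S

variable {R : Type*} [CommRing R] {n : Type*} [Fintype n] [DecidableEq n]

/-- **G2** (comparison principle): two representations of `Gal(ℚ̄/ℚ)` trivial on `Gal(ℚ̄/L)`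
with equal characteristic polynomials at all Frobenius elements outside `S` have equal
characteristic polynomials everywhere. -/
theorem charpoly_eq_of_forall_isFrobeniusAt
    (ρ₁ ρ₂ : Γℚ →* Matrix n n R)
    (h₁ : ∀ g : Γℚ, (∀ x ∈ L, g x = x) → ρ₁ g = 1)
    (h₂ : ∀ g : Γℚ, (∀ x ∈ L, g x = x) → ρ₂ g = 1)
    (S : Finset ℕ)
    (hfrob : ∀ (p : ℕ) (A : ValuationSubring (AlgebraicClosure ℚ)) (σ : Γℚ),
      p.Prime → p ∉ S → A.LiesOverPrime p → A.IsFrobeniusAt σ p →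
      (ρ₁ σ).charpoly = (ρ₂ σ).charpoly)
    (τ : Γℚ) : (ρ₁ τ).charpoly = (ρ₂ τ).charpoly :=
  charpoly_eq_of_forall_isFrobeniusAt_of L (weakChebotarevAt L) ρ₁ ρ₂ h₁ h₂ S hfrob τ

/-- Trace/determinant corollary of G2. -/
theorem trace_det_eq_of_forall_isFrobeniusAt
    (ρ₁ ρ₂ : Γℚ →* Matrix n n R)
    (h₁ : ∀ g : Γℚ, (∀ x ∈ L, g x = x) → ρ₁ g = 1)
    (h₂ : ∀ g : Γℚ, (∀ x ∈ L, g x = x) → ρ₂ g = 1)
    (S : Finset ℕ)
    (hfrob : ∀ (p : ℕ) (A : ValuationSubring (AlgebraicClosure ℚ)) (σ : Γℚ),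
      p.Prime → p ∉ S → A.LiesOverPrime p → A.IsFrobeniusAt σ p →
      (ρ₁ σ).charpoly = (ρ₂ σ).charpoly)
    (τ : Γℚ) : (ρ₁ τ).trace = (ρ₂ τ).trace ∧ (ρ₁ τ).det = (ρ₂ τ).det :=
  trace_det_eq_of_forall_isFrobeniusAt_of L (weakChebotarevAt L) ρ₁ ρ₂ h₁ h₂ S hfrob τ

/-- G2 for `2 × 2` representations, hypothesis and conclusion in terms of trace and
determinant. -/
theorem trace_det_eq_of_forall_isFrobeniusAt_fin_two
    (ρ₁ ρ₂ : Γℚ →* Matrix (Fin 2) (Fin 2) R)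
    (h₁ : ∀ g : Γℚ, (∀ x ∈ L, g x = x) → ρ₁ g = 1)
    (h₂ : ∀ g : Γℚ, (∀ x ∈ L, g x = x) → ρ₂ g = 1)
    (S : Finset ℕ)
    (hfrob : ∀ (p : ℕ) (A : ValuationSubring (AlgebraicClosure ℚ)) (σ : Γℚ),
      p.Prime → p ∉ S → A.LiesOverPrime p → A.IsFrobeniusAt σ p →
      (ρ₁ σ).trace = (ρ₂ σ).trace ∧ (ρ₁ σ).det = (ρ₂ σ).det)
    (τ : Γℚ) : (ρ₁ τ).trace = (ρ₂ τ).trace ∧ (ρ₁ τ).det = (ρ₂ τ).det :=
  trace_det_eq_of_forall_isFrobeniusAt_fin_two_of L (weakChebotarevAt L) ρ₁ ρ₂ h₁ h₂ S hfrob τ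

end G2Final

end Fermat.Agent.Cheb
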