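import Mathlib
import Fermat.Agent.Cheb.EulerProduct

/-!
# General Euler products over the nonzero ideals of a number field

For a completely multiplicative, norm-summable function `f` on the ideals of `𝓞 K` with values in
a complete normed field (e.g. `f I = χ [I] * N(I)^(-s)` for a character `χ` of the class group and
`Re s > 1`), we prove `∑' I, f I = ∏' 𝔭, (1 - f 𝔭)⁻¹`.

* `A1_hasProd_of_multiplicative` : the general Euler product.
* `A1_hasSum_supp_of_multiplicative` : the finite partial Euler products as sums over the ideals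
  supported on a finite set of primes.
-/

set_option autoImplicit false

open NumberField IsDedekindDomain Filter Topology

namespace Fermat.Agent.Cheb

section A1gen

variable (K : Type*) [Field K] [NumberField K]
variable {F : Type*} [NormedField F] [CompleteSpace F]

/-- A completely multiplicative function is multiplicative on powers. -/
theorem A1_map_pow (f : Ideal (𝓞 K) → F) (h1 : f 1 = 1) (hmul : ∀ I J, f (I * J) = f I * f J)
    (I : Ideal (𝓞 K)) (e : ℕ) : f (I ^ e) = f I ^ e := by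
  induction e with
  | zero => simpa using h1
  | succ n ih => rw [pow_succ, hmul, ih, pow_succ]

/-- For a norm-summable completely multiplicative function, the values at primes have norm `< 1`. -/
theorem A1_norm_prime_lt_one (f : Ideal (𝓞 K) → F) (h1 : f 1 = 1)
    (hmul : ∀ I J, f (I * J) = f I * f J) (hsum : Summable fun I ↦ ‖f I‖)
    (𝔭 : HeightOneSpectrum (𝓞 K)) : ‖f 𝔭.asIdeal‖ < 1 := by
  have hinj : Function.Injective (fun e : ℕ ↦ 𝔭.asIdeal ^ e) :=
    pow_injective_of_not_isUnit 𝔭.irreducible.not_isUnit 𝔭.ne_bot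
  have h2 : Summable fun e : ℕ ↦ ‖f 𝔭.asIdeal‖ ^ e := by
    have := hsum.comp_injective hinj
    refine this.congr fun e ↦ ?_
    simp only [Function.comp_apply]
    rw [A1_map_pow K f h1 hmul, norm_pow]
  have h3 := summable_geometric_iff_norm_lt_one.mp h2
  simpa using h3

/-- The sum of a completely multiplicative norm-summable function over the nonzero ideals
supported on a finite set `T` of primes is the partial Euler product over `T`. -/
theorem A1_hasSum_supp_of_multiplicative (f : Ideal (𝓞 K) → F) (h1 : f 1 = 1)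
    (hmul : ∀ I J, f (I * J) = f I * f J) (hsum : Summable fun I ↦ ‖f I‖)
    (T : Finset (HeightOneSpectrum (𝓞 K))) :
    HasSum (fun J : A1_supp K T ↦ f J.1) (∏ 𝔭 ∈ T, (1 - f 𝔭.asIdeal)⁻¹) := by
  classical
  induction T using Finset.induction_on with
  | empty =>
    rw [Finset.prod_empty]
    have h1' : ∀ J : A1_supp K ∅, f J.1 = 1 := by
      rintro ⟨J, hJ⟩
      have : J = ⊤ := by simpa [A1_supp_empty] using hJ
      subst this
      simpa using h1
    letI : Unique (A1_supp K ∅) :=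
      { default := ⟨⊤, by simp [A1_supp_empty]⟩
        uniq := by
          rintro ⟨J, hJ⟩
          apply Subtype.ext
          simpa [A1_supp_empty] using hJ }
    have := hasSum_unique (fun J : A1_supp K ∅ ↦ f J.1)
    rwa [h1'] at this
  | insert 𝔮 T h𝔮 ih =>
    rw [Finset.prod_insert h𝔮]
    have hlt := A1_norm_prime_lt_one K f h1 hmul hsum 𝔮
    have hg : HasSum (fun e : ℕ ↦ f 𝔮.asIdeal ^ e) (1 - f 𝔮.asIdeal)⁻¹ :=
      hasSum_geometric_of_norm_lt_one hlt
    have hgn : Summable fun e : ℕ ↦ ‖f 𝔮.asIdeal ^ e‖ := by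
      simp_rw [norm_pow]
      exact summable_geometric_of_lt_one (norm_nonneg _) hlt
    have hTn : Summable fun J : A1_supp K T ↦ ‖f J.1‖ := hsum.subtype _
    have hsm : Summable fun x : ℕ × A1_supp K T ↦ f 𝔮.asIdeal ^ x.1 * f x.2.1 :=
      summable_mul_of_summable_norm (f := fun e : ℕ ↦ f 𝔮.asIdeal ^ e)
        (g := fun J : A1_supp K T ↦ f J.1) hgn hTn
    have hprod : HasSum (fun x : ℕ × A1_supp K T ↦ f 𝔮.asIdeal ^ x.1 * f x.2.1)
        ((1 - f 𝔮.asIdeal)⁻¹ * ∏ 𝔭 ∈ T, (1 - f 𝔭.asIdeal)⁻¹) :=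
      HasSum.mul (f := fun e : ℕ ↦ f 𝔮.asIdeal ^ e) (g := fun J : A1_supp K T ↦ f J.1) hg ih hsm
    rw [← (Equiv.ofBijective _ (A1_step_bijective K T 𝔮 h𝔮)).hasSum_iff]
    have hfun : ((fun J : A1_supp K (insert 𝔮 T) ↦ f J.1) ∘
        (Equiv.ofBijective _ (A1_step_bijective K T 𝔮 h𝔮))) =
        fun x : ℕ × A1_supp K T ↦ f 𝔮.asIdeal ^ x.1 * f x.2.1 := by
      funext x
      simp only [Function.comp_apply, Equiv.ofBijective_apply, A1_step_apply, hmul,
        A1_map_pow K f h1 hmul]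
    rw [hfun]
    exact hprod

/-- Every nonzero member of a finite set of ideals is supported on a suitable finite set of
primes (and then on every larger one). -/
theorem A1_exists_supp (F' : Finset (Ideal (𝓞 K))) :
    ∃ T₀ : Finset (HeightOneSpectrum (𝓞 K)), ∀ T, T₀ ⊆ T → ∀ I ∈ F', I ≠ ⊥ → I ∈ A1_supp K T := by
  classical
  have hfin : {𝔭 : HeightOneSpectrum (𝓞 K) | ∃ I ∈ F', I ≠ ⊥ ∧ I ≤ 𝔭.asIdeal}.Finite := by
    have : {𝔭 : HeightOneSpectrum (𝓞 K) | ∃ I ∈ F', I ≠ ⊥ ∧ I ≤ 𝔭.asIdeal} ⊆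
        ⋃ I ∈ (F'.filter (· ≠ ⊥) : Finset (Ideal (𝓞 K))),
          {𝔭 : HeightOneSpectrum (𝓞 K) | 𝔭.asIdeal ∣ I} := by
      rintro 𝔭 ⟨I, hIF, hI0, hI⟩
      simp only [Set.mem_iUnion]
      exact ⟨I, Finset.mem_filter.mpr ⟨hIF, hI0⟩, Ideal.dvd_iff_le.mpr hI⟩
    refine Set.Finite.subset (Set.Finite.biUnion (Finset.finite_toSet _) fun I hI ↦ ?_) this
    exact Ideal.finite_factors (Finset.mem_filter.mp hI).2
  refine ⟨hfin.toFinset, fun T hT I hI hI0 ↦ ⟨hI0, fun 𝔭 h𝔭 ↦ hT ?_⟩⟩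
  rw [Set.Finite.mem_toFinset]
  exact ⟨I, hI, hI0, h𝔭⟩

/-- **General Euler product over the ideals of a number field.** -/
theorem A1_hasProd_of_multiplicative (f : Ideal (𝓞 K) → F) (h0 : f ⊥ = 0) (h1 : f 1 = 1)
    (hmul : ∀ I J, f (I * J) = f I * f J) (hsum : Summable fun I ↦ ‖f I‖) :
    HasProd (fun 𝔭 : HeightOneSpectrum (𝓞 K) ↦ (1 - f 𝔭.asIdeal)⁻¹) (∑' I, f I) := by
  classical
  have hf : Summable f := hsum.of_norm
  rw [HasProd, Metric.tendsto_nhds]
  intro ε hε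
  obtain ⟨F', hF'⟩ := hf.tsum_vanishing (Metric.ball_mem_nhds 0 hε)
  obtain ⟨T₀, hT₀⟩ := A1_exists_supp K F'
  refine Filter.eventually_atTop.mpr ⟨T₀, fun T hT ↦ ?_⟩
  rw [← (A1_hasSum_supp_of_multiplicative K f h1 hmul hsum T).tsum_eq, dist_comm, dist_eq_norm]
  have hsplit := hf.tsum_subtype_add_tsum_subtype_compl (A1_supp K T)
  have hcompl : ∑' I : ((A1_supp K T)ᶜ : Set (Ideal (𝓞 K))), f I.1 =
      ∑' I : ((A1_supp K T)ᶜ \ {⊥} : Set (Ideal (𝓞 K))), f I.1 := by
    rw [tsum_subtype ((A1_supp K T)ᶜ : Set (Ideal (𝓞 K))) f,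
      tsum_subtype ((A1_supp K T)ᶜ \ {⊥} : Set (Ideal (𝓞 K))) f]
    refine tsum_congr fun I ↦ ?_
    by_cases hI : I = ⊥
    · subst hI
      simp [Set.indicator, h0]
    · by_cases hIT : I ∈ A1_supp K T
      · simp [Set.indicator, hIT]
      · simp [Set.indicator, hIT, hI]
  have hdisj : Disjoint ((A1_supp K T)ᶜ \ {⊥} : Set (Ideal (𝓞 K))) ↑F' := by
    rw [Set.disjoint_left]
    rintro I ⟨hIT, hI0⟩ hIF
    exact hIT (hT₀ T hT I hIF hI0)
  have := hF' _ hdisj
  rw [Metric.mem_ball, dist_zero_right] at this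
  rw [← hsplit, add_sub_cancel_left, hcompl]
  exact this

end A1gen

section A1twist

variable (K : Type*) [Field K] [NumberField K]

/-- The norm of `N(I)^(-s)` for complex `s ≠ 0` is `N(I)^(-Re s)`. -/
theorem A1_norm_absNorm_cpow (I : Ideal (𝓞 K)) {s : ℂ} (hs : 0 < s.re) :
    ‖((Ideal.absNorm I : ℕ) : ℂ) ^ (-s)‖ = A1_phi K s.re I := by
  unfold A1_phi
  rcases Nat.eq_zero_or_pos (Ideal.absNorm I) with h | h
  · have hs0 : s ≠ 0 := fun h0 ↦ by simp [h0] at hs
    rw [h]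
    simp [Complex.zero_cpow (neg_ne_zero.mpr hs0), Real.zero_rpow (neg_ne_zero.mpr hs.ne')]
  · rw [Complex.norm_natCast_cpow_of_pos h]
    simp

/-- **Twisted Euler product.**  For a completely multiplicative function `g` on ideals, bounded
by `1` (e.g. a character of the class group, or of a ray class group extended by zero), and
`Re s > 1`: the series `∑_I g(I) N(I)^(-s)` converges absolutely and equals the Euler product
`∏_𝔭 (1 - g(𝔭) N𝔭^(-s))⁻¹`. -/
theorem A1_hasProd_twisted (g : Ideal (𝓞 K) → ℂ) (hg1 : g 1 = 1)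
    (hgmul : ∀ I J, g (I * J) = g I * g J) (hgb : ∀ I, ‖g I‖ ≤ 1) {s : ℂ} (hs : 1 < s.re) :
    (Summable fun I : Ideal (𝓞 K) ↦ ‖g I * ((Ideal.absNorm I : ℕ) : ℂ) ^ (-s)‖) ∧
    HasProd (fun 𝔭 : HeightOneSpectrum (𝓞 K) ↦
        (1 - g 𝔭.asIdeal * ((Ideal.absNorm 𝔭.asIdeal : ℕ) : ℂ) ^ (-s))⁻¹)
      (∑' I : Ideal (𝓞 K), g I * ((Ideal.absNorm I : ℕ) : ℂ) ^ (-s)) := by
  have hs0 : 0 < s.re := by linarith
  have hsne : s ≠ 0 := fun h0 ↦ by simp [h0] at hs0
  have hsum : Summable fun I : Ideal (𝓞 K) ↦ ‖g I * ((Ideal.absNorm I : ℕ) : ℂ) ^ (-s)‖ := by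
    refine Summable.of_nonneg_of_le (fun _ ↦ norm_nonneg _) (fun I ↦ ?_) (A1_summable_phi K hs)
    rw [norm_mul, A1_norm_absNorm_cpow K I hs0]
    exact mul_le_of_le_one_left (A1_phi_nonneg K _ _) (hgb I)
  refine ⟨hsum, A1_hasProd_of_multiplicative K
    (fun I ↦ g I * ((Ideal.absNorm I : ℕ) : ℂ) ^ (-s)) ?_ ?_ ?_ hsum⟩
  · simp [Complex.zero_cpow (neg_ne_zero.mpr hsne)]
  · have : g ⊤ = 1 := by rw [← Ideal.one_eq_top]; exact hg1
    simp [this]
  · intro I J
    simp only [hgmul, map_mul, Nat.cast_mul]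
    rw [Complex.natCast_mul_natCast_cpow]
    ring

end A1twist

end Fermat.Agent.Cheb
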