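import Mathlib
import Fermat.Agent.Cheb.Defs
import Fermat.Agent.Cheb.LogAsymp
import Fermat.Agent.Cheb.PrimeZeta
import Fermat.Agent.Cheb.EulerProduct
import Fermat.Agent.Cheb.LogZeta
import Fermat.Agent.Cheb.DegTwo

/-!
# Pillar CHEB, modules A5 / A6: prime zeta sum asymptotics (hypothesis-free form)

* `hasLogAsymp_primeIdealZetaSum_univ` : `Σ_𝔭 N𝔭^(-s) = log (1/(s-1)) + O(1)` on `(1, 2]`.
* `hasLogAsymp_primeIdealZetaSum_degOne` : the same for the primes of degree one.

These are the wrappers around `PrimeZeta.lean` (the `_of` versions), fed with the Euler product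
(`EulerProduct.lean`), the logarithmic asymptotics of the Dedekind zeta function
(`LogZeta.lean`) and the bound for the primes of degree at least two (`DegTwo.lean`).
-/

set_option autoImplicit false

open NumberField IsDedekindDomain

namespace Fermat.Agent.Cheb

variable (K : Type*) [Field K] [NumberField K]

/-- **A5**: `Σ_𝔭 N𝔭^(-s) = log (1/(s-1)) + O(1)` on `(1, 2]`, the sum over all primes of `K`. -/
theorem hasLogAsymp_primeIdealZetaSum_univ :
    HasLogAsymp (NumberField.Set.primeIdealZetaSum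
      (Set.univ : Set (HeightOneSpectrum (𝓞 K)))) 1 :=
  hasLogAsymp_primeIdealZetaSum_univ_of K
    (fun _ hs ↦ hasProd_dedekindZeta K hs)
    (fun _ hs ↦ summable_absNorm_rpow_neg K hs)
    (hasLogAsymp_log_dedekindZeta K)

/-- **A6**: `Σ_{𝔭 of degree one} N𝔭^(-s) = log (1/(s-1)) + O(1)` on `(1, 2]`. -/
theorem hasLogAsymp_primeIdealZetaSum_degOne :
    HasLogAsymp (NumberField.Set.primeIdealZetaSum
      {𝔭 : HeightOneSpectrum (𝓞 K) | IsDegOne K 𝔭}) 1 :=
  hasLogAsymp_primeIdealZetaSum_degOne_of K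
    (fun _ hs ↦ summable_absNorm_rpow_neg K hs)
    (hasLogAsymp_primeIdealZetaSum_univ K)
    (primeIdealZetaSum_not_degOne_le K)

/-- There are infinitely many primes of degree one. -/
theorem infinite_degOne :
    {𝔭 : HeightOneSpectrum (𝓞 K) | IsDegOne K 𝔭}.Infinite :=
  infinite_of_hasLogAsymp (K := K) one_pos (hasLogAsymp_primeIdealZetaSum_degOne K)

end Fermat.Agent.Cheb
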