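import Mathlib
import Fermat.Agent.Cheb.Defs
import Fermat.Agent.Cheb.Split
import Fermat.Agent.Cheb.EulerProduct
import Fermat.Agent.Cheb.PrimeZetaFinal

/-!
# Pillar CHEB, module B1 (final form)

`hasLogAsymp_splitsCompletely`: the primes of degree one of `K` which split completely in the
Galois extension `E / K` have logarithmic density `1 / [E : K]`.
-/

set_option autoImplicit false
set_option linter.unusedSectionVars false

open NumberField IsDedekindDomain

namespace Fermat.Agent.Cheb

section B
variable (K E : Type*) [Field K] [NumberField K] [Field E] [NumberField E] [Algebra K E]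
  [IsGalois K E]

/-- **B1** (the degree one primes of `K` which split completely in `E` have density `1/[E:K]`,
in the logarithmic sense). -/
theorem hasLogAsymp_splitsCompletely :
    HasLogAsymp (NumberField.Set.primeIdealZetaSum
      {𝔭 : HeightOneSpectrum (𝓞 K) | IsDegOne K 𝔭 ∧ SplitsCompletely K E 𝔭})
      (1 / (Module.finrank K E : ℝ)) :=
  hasLogAsymp_splitsCompletely_of K E (fun _ hs ↦ summable_absNorm_rpow_neg E hs)
    (hasLogAsymp_primeIdealZetaSum_degOne E)

end B

end Fermat.Agent.Cheb
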